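import Mathlib
import Fermat.Agent.Lib.BadRed.Nodal.RRNodal
import Fermat.Agent.Lib.BadRed.Nodal.RedSpace2

set_option autoImplicit false

/-!
# Cluster T, WP N4 (nodal Deuring): the SEED interface and the shared definitions

N4 builds a `NodalSetup` (the reduction map `r` of ALL places with `push₁`, `push₂`, `node`,
`r_surj`) from a SEED: two constant reductions `S₁`, `S₂` of `F / K` over the same valuation ring
of `K` (of rank one), with the lattice property, nodes, and ONE effective divisor `D₀` such that the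
functions of `L(m D₀) ∩ O₁ ∩ O₂` reduce to pairs of the nodal Riemann-Roch space
`nodalRR s₁ s₂ (m R₁) (m R₂)`, where `deg R₁ + deg R₂ = deg D₀`, and `g + 1 ≤ g₁ + g₂ + s`.

Blueprint: `NOTES/blueprint-T-N4.md` (helper79).  This file: definitions only (sorry-free).
* `NodalCore` : `S₁ S₂ A_eq res_eq lat₁ lat₂ s₁ s₂` (injective) and `arch` (rank one);
* (`pairRed`, `pairRedSpace S₁ S₂ W`, `PairCompat` and the pair lattice property (PL) are in
  `RedSpace2.lean`, helper18);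
* `NodalCore.V D = pairRedSpace S₁ S₂ (L(D))`;
* `NodalSeed`.
-/

noncomputable section

open AlgebraicCurve Fermat.Agent.RR Fermat.Agent.Deuring

namespace Fermat.Agent.BadRed

variable {K F k Fk₁ Fk₂ : Type*} [Field K] [Field F] [Algebra K F]
  [Field k] [Field Fk₁] [Algebra k Fk₁] [Field Fk₂] [Algebra k Fk₂]

/-! ### the core data -/

/-- Two constant reductions of `F / K` over the same valuation ring of `K`, with the lattice
property, and nodes.  `arch`: the valuation of `K` has rank one. -/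
structure NodalCore (K F k Fk₁ Fk₂ : Type*) [Field K] [Field F] [Algebra K F]
    [Field k] [Field Fk₁] [Algebra k Fk₁] [Field Fk₂] [Algebra k Fk₂] (ι : Type*) where
  /-- the first constant reduction -/
  S₁ : ValSetup K F k Fk₁
  /-- the second constant reduction -/
  S₂ : ValSetup K F k Fk₂
  A_eq : S₁.A = S₂.A
  res_eq : ∀ (c : K) (h₁ : c ∈ S₁.A) (h₂ : c ∈ S₂.A), S₁.res ⟨c, h₁⟩ = S₂.res ⟨c, h₂⟩
  lat₁ : HasLattice S₁
  lat₂ : HasLattice S₂
  /-- the nodes, seen on the first component -/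
  s₁ : ι → Place k Fk₁
  /-- the nodes, seen on the second component -/
  s₂ : ι → Place k Fk₂
  s₁_inj : Function.Injective s₁
  s₂_inj : Function.Injective s₂
  /-- the valuation of `K` is of rank one (archimedean value group) -/
  arch : ∀ c : K, c ∈ S₁.A → c⁻¹ ∉ S₁.A → ∀ d : K, ∃ j : ℕ, c ^ j * d ∈ S₁.A

variable {ι : Type*}

/-- `𝔏(D) = L(D) ∩ O₁ ∩ O₂`. -/
def NodalCore.IsInt (C : NodalCore K F k Fk₁ Fk₂ ι) (D : Divisor K F) (f : F) : Prop :=
  f ∈ riemannRochSpace D ∧ f ∈ C.S₁.Ov ∧ f ∈ C.S₂.Ov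

/-- the two reductions are compatible. -/
theorem NodalCore.compat (C : NodalCore K F k Fk₁ Fk₂ ι) : PairCompat C.S₁ C.S₂ :=
  ⟨C.A_eq, C.res_eq⟩

/-- the pair reduction of an element (`= pairRed C.S₁ C.S₂ f`). -/
def NodalCore.red₂ (C : NodalCore K F k Fk₁ Fk₂ ι) (f : F) : Fk₁ × Fk₂ :=
  pairRed C.S₁ C.S₂ f

theorem NodalCore.red₂_def (C : NodalCore K F k Fk₁ Fk₂ ι) (f : F) :
    C.red₂ f = (C.S₁.red f, C.S₂.red f) := rfl

/-- `V(D) = {(red₁ f, red₂ f) | f ∈ L(D) ∩ O₁ ∩ O₂}`. -/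
def NodalCore.V (C : NodalCore K F k Fk₁ Fk₂ ι) (D : Divisor K F) : Submodule k (Fk₁ × Fk₂) :=
  pairRedSpace C.S₁ C.S₂ (riemannRochSpace D)

theorem NodalCore.mem_V_iff (C : NodalCore K F k Fk₁ Fk₂ ι) (D : Divisor K F)
    {y : Fk₁ × Fk₂} : y ∈ C.V D ↔ ∃ f, C.IsInt D f ∧ C.red₂ f = y := by
  unfold NodalCore.V
  rw [mem_pairRedSpace_iff C.compat]
  constructor
  · rintro ⟨x, h1, h2, h3, h4⟩
    exact ⟨x, ⟨h1, h2, h3⟩, h4⟩
  · rintro ⟨x, ⟨h1, h2, h3⟩, h4⟩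
    exact ⟨x, h1, h2, h3, h4⟩

theorem NodalCore.red₂_mem_V (C : NodalCore K F k Fk₁ Fk₂ ι) {D : Divisor K F} {f : F}
    (hf : C.IsInt D f) : C.red₂ f ∈ C.V D :=
  (C.mem_V_iff D).mpr ⟨f, hf, rfl⟩

theorem NodalCore.V_mono (C : NodalCore K F k Fk₁ Fk₂ ι) {D D' : Divisor K F} (h : D ≤ D') :
    C.V D ≤ C.V D' :=
  pairRedSpace_mono (riemannRochSpace_mono h)

theorem NodalCore.mem_A₂ (C : NodalCore K F k Fk₁ Fk₂ ι) {c : K} (hc : c ∈ C.S₁.A) :
    c ∈ C.S₂.A := C.A_eq ▸ hc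

/-- **(PL)** `dim_k V(D) = ℓ(D)`. -/
theorem NodalCore.finrank_V (C : NodalCore K F k Fk₁ Fk₂ ι) (D : Divisor K F) :
    Module.finrank k (C.V D) = ell D :=
  finrank_pairRedSpace_riemannRochSpace C.compat C.lat₁ C.lat₂ D

theorem NodalCore.finite_V (C : NodalCore K F k Fk₁ Fk₂ ι) (D : Divisor K F) :
    FiniteDimensional k (C.V D) :=
  finiteDimensional_pairRedSpace_riemannRochSpace C.compat C.lat₁ C.lat₂ D

theorem NodalCore.IsInt.mul (C : NodalCore K F k Fk₁ Fk₂ ι) {D D' : Divisor K F} {f g : F}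
    (hf : C.IsInt D f) (hg : C.IsInt D' g) : C.IsInt (D + D') (f * g) :=
  ⟨mul_mem_riemannRochSpace_add hf.1 hg.1, mul_mem hf.2.1 hg.2.1, mul_mem hf.2.2 hg.2.2⟩

theorem NodalCore.red₂_mul (C : NodalCore K F k Fk₁ Fk₂ ι) {D D' : Divisor K F} {f g : F}
    (hf : C.IsInt D f) (hg : C.IsInt D' g) : C.red₂ (f * g) = C.red₂ f * C.red₂ g := by
  rw [C.red₂_def, C.red₂_def, C.red₂_def, C.S₁.red_mul hf.2.1 hg.2.1,
    C.S₂.red_mul hf.2.2 hg.2.2]
  rfl

/-! ### the seed -/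

/-- **The SEED**: what the modular instance has to provide.  `D₀ ≥ 0` on the generic fibre
(for `X₀(q N₀)`: a multiple of the sum of the cusps), `R₁, R₂ ≥ 0` of positive degree on the two
components, away from the nodes, `deg R₁ + deg R₂ = deg D₀`, every function of
`L(m D₀) ∩ O₁ ∩ O₂` reduces to a pair of `nodalRR s₁ s₂ (m R₁) (m R₂)`, and
`g + 1 ≤ g₁ + g₂ + s`. -/
structure NodalSeed (K F k Fk₁ Fk₂ : Type*) [Field K] [Field F] [Algebra K F]
    [Field k] [Field Fk₁] [Algebra k Fk₁] [Field Fk₂] [Algebra k Fk₂] (ι : Type*) [Fintype ι]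
    extends NodalCore K F k Fk₁ Fk₂ ι where
  /-- the seed divisor on the generic fibre -/
  D₀ : Divisor K F
  /-- its reduction on the first component -/
  R₁ : Divisor k Fk₁
  /-- its reduction on the second component -/
  R₂ : Divisor k Fk₂
  D₀_nonneg : 0 ≤ D₀
  R₁_nonneg : 0 ≤ R₁
  R₂_nonneg : 0 ≤ R₂
  R₁_pos : 0 < Divisor.degree R₁
  R₂_pos : 0 < Divisor.degree R₂
  R₁_node : ∀ i, R₁ (s₁ i) = 0
  R₂_node : ∀ i, R₂ (s₂ i) = 0
  deg_eq : Divisor.degree R₁ + Divisor.degree R₂ = Divisor.degree D₀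
  seed : ∀ (m : ℕ) (f : F), f ∈ riemannRochSpace (m • D₀) → f ∈ S₁.Ov → f ∈ S₂.Ov →
    ((S₁.red f, S₂.red f) : Fk₁ × Fk₂) ∈ nodalRR s₁ s₂ (m • R₁) (m • R₂)
  /-- the nontrivial half of the genus relation `g + 1 = g₁ + g₂ + s` -/
  genus_le : genusFF K F + 1 ≤ genusFF k Fk₁ + genusFF k Fk₂ + Fintype.card ι

theorem NodalSeed.V_le [Fintype ι] (N : NodalSeed K F k Fk₁ Fk₂ ι) (m : ℕ) :
    N.toNodalCore.V (m • N.D₀) ≤ nodalRR N.s₁ N.s₂ (m • N.R₁) (m • N.R₂) := by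
  intro y hy
  obtain ⟨f, hf, rfl⟩ := (N.toNodalCore.mem_V_iff _).mp hy
  exact N.seed m f hf.1 hf.2.1 hf.2.2

end Fermat.Agent.BadRed
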