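import Mathlib
import Fermat.Agent.Lib.BadRed.Nodal.Deuring2.Seed

set_option autoImplicit false
set_option linter.unusedSectionVars false

/-!
# Cluster T, WP N4, steps S4 / S5: the PUSH inequality at a smooth point (helper18)

ABSTRACT form, for one component and one point of it.  Data: a nodal core `C` (two constant
reductions of `F / K`), a divisor `D₀` of `F`, a `k`-algebra homomorphism
`π : Fk₁ × Fk₂ → Fk` (`AlgHom.fst` or `AlgHom.snd`), a place `Q` of `Fk`, an integer `ρ`
(`= R Q`, the multiplicity of `Q` in the reduction of `D₀`), and a set `toQ` of places of `F`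
(the places REDUCING TO `Q`).  Hypotheses (`PushHyp`), all of them consequences of S1 - S3:

* `base`   : `π (V(m D₀)) ⊂ {x | ord_Q x ≥ - m ρ}`;
* `exact₀` : for `m ≥ m₁` some element of `V(m D₀)` has order exactly `- m ρ` at `Q`;
* `pole`   : for `P ∈ toQ` some element of some `V(m D₀ + P)` has order exactly `- m ρ - 1`;
* `away`   : for `P ∉ toQ` some element of some `V(m D₀ - P)` has order exactly `- m ρ`.

Results:
* `PushHyp.sum_ord_le` (**S4**) : for `g ∈ O₁ ∩ O₂` with `π (red g) ≠ 0`:
  `∑_{P ∈ toQ} ord_P g ≤ ord_Q (π (red g))`;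
* `PushHyp.sum_ord_eq` (**S5**) : equality if `g⁻¹ ∈ O₁ ∩ O₂` as well.
-/

noncomputable section

open AlgebraicCurve Fermat.Agent.RR Fermat.Agent.Deuring

namespace Fermat.Agent.BadRed

namespace Push

/-! ### generalities -/

section OrdGE

variable {k Fk : Type*} [Field k] [Field Fk] [Algebra k Fk]

/-- the functions of order `≥ n` at `Q`. -/
def ordGE (Q : Place k Fk) (n : ℤ) : Submodule k Fk where
  carrier := {x | x = 0 ∨ n ≤ Q.ord x}
  zero_mem' := Or.inl rfl
  add_mem' := by
    intro a b ha hb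
    rcases eq_or_ne a 0 with rfl | ha0
    · rwa [zero_add]
    rcases eq_or_ne b 0 with rfl | hb0
    · rwa [add_zero]
    rcases eq_or_ne (a + b) 0 with h0 | h0
    · exact Or.inl h0
    right
    exact le_trans (le_min (ha.resolve_left ha0) (hb.resolve_left hb0))
      (Fermat.Agent.S24Res.ord_add_ge Q ha0 hb0 h0)
  smul_mem' := by
    intro c a ha
    rcases eq_or_ne a 0 with rfl | ha0
    · left
      rw [smul_zero]
    rcases eq_or_ne c 0 with rfl | hc0
    · left
      rw [zero_smul]
    right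
    show n ≤ Q.ord (c • a)
    rw [Algebra.smul_def, Q.ord_mul ((map_ne_zero (algebraMap k Fk)).mpr hc0) ha0,
      Fermat.Agent.S24Res.ord_algebraMap, zero_add]
    exact ha.resolve_left ha0

theorem mem_ordGE {Q : Place k Fk} {n : ℤ} {x : Fk} : x ∈ ordGE Q n ↔ x = 0 ∨ n ≤ Q.ord x :=
  Iff.rfl

theorem le_of_mem_ordGE {Q : Place k Fk} {n : ℤ} {x : Fk} (h : x ∈ ordGE Q n) (hx : x ≠ 0) :
    n ≤ Q.ord x := h.resolve_left hx

theorem mem_ordGE_of_eq {Q : Place k Fk} {n : ℤ} {x : Fk} (h : Q.ord x = n) : x ∈ ordGE Q n :=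
  Or.inr h.ge

theorem ordGE_mono {Q : Place k Fk} {n n' : ℤ} (h : n' ≤ n) : ordGE Q n ≤ ordGE Q n' := by
  rintro x (rfl | hx)
  · exact Or.inl rfl
  · exact Or.inr (h.trans hx)

/-- division by an element of exact order. -/
theorem mem_ordGE_of_mul {Q : Place k Fk} {n e : ℤ} {a b : Fk} (hab : a * b ∈ ordGE Q n)
    (hb : b ≠ 0) (he : Q.ord b = e) : a ∈ ordGE Q (n - e) := by
  rcases eq_or_ne a 0 with rfl | ha
  · exact Or.inl rfl
  right
  have h := le_of_mem_ordGE hab (mul_ne_zero ha hb)
  rw [Q.ord_mul ha hb, he] at h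
  omega

end OrdGE

section LinAlg

variable {k V : Type*} [Field k] [AddCommGroup V] [Module k V]

/-- a subspace of codimension at most one and an element outside. -/
theorem exists_sub_smul_mem {W W' : Submodule k V} [FiniteDimensional k W'] (hle : W ≤ W')
    (hdim : Module.finrank k W' ≤ Module.finrank k W + 1) {v : V} (hv : v ∈ W') (hvW : v ∉ W)
    {z : V} (hz : z ∈ W') : ∃ c : k, z - c • v ∈ W := by
  have hsup : W ⊔ Submodule.span k {v} ≤ W' :=
    sup_le hle ((Submodule.span_singleton_le_iff_mem v W').mpr hv)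
  have : FiniteDimensional k ↥(W ⊔ Submodule.span k {v}) :=
    Submodule.finiteDimensional_of_le hsup
  have hlt : W < W ⊔ Submodule.span k {v} := by
    refine lt_of_le_of_ne le_sup_left fun h => hvW ?_
    rw [h]
    exact Submodule.mem_sup_right (Submodule.mem_span_singleton_self v)
  have h1 := Submodule.finrank_lt_finrank_of_lt hlt
  have heq : W ⊔ Submodule.span k {v} = W' :=
    Submodule.eq_of_le_of_finrank_le hsup (by omega)
  rw [← heq] at hz
  obtain ⟨y, hy, x, hx, rfl⟩ := Submodule.mem_sup.mp hz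
  obtain ⟨c, rfl⟩ := Submodule.mem_span_singleton.mp hx
  refine ⟨c, ?_⟩
  rw [add_sub_cancel_right]
  exact hy

end LinAlg

section ListDiv

variable {K F : Type*} [Field K] [Field F] [Algebra K F]

/-- the sum of a list of places, as a divisor. -/
def listDiv (l : List (Place K F)) : Divisor K F :=
  (l.map fun P => (Finsupp.single P 1 : Divisor K F)).sum

theorem listDiv_nil : listDiv ([] : List (Place K F)) = 0 := rfl

theorem listDiv_cons (P : Place K F) (l : List (Place K F)) :
    listDiv (P :: l) = Finsupp.single P 1 + listDiv l := by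
  unfold listDiv
  rw [List.map_cons, List.sum_cons]

theorem listDiv_append (l l' : List (Place K F)) :
    listDiv (l ++ l') = listDiv l + listDiv l' := by
  unfold listDiv
  rw [List.map_append, List.sum_append]

theorem listDiv_replicate (n : ℕ) (P : Place K F) :
    listDiv (List.replicate n P) = Finsupp.single P (n : ℤ) := by
  induction n with
  | zero =>
    rw [List.replicate_zero, listDiv_nil, Nat.cast_zero, Finsupp.single_zero]
  | succ n ih =>
    rw [List.replicate_succ, listDiv_cons, ih, ← Finsupp.single_add, Nat.cast_succ, add_comm]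

theorem listDiv_nonneg (l : List (Place K F)) : 0 ≤ listDiv l := by
  induction l with
  | nil => exact le_refl _
  | cons P l ih =>
    rw [listDiv_cons]
    have h1 : (0 : Divisor K F) ≤ Finsupp.single P 1 := by
      intro v
      rw [Finsupp.coe_zero, Pi.zero_apply]
      by_cases hv : P = v
      · subst hv
        rw [Finsupp.single_eq_same]
        exact zero_le_one
      · rw [Finsupp.single_eq_of_ne' hv]
    exact add_nonneg h1 ih

/-- every divisor is a difference of sums of places, sorted by a predicate. -/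
theorem exists_lists (p : Place K F → Prop) (E : Divisor K F) :
    ∃ lp lm lp' lm' : List (Place K F),
      (∀ P ∈ lp, p P) ∧ (∀ P ∈ lm, p P) ∧ (∀ P ∈ lp', ¬ p P) ∧ (∀ P ∈ lm', ¬ p P) ∧
      E = listDiv lp - listDiv lm + listDiv lp' - listDiv lm' ∧
      ∀ (s : Finset (Place K F)) [DecidablePred p], E.support ⊆ s →
        ((lp.length : ℤ) - lm.length) = ∑ P ∈ s with p P, E P := by
  classical
  induction E using Finsupp.induction with
  | zero =>
    refine ⟨[], [], [], [], by simp, by simp, by simp, by simp, ?_, ?_⟩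
    · simp [listDiv_nil]
    · intro s _ _
      simp
  | single_add a b f haf hb ih =>
    obtain ⟨lp, lm, lp', lm', h1, h2, h3, h4, h5, h6⟩ := ih
    have hb' : Finsupp.single a b
        = listDiv (List.replicate b.toNat a) - listDiv (List.replicate (-b).toNat a) := by
      rw [listDiv_replicate, listDiv_replicate, ← Finsupp.single_sub]
      congr 1
      omega
    have hsum : ∀ (s : Finset (Place K F)) [DecidablePred p],
        (Finsupp.single a b + f).support ⊆ s →
        ∑ P ∈ s with p P, (Finsupp.single a b + f) P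
          = (if p a then b else 0) + ∑ P ∈ s with p P, f P := by
      intro s _ hs
      have has : a ∈ s := by
        apply hs
        rw [Finsupp.mem_support_iff, Finsupp.add_apply, Finsupp.single_eq_same,
          Finsupp.notMem_support_iff.mp haf, add_zero]
        exact hb
      simp only [Finsupp.add_apply, Finset.sum_add_distrib]
      congr 1
      by_cases hpa : p a
      · rw [if_pos hpa]
        rw [Finset.sum_eq_single a]
        · exact Finsupp.single_eq_same
        · intro c _ hca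
          exact Finsupp.single_eq_of_ne' (Ne.symm hca)
        · intro h
          exact absurd (Finset.mem_filter.mpr ⟨has, hpa⟩) h
      · rw [if_neg hpa]
        apply Finset.sum_eq_zero
        intro c hc
        have hca : c ≠ a := by
          rintro rfl
          exact hpa (Finset.mem_filter.mp hc).2
        exact Finsupp.single_eq_of_ne' (Ne.symm hca)
    have hfs : ∀ s : Finset (Place K F), (Finsupp.single a b + f).support ⊆ s →
        f.support ⊆ s := by
      intro s hs c hc
      apply hs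
      rw [Finsupp.mem_support_iff, Finsupp.add_apply]
      have hca : c ≠ a := by
        rintro rfl
        exact haf hc
      rw [Finsupp.single_eq_of_ne' (Ne.symm hca), zero_add]
      exact Finsupp.mem_support_iff.mp hc
    by_cases hpa : p a
    · refine ⟨List.replicate b.toNat a ++ lp, List.replicate (-b).toNat a ++ lm, lp', lm',
        ?_, ?_, h3, h4, ?_, ?_⟩
      · intro P hP
        rcases List.mem_append.mp hP with h | h
        · rw [(List.mem_replicate.mp h).2]
          exact hpa
        · exact h1 P h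
      · intro P hP
        rcases List.mem_append.mp hP with h | h
        · rw [(List.mem_replicate.mp h).2]
          exact hpa
        · exact h2 P h
      · rw [listDiv_append, listDiv_append]
        conv_lhs => rw [hb', h5]
        abel
      · intro s _ hs
        rw [hsum s hs, if_pos hpa, ← h6 s (hfs s hs), List.length_append, List.length_append,
          List.length_replicate, List.length_replicate]
        push_cast
        omega
    · refine ⟨lp, lm, List.replicate b.toNat a ++ lp', List.replicate (-b).toNat a ++ lm',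
        h1, h2, ?_, ?_, ?_, ?_⟩
      · intro P hP
        rcases List.mem_append.mp hP with h | h
        · rw [(List.mem_replicate.mp h).2]
          exact hpa
        · exact h3 P h
      · intro P hP
        rcases List.mem_append.mp hP with h | h
        · rw [(List.mem_replicate.mp h).2]
          exact hpa
        · exact h4 P h
      · rw [listDiv_append, listDiv_append]
        conv_lhs => rw [hb', h5]
        abel
      · intro s _ hs
        rw [hsum s hs, if_neg hpa, ← h6 s (hfs s hs), zero_add]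

end ListDiv

end Push

open Push

variable {K F k Fk₁ Fk₂ : Type*} [Field K] [Field F] [Algebra K F]
  [Field k] [Field Fk₁] [Algebra k Fk₁] [Field Fk₂] [Algebra k Fk₂] {ι : Type*}

/-- `V(D) · V(D') ⊂ V(D + D')`. -/
theorem Push.mul_mem_V (C : NodalCore K F k Fk₁ Fk₂ ι) {D D' : Divisor K F}
    {y y' : Fk₁ × Fk₂} (hy : y ∈ C.V D) (hy' : y' ∈ C.V D') : y * y' ∈ C.V (D + D') :=
  mul_mem_pairRedSpace_riemannRochSpace C.compat hy hy'

/-- `1 ∈ V(0)`. -/
theorem Push.one_mem_V_zero (C : NodalCore K F k Fk₁ Fk₂ ι) :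
    (1 : Fk₁ × Fk₂) ∈ C.V 0 := by
  have h := pairRed_mem_pairRedSpace (S₁ := C.S₁) (S₂ := C.S₂) (riemannRochSpace 0)
    (one_mem_riemannRochSpace_of_nonneg (le_refl (0 : Divisor K F))) (one_mem _) (one_mem _)
  rw [pairRed_one] at h
  exact h

/-- `V(D) ⊂ V(D + P)` has codimension at most one. -/
theorem Push.finrank_V_add_single_le (C : NodalCore K F k Fk₁ Fk₂ ι) (D : Divisor K F)
    (P : Place K F) :
    Module.finrank k (C.V (D + Finsupp.single P 1)) ≤ Module.finrank k (C.V D) + 1 := by
  rw [C.finrank_V, C.finrank_V]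
  exact ell_add_single_le C.S₁.hF D P

/-- **Hypotheses of the push inequality** at the point `Q` of the component `π`. -/
structure PushHyp (C : NodalCore K F k Fk₁ Fk₂ ι) (D₀ : Divisor K F) {Fk : Type*} [Field Fk]
    [Algebra k Fk] (π : Fk₁ × Fk₂ →ₐ[k] Fk) (Q : Place k Fk) (ρ : ℤ)
    (toQ : Place K F → Prop) : Prop where
  /-- the reduction of `m D₀` has multiplicity at most `m ρ` at `Q` -/
  base : ∀ (m : ℕ) (y : Fk₁ × Fk₂), y ∈ C.V (m • D₀) → π y ∈ ordGE Q (-(m * ρ))
  /-- and exactly `m ρ` for large `m` -/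
  exact₀ : ∃ m₁ : ℕ, ∀ m : ℕ, m₁ ≤ m →
    ∃ u ∈ C.V (m • D₀), π u ≠ 0 ∧ Q.ord (π u) = -(m * ρ)
  /-- a place reducing to `Q` produces a pole at `Q` -/
  pole : ∀ P, toQ P → ∃ (m : ℕ) (w : Fk₁ × Fk₂),
    w ∈ C.V (m • D₀ + Finsupp.single P 1) ∧ π w ≠ 0 ∧ Q.ord (π w) = -(m * ρ) - 1
  /-- a place not reducing to `Q` can be avoided -/
  away : ∀ P, ¬ toQ P → ∃ (m : ℕ) (h : Fk₁ × Fk₂),
    h ∈ C.V (m • D₀ - Finsupp.single P 1) ∧ π h ≠ 0 ∧ Q.ord (π h) = -(m * ρ)

namespace PushHyp

variable {C : NodalCore K F k Fk₁ Fk₂ ι} {D₀ : Divisor K F} {Fk : Type*} [Field Fk]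
  [Algebra k Fk] {π : Fk₁ × Fk₂ →ₐ[k] Fk} {Q : Place k Fk} {ρ : ℤ} {toQ : Place K F → Prop}

/-- (A1) elements with a pole of exact order along a sum of places reducing to `Q`. -/
theorem exists_exact_pole (H : PushHyp C D₀ π Q ρ toQ) (l : List (Place K F))
    (hl : ∀ P ∈ l, toQ P) :
    ∃ (m : ℕ) (y : Fk₁ × Fk₂), y ∈ C.V (m • D₀ + listDiv l) ∧ π y ≠ 0 ∧
      Q.ord (π y) = -(m * ρ) - l.length := by
  induction l with
  | nil =>
    refine ⟨0, 1, ?_, ?_, ?_⟩
    · rw [zero_smul, listDiv_nil, add_zero]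
      exact Push.one_mem_V_zero C
    · rw [map_one]
      exact one_ne_zero
    · rw [map_one, Place.ord_one]
      simp
  | cons P l ih =>
    obtain ⟨m, y, hy, hy0, hyo⟩ := ih fun P' hP' => hl P' (List.mem_cons_of_mem _ hP')
    obtain ⟨m', w, hw, hw0, hwo⟩ := H.pole P (hl P List.mem_cons_self)
    refine ⟨m + m', y * w, ?_, ?_, ?_⟩
    · have e : (m + m') • D₀ + listDiv (P :: l)
          = (m • D₀ + listDiv l) + (m' • D₀ + Finsupp.single P 1) := by
        rw [listDiv_cons, add_smul]
        abel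
      rw [e]
      exact Push.mul_mem_V C hy hw
    · rw [map_mul]
      exact mul_ne_zero hy0 hw0
    · rw [map_mul, Q.ord_mul hy0 hw0, hyo, hwo, List.length_cons]
      push_cast
      ring

/-- elements of exact order of every large level. -/
theorem exists_exact_level (H : PushHyp C D₀ π Q ρ toQ) :
    ∃ m₁ : ℕ, ∀ m : ℕ, m₁ ≤ m → ∃ u ∈ C.V (m • D₀), π u ≠ 0 ∧ Q.ord (π u) = -(m * ρ) :=
  H.exact₀

/-- (A2) the pole order along a sum of places reducing to `Q` is at most the number of
places. -/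
theorem pole_le (H : PushHyp C D₀ π Q ρ toQ) (l : List (Place K F))
    (hl : ∀ P ∈ l, toQ P) (m : ℕ) (z : Fk₁ × Fk₂) (hz : z ∈ C.V (m • D₀ + listDiv l)) :
    π z ∈ ordGE Q (-(m * ρ) - l.length) := by
  induction l generalizing m z with
  | nil =>
    rw [listDiv_nil, add_zero] at hz
    have := H.base m z hz
    simpa using this
  | cons P l ih =>
    have hl' : ∀ P' ∈ l, toQ P' := fun P' hP' => hl P' (List.mem_cons_of_mem _ hP')
    obtain ⟨mv, v, hv, hv0, hvo⟩ := H.exists_exact_pole (P :: l) hl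
    obtain ⟨m₁, hm₁⟩ := H.exact₀
    obtain ⟨u, hu, hu0, huo⟩ := hm₁ (mv + m₁) (Nat.le_add_left _ _)
    obtain ⟨u', hu', hu'0, hu'o⟩ := hm₁ (m + m₁) (Nat.le_add_left _ _)
    -- everything at the level `M = m + mv + m₁`
    set M : ℕ := m + mv + m₁ with hM
    set D : Divisor K F := M • D₀ + listDiv l with hD
    have eM : M • D₀ + listDiv (P :: l) = D + Finsupp.single P 1 := by
      rw [hD, listDiv_cons]
      abel
    have hz' : z * u ∈ C.V (D + Finsupp.single P 1) := by
      have e : D + Finsupp.single P 1 = (m • D₀ + listDiv (P :: l)) + (mv + m₁) • D₀ := by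
        rw [← eM, hM, add_smul, add_smul, add_smul]
        abel
      rw [e]
      exact Push.mul_mem_V C hz hu
    have hv' : v * u' ∈ C.V (D + Finsupp.single P 1) := by
      have e : D + Finsupp.single P 1 = (mv • D₀ + listDiv (P :: l)) + (m + m₁) • D₀ := by
        rw [← eM, hM, add_smul, add_smul, add_smul]
        abel
      rw [e]
      exact Push.mul_mem_V C hv hu'
    have hvu0 : π (v * u') ≠ 0 := by
      rw [map_mul]
      exact mul_ne_zero hv0 hu'0
    have hvuo : Q.ord (π (v * u')) = -(M * ρ) - (l.length + 1) := by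
      rw [map_mul, Q.ord_mul hv0 hu'0, hvo, hu'o, List.length_cons, hM]
      push_cast
      ring
    have hvD : v * u' ∉ C.V D := by
      intro hmem
      have h1 := le_of_mem_ordGE (ih hl' M (v * u') hmem) hvu0
      rw [hvuo] at h1
      omega
    have := C.finite_V (D + Finsupp.single P 1)
    obtain ⟨c, hc⟩ := exists_sub_smul_mem
      (C.V_mono (Fermat.Agent.RR.le_add_single D P)) (Push.finrank_V_add_single_le C D P) hv' hvD hz'
    -- `π (z u) = π (z u - c v u') + c π (v u')`
    have h1 : π (z * u - c • (v * u')) ∈ ordGE Q (-(M * ρ) - (l.length + 1)) :=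
      ordGE_mono (by omega) (ih hl' M _ hc)
    have h2 : c • π (v * u') ∈ ordGE Q (-(M * ρ) - (l.length + 1)) :=
      Submodule.smul_mem _ c (mem_ordGE_of_eq hvuo)
    have h3 : π (z * u) ∈ ordGE Q (-(M * ρ) - (l.length + 1)) := by
      have e : π (z * u) = π (z * u - c • (v * u')) + c • π (v * u') := by
        rw [map_sub, map_smul]
        abel
      rw [e]
      exact Submodule.add_mem _ h1 h2
    rw [map_mul] at h3
    have h4 := mem_ordGE_of_mul h3 hu0 huo
    have e : -(↑M * ρ) - (↑l.length + 1) - -(↑(mv + m₁) * ρ)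
        = -(↑m * ρ) - ↑(P :: l).length := by
      rw [hM, List.length_cons]
      push_cast
      ring
    rw [e] at h4
    exact h4

/-- (B) zeros and poles along places reducing to `Q`. -/
theorem zero_pole_le (H : PushHyp C D₀ π Q ρ toQ) (lp lm : List (Place K F))
    (hlp : ∀ P ∈ lp, toQ P) (hlm : ∀ P ∈ lm, toQ P) (m : ℕ) (z : Fk₁ × Fk₂)
    (hz : z ∈ C.V (m • D₀ + listDiv lm - listDiv lp)) :
    π z ∈ ordGE Q (-(m * ρ) - lm.length + lp.length) := by
  obtain ⟨m', y, hy, hy0, hyo⟩ := H.exists_exact_pole lp hlp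
  have hzy : z * y ∈ C.V ((m + m') • D₀ + listDiv lm) := by
    have e : (m + m') • D₀ + listDiv lm
        = (m • D₀ + listDiv lm - listDiv lp) + (m' • D₀ + listDiv lp) := by
      rw [add_smul]
      abel
    rw [e]
    exact Push.mul_mem_V C hz hy
  have h1 := H.pole_le lm hlm (m + m') (z * y) hzy
  rw [map_mul] at h1
  have h2 := mem_ordGE_of_mul h1 hy0 hyo
  have e : -(↑(m + m') * ρ) - ↑lm.length - (-(↑m' * ρ) - ↑lp.length)
      = -(↑m * ρ) - ↑lm.length + ↑lp.length := by
    push_cast
    ring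
  rw [e] at h2
  exact h2

/-- (C) a function vanishing along a sum of places not reducing to `Q`, of exact order at
`Q`. -/
theorem exists_away (H : PushHyp C D₀ π Q ρ toQ) (l : List (Place K F))
    (hl : ∀ P ∈ l, ¬ toQ P) :
    ∃ (m : ℕ) (h : Fk₁ × Fk₂), h ∈ C.V (m • D₀ - listDiv l) ∧ π h ≠ 0 ∧
      Q.ord (π h) = -(m * ρ) := by
  induction l with
  | nil =>
    refine ⟨0, 1, ?_, ?_, ?_⟩
    · rw [zero_smul, listDiv_nil, sub_zero]
      exact Push.one_mem_V_zero C
    · rw [map_one]
      exact one_ne_zero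
    · rw [map_one, Place.ord_one]
      simp
  | cons P l ih =>
    obtain ⟨m, y, hy, hy0, hyo⟩ := ih fun P' hP' => hl P' (List.mem_cons_of_mem _ hP')
    obtain ⟨m', w, hw, hw0, hwo⟩ := H.away P (hl P List.mem_cons_self)
    refine ⟨m + m', y * w, ?_, ?_, ?_⟩
    · have e : (m + m') • D₀ - listDiv (P :: l)
          = (m • D₀ - listDiv l) + (m' • D₀ - Finsupp.single P 1) := by
        rw [listDiv_cons, add_smul]
        abel
      rw [e]
      exact Push.mul_mem_V C hy hw
    · rw [map_mul]
      exact mul_ne_zero hy0 hw0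
    · rw [map_mul, Q.ord_mul hy0 hw0, hyo, hwo]
      push_cast
      ring

open Classical in
/-- **S4, the PUSH inequality**: for `g ∈ O₁ ∩ O₂` whose reduction on the component `π` is not
zero, the order of the reduction at `Q` is at least the sum of the orders of `g` at the places
reducing to `Q`. -/
theorem sum_ord_le (H : PushHyp C D₀ π Q ρ toQ) {g : F} (hg₁ : g ∈ C.S₁.Ov)
    (hg₂ : g ∈ C.S₂.Ov) (hπ : π (pairRed C.S₁ C.S₂ g) ≠ 0) :
    ∑ P ∈ (divOf C.S₁.hF g).support with toQ P, P.ord g ≤ Q.ord (π (pairRed C.S₁ C.S₂ g)) := by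
  have hg0 : g ≠ 0 := by
    rintro rfl
    apply hπ
    rw [pairRed_zero, map_zero]
  obtain ⟨lp, lm, lp', lm', h1, h2, h3, h4, h5, h6⟩ := exists_lists toQ (divOf C.S₁.hF g)
  have h6' := h6 (divOf C.S₁.hF g).support (le_refl _)
  have hsum : ∑ P ∈ (divOf C.S₁.hF g).support with toQ P, P.ord g
      = (lp.length : ℤ) - lm.length := by
    rw [h6']
    refine Finset.sum_congr rfl fun P _ => ?_
    rw [divOf_apply]
  rw [hsum]
  obtain ⟨m, h, hh, hh0, hho⟩ := H.exists_away lm' h4
  obtain ⟨f, hf, rfl⟩ := (C.mem_V_iff _).mp hh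
  have hf0 : f ≠ 0 := by
    rintro rfl
    apply hh0
    rw [C.red₂_def, C.S₁.red_zero, C.S₂.red_zero]
    exact map_zero π
  -- `f g ∈ L(m D₀ + lm - lp)`
  have hfg : C.IsInt (m • D₀ + listDiv lm - listDiv lp) (f * g) := by
    refine ⟨?_, mul_mem hf.2.1 hg₁, mul_mem hf.2.2 hg₂⟩
    rw [mem_riemannRochSpace_iff]
    intro v
    right
    have hfv := (mem_riemannRochSpace_iff.mp hf.1 v).resolve_left hf0
    have hgv : v.ord g = (listDiv lp - listDiv lm + listDiv lp' - listDiv lm' : Divisor K F) v := by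
      rw [← h5, divOf_apply]
    have hnn : 0 ≤ (listDiv lp' : Divisor K F) v := listDiv_nonneg lp' v
    rw [v.ord_mul hf0 hg0, hgv]
    simp only [Finsupp.coe_add, Finsupp.coe_sub, Pi.add_apply, Pi.sub_apply] at hfv ⊢
    omega
  have hz := C.red₂_mem_V hfg
  have hmul : C.red₂ (f * g) = C.red₂ f * pairRed C.S₁ C.S₂ g := by
    rw [C.red₂_def, C.red₂_def, C.S₁.red_mul hf.2.1 hg₁, C.S₂.red_mul hf.2.2 hg₂]
    rfl
  rw [hmul] at hz
  have hB := H.zero_pole_le lp lm h1 h2 m _ hz
  rw [map_mul, mul_comm (π (C.red₂ f))] at hB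
  have hC := mem_ordGE_of_mul hB hh0 hho
  have hD := le_of_mem_ordGE hC hπ
  omega

open Classical in
/-- **S5, the PUSH equality** for units of both valuation rings. -/
theorem sum_ord_eq (H : PushHyp C D₀ π Q ρ toQ) {g : F} (hg₁ : g ∈ C.S₁.Ov)
    (hg₂ : g ∈ C.S₂.Ov) (hi₁ : g⁻¹ ∈ C.S₁.Ov) (hi₂ : g⁻¹ ∈ C.S₂.Ov) (hg0 : g ≠ 0) :
    ∑ P ∈ (divOf C.S₁.hF g).support with toQ P, P.ord g = Q.ord (π (pairRed C.S₁ C.S₂ g)) := by
  have hmul : pairRed C.S₁ C.S₂ g * pairRed C.S₁ C.S₂ g⁻¹ = 1 := by
    rw [← pairRed_mul hg₁ hg₂ hi₁ hi₂, mul_inv_cancel₀ hg0, pairRed_one]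
  have hπmul : π (pairRed C.S₁ C.S₂ g) * π (pairRed C.S₁ C.S₂ g⁻¹) = 1 := by
    rw [← map_mul, hmul, map_one]
  have hπ : π (pairRed C.S₁ C.S₂ g) ≠ 0 := left_ne_zero_of_mul_eq_one hπmul
  have hπ' : π (pairRed C.S₁ C.S₂ g⁻¹) ≠ 0 := right_ne_zero_of_mul_eq_one hπmul
  apply le_antisymm (H.sum_ord_le hg₁ hg₂ hπ)
  have h1 := H.sum_ord_le hi₁ hi₂ hπ'
  have h2 : Q.ord (π (pairRed C.S₁ C.S₂ g⁻¹)) = -Q.ord (π (pairRed C.S₁ C.S₂ g)) := by
    have := congrArg Q.ord hπmul
    rw [Q.ord_mul hπ hπ', Place.ord_one] at this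
    omega
  have h3 : ∑ P ∈ (divOf C.S₁.hF g⁻¹).support with toQ P, P.ord g⁻¹
      = -∑ P ∈ (divOf C.S₁.hF g).support with toQ P, P.ord g := by
    have hs : (divOf C.S₁.hF g⁻¹).support = (divOf C.S₁.hF g).support := by
      rw [divOf_inv, Finsupp.support_neg]
    rw [hs, ← Finset.sum_neg_distrib]
    refine Finset.sum_congr rfl fun P _ => ?_
    rw [P.ord_inv]
  rw [h2, h3] at h1
  omega

end PushHyp

end Fermat.Agent.BadRed
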