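import Mathlib
import Fermat.Agent.Lib.BadRed.Nodal.Deuring2.Seed

set_option autoImplicit false

/-!
# Cluster T, WP N4, step S1: `V(m D₀) = L_C(m R₁, m R₂)` for `m ≥ m₀`, and the genus relation

Input: the pair lattice property (PL) `dim_k V(W) = dim_K W` (`RedSpace2.lean`, helper18).
-/

noncomputable section

open AlgebraicCurve Fermat.Agent.RR Fermat.Agent.Deuring

namespace Fermat.Agent.BadRed

variable {K F k Fk₁ Fk₂ : Type*} [Field K] [Field F] [Algebra K F]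
  [Field k] [Field Fk₁] [Algebra k Fk₁] [Field Fk₂] [Algebra k Fk₂]

variable {ι : Type*} [Fintype ι]

/-- the threshold of S1. -/
def NodalSeed.m₀ (_N : NodalSeed K F k Fk₁ Fk₂ ι) : ℕ :=
  2 * (genusFF K F + genusFF k Fk₁ + genusFF k Fk₂) + Fintype.card ι + 1

variable (N : NodalSeed K F k Fk₁ Fk₂ ι)

theorem NodalSeed.degree_D₀_pos : 0 < Divisor.degree N.D₀ := by
  have h1 := N.R₁_pos
  have h2 := N.R₂_pos
  have h3 := N.deg_eq
  omega

theorem NodalSeed.ell_smul_D₀ {m : ℕ} (hm : N.m₀ ≤ m) :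
    (ell (m • N.D₀) : ℤ) = m * Divisor.degree N.D₀ + 1 - (genusFF K F : ℤ) := by
  have hdeg : Divisor.degree (m • N.D₀) = m * Divisor.degree N.D₀ := by
    rw [map_nsmul, nsmul_eq_mul]
  rw [← hdeg]
  apply ell_of_degree_gt N.S₁.hF
  rw [hdeg]
  have h1 := N.degree_D₀_pos
  have h2 : (N.m₀ : ℤ) ≤ m := by exact_mod_cast hm
  have h3 : (m : ℤ) ≤ m * Divisor.degree N.D₀ := by nlinarith
  unfold NodalSeed.m₀ at h2
  push_cast at h2
  have := Int.natCast_nonneg (genusFF k Fk₁)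
  have := Int.natCast_nonneg (genusFF k Fk₂)
  have := Int.natCast_nonneg (Fintype.card ι)
  omega

theorem NodalSeed.finrank_nodalRR_smul {m : ℕ} (hm : N.m₀ ≤ m) :
    (Module.finrank k (nodalRR N.s₁ N.s₂ (m • N.R₁) (m • N.R₂)) : ℤ) =
      m * Divisor.degree N.D₀ + 2 - (genusFF k Fk₁ : ℤ) - (genusFF k Fk₂ : ℤ)
        - Fintype.card ι := by
  have hdeg₁ : Divisor.degree (m • N.R₁) = m * Divisor.degree N.R₁ := by
    rw [map_nsmul, nsmul_eq_mul]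
  have hdeg₂ : Divisor.degree (m • N.R₂) = m * Divisor.degree N.R₂ := by
    rw [map_nsmul, nsmul_eq_mul]
  have h2 : (N.m₀ : ℤ) ≤ m := by exact_mod_cast hm
  unfold NodalSeed.m₀ at h2
  push_cast at h2
  have hg := Int.natCast_nonneg (genusFF K F)
  have hg₁ := Int.natCast_nonneg (genusFF k Fk₁)
  have hg₂ := Int.natCast_nonneg (genusFF k Fk₂)
  have hs := Int.natCast_nonneg (Fintype.card ι)
  have hm0 : (0 : ℤ) ≤ m := Int.natCast_nonneg m
  have h3 : (m : ℤ) ≤ m * Divisor.degree N.R₁ := by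
    have := N.R₁_pos
    nlinarith
  have h4 : (m : ℤ) ≤ m * Divisor.degree N.R₂ := by
    have := N.R₂_pos
    nlinarith
  rw [finrank_nodalRR N.S₁.hFk N.S₂.hFk N.s₁ N.s₂ N.s₁_inj (m • N.R₁) (m • N.R₂)
    (fun i => by rw [Finsupp.smul_apply, N.R₁_node i, smul_zero])
    (fun i => by rw [Finsupp.smul_apply, N.R₂_node i, smul_zero])
    (by rw [hdeg₁]; omega) (by rw [hdeg₂]; omega), hdeg₁, hdeg₂, ← N.deg_eq]
  ring

/-- **The genus relation** `g + 1 = g₁ + g₂ + s` (the half `≥` is a consequence of the seed). -/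
theorem NodalSeed.genus_eq (N : NodalSeed K F k Fk₁ Fk₂ ι) :
    genusFF K F + 1 = genusFF k Fk₁ + genusFF k Fk₂ + Fintype.card ι := by
  apply le_antisymm N.genus_le
  have hle := N.V_le N.m₀
  have := finite_nodalRR N.S₁.hFk N.S₂.hFk N.s₁ N.s₂ (N.m₀ • N.R₁) (N.m₀ • N.R₂)
  have h1 := Submodule.finrank_mono hle
  rw [N.toNodalCore.finrank_V] at h1
  have h2 := N.ell_smul_D₀ (le_refl _)
  have h3 := N.finrank_nodalRR_smul (le_refl _)
  have h4 : (ell (N.m₀ • N.D₀) : ℤ) ≤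
      (Module.finrank k (nodalRR N.s₁ N.s₂ (N.m₀ • N.R₁) (N.m₀ • N.R₂)) : ℤ) := by
    exact_mod_cast h1
  omega

/-- **S1 / (LIFT)**: `V(m D₀) = L_C(m R₁, m R₂)` for `m ≥ m₀`. -/
theorem NodalSeed.V_eq {m : ℕ} (hm : N.m₀ ≤ m) :
    N.toNodalCore.V (m • N.D₀) = nodalRR N.s₁ N.s₂ (m • N.R₁) (m • N.R₂) := by
  have := finite_nodalRR N.S₁.hFk N.S₂.hFk N.s₁ N.s₂ (m • N.R₁) (m • N.R₂)
  apply Submodule.eq_of_le_of_finrank_le (N.V_le m)
  rw [N.toNodalCore.finrank_V]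
  have h2 := N.ell_smul_D₀ hm
  have h3 := N.finrank_nodalRR_smul hm
  have h4 := N.genus_le
  have h5 : ((genusFF K F : ℤ)) + 1 ≤ genusFF k Fk₁ + genusFF k Fk₂ + Fintype.card ι := by
    exact_mod_cast h4
  have h6 : (Module.finrank k (nodalRR N.s₁ N.s₂ (m • N.R₁) (m • N.R₂)) : ℤ) ≤
      (ell (m • N.D₀) : ℤ) := by
    omega
  exact_mod_cast h6

/-- (LIFT), elementwise. -/
theorem NodalSeed.exists_lift {m : ℕ} (hm : N.m₀ ≤ m)
    {a : Fk₁} {b : Fk₂} (hab : (a, b) ∈ nodalRR N.s₁ N.s₂ (m • N.R₁) (m • N.R₂)) :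
    ∃ f : F, f ∈ riemannRochSpace (m • N.D₀) ∧ f ∈ N.S₁.Ov ∧ f ∈ N.S₂.Ov ∧
      N.S₁.red f = a ∧ N.S₂.red f = b := by
  rw [← N.V_eq hm] at hab
  obtain ⟨f, hf, hfe⟩ := (N.toNodalCore.mem_V_iff _).mp hab
  have h1 : N.S₁.red f = a := congrArg Prod.fst hfe
  have h2 : N.S₂.red f = b := congrArg Prod.snd hfe
  exact ⟨f, hf.1, hf.2.1, hf.2.2, h1, h2⟩

end Fermat.Agent.BadRed
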