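import Mathlib
import Fermat.Agent.Lib.BadRed.Nodal.Deuring2.TypeDef
import Fermat.Agent.Lib.BadRed.Nodal.Deuring2.RRExist
import Fermat.Agent.Lib.BadRed.Nodal.Deuring2.Push

set_option autoImplicit false

/-!
# Cluster T, WP N4, step S8: the NODE CONDITION

`NodalType.node` : a function `f ∈ O₁ ∩ O₂` without poles in the annuli (`T.r P = none`) reduces
to a pair of functions which are regular at the nodes and take the same value on both branches.

Proof: kill the poles of `f` (ordinary places) by a product `z` of the functions of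
`T.node_unit` (value `1` at the node `i`); then `f z ∈ 𝔏(M D₀)` reduces to a nodal pair by the
seed, and `red_j f = red_j (f z) / red_j z`.
-/

noncomputable section

open AlgebraicCurve Fermat.Agent.RR Fermat.Agent.Deuring

namespace Fermat.Agent.BadRed

section Values

variable {k Fk : Type*} [Field k] [Field Fk] [Algebra k Fk]

theorem nd_valAt_one (Q : Place k Fk) : ValAt Q (1 : Fk) (1 : k) := Or.inl (map_one _).symm

/-- division by a function with the value `1`. -/
theorem nd_valAt_of_mul {Q : Place k Fk} {a b : Fk} {c : k} (hab : ValAt Q (a * b) c)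
    (hb : ValAt Q b 1) : ValAt Q a c := by
  have hb0 : b ≠ 0 := by
    rintro rfl
    have := (ValAt.unique hb (valAt_zero Q))
    exact one_ne_zero this
  have hordb : Q.ord b = 0 := (hb.ord_eq_zero_iff hb0).mpr one_ne_zero
  rw [valAt_iff_vanAt] at hab hb ⊢
  have h2 : VanAt Q ((-c) • (b - algebraMap k Fk 1)) := hb.smul (-c)
  have h3 := hab.add h2
  have he : a * b - algebraMap k Fk c + (-c) • (b - algebraMap k Fk 1) =
      (a - algebraMap k Fk c) * b := by
    rw [Algebra.smul_def, map_neg, map_one]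
    ring
  rw [he] at h3
  rcases eq_or_ne (a - algebraMap k Fk c) 0 with h0 | h0
  · exact Or.inl h0
  right
  have := h3.resolve_left (mul_ne_zero h0 hb0)
  rwa [Q.ord_mul h0 hb0, hordb, add_zero] at this

end Values

section ListDiv

variable {K F : Type*} [Field K] [Field F] [Algebra K F]

theorem nd_listDiv_apply_of_not_mem (l : List (Place K F)) (P : Place K F) (hP : P ∉ l) :
    Push.listDiv l P = 0 := by
  induction l with
  | nil => rw [Push.listDiv_nil, Finsupp.zero_apply]
  | cons P' l ih =>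
    rw [Push.listDiv_cons, Finsupp.add_apply, ih (fun h => hP (List.mem_cons_of_mem _ h)),
      add_zero]
    have hne : P' ≠ P := fun h => hP (h ▸ List.mem_cons_self)
    exact Finsupp.single_eq_of_ne' hne

end ListDiv

variable {K F k Fk₁ Fk₂ : Type*} [Field K] [Field F] [Algebra K F]
  [Field k] [Field Fk₁] [Algebra k Fk₁] [Field Fk₂] [Algebra k Fk₂] {ι : Type*} [Fintype ι]
  {N : NodalSeed K F k Fk₁ Fk₂ ι}

/-- a function of `𝔏(M D₀ - E)` with the value `1` at the node `i`, for `E` a sum of ordinary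
places. -/
theorem NodalType.exists_node_unit_list (T : NodalType N) (i : ι) (l : List (Place K F))
    (hl : ∀ P ∈ l, T.r P ≠ none) :
    ∃ (M : ℕ) (z : F), N.toNodalCore.IsInt (M • N.D₀ - Push.listDiv l) z ∧
      ValAt (N.s₁ i) (N.S₁.red z) 1 ∧ ValAt (N.s₂ i) (N.S₂.red z) 1 := by
  induction l with
  | nil =>
    refine ⟨0, 1, ⟨?_, one_mem _, one_mem _⟩, ?_, ?_⟩
    · rw [zero_smul, Push.listDiv_nil, sub_zero]
      exact one_mem_riemannRochSpace_of_nonneg (le_refl (0 : Divisor K F))
    · rw [N.S₁.red_one]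
      exact nd_valAt_one _
    · rw [N.S₂.red_one]
      exact nd_valAt_one _
  | cons P l ih =>
    obtain ⟨M, z, hz, hz1, hz2⟩ := ih fun P' hP' => hl P' (List.mem_cons_of_mem _ hP')
    obtain ⟨X, hX⟩ := Option.ne_none_iff_exists'.mp (hl P List.mem_cons_self)
    obtain ⟨m, h, hh, hh1, hh2⟩ := T.node_unit P X hX i
    refine ⟨m + M, h * z, ?_, ?_, ?_⟩
    · have e : (m + M) • N.D₀ - Push.listDiv (P :: l)
          = (m • N.D₀ - Finsupp.single P 1) + (M • N.D₀ - Push.listDiv l) := by
        rw [Push.listDiv_cons, add_smul]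
        abel
      rw [e]
      exact NodalCore.IsInt.mul _ hh hz
    · rw [N.S₁.red_mul hh.2.1 hz.2.1]
      have := hh1.mul hz1
      rwa [one_mul] at this
    · rw [N.S₂.red_mul hh.2.2 hz.2.2]
      have := hh2.mul hz2
      rwa [one_mul] at this

/-- the poles of a function without poles in the annuli are bounded by a sum of ordinary
places. -/
theorem NodalType.exists_pole_list (T : NodalType N) {f : F}
    (hf : ∀ P, T.r P = none → 0 ≤ P.ord f) :
    ∃ l : List (Place K F), (∀ P ∈ l, T.r P ≠ none) ∧ f ∈ riemannRochSpace (Push.listDiv l) := by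
  classical
  obtain ⟨lp, lm, lp', lm', h1, h2, h3, h4, h5, -⟩ :=
    Push.exists_lists (fun P => T.r P ≠ none) (divOf N.S₁.hF f)
  refine ⟨lm, h2, ?_⟩
  rw [mem_riemannRochSpace_iff]
  intro v
  rcases eq_or_ne f 0 with hf0 | hf0
  · exact Or.inl hf0
  right
  have hv : v.ord f = Push.listDiv lp v - Push.listDiv lm v + Push.listDiv lp' v
      - Push.listDiv lm' v := by
    rw [← divOf_apply N.S₁.hF f v, h5]
    simp only [Finsupp.sub_apply, Finsupp.add_apply]
  by_cases hr : T.r v = none
  · have hm : Push.listDiv lm v = 0 :=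
      nd_listDiv_apply_of_not_mem lm v (fun h => h2 v h hr)
    rw [hm, neg_zero]
    exact hf v hr
  · have hm' : Push.listDiv lm' v = 0 :=
      nd_listDiv_apply_of_not_mem lm' v (fun h => h4 v h hr)
    have hp := Finsupp.le_def.mp (Push.listDiv_nonneg lp) v
    have hp' := Finsupp.le_def.mp (Push.listDiv_nonneg lp') v
    rw [Finsupp.zero_apply] at hp hp'
    rw [hv, hm']
    omega

/-- **S8, the NODE CONDITION.** -/
theorem NodalType.node (T : NodalType N) {f : F} (h₁ : f ∈ N.S₁.Ov) (h₂ : f ∈ N.S₂.Ov)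
    (hf : ∀ P, T.r P = none → 0 ≤ P.ord f) (i : ι) :
    0 ≤ (N.s₁ i).ord (N.S₁.red f) ∧ 0 ≤ (N.s₂ i).ord (N.S₂.red f) ∧
      ∃ c : k, ValAt (N.s₁ i) (N.S₁.red f) c ∧ ValAt (N.s₂ i) (N.S₂.red f) c := by
  obtain ⟨l, hl, hfl⟩ := T.exists_pole_list hf
  obtain ⟨M, z, hz, hz1, hz2⟩ := T.exists_node_unit_list i l hl
  have hfz : f * z ∈ riemannRochSpace (M • N.D₀) := by
    have := mul_mem_riemannRochSpace_add hfl hz.1
    rwa [add_sub_cancel] at this
  have hseed := N.seed M (f * z) hfz (mul_mem h₁ hz.2.1) (mul_mem h₂ hz.2.2)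
  obtain ⟨c, hc1, hc2⟩ := hseed.2.2 i
  rw [N.S₁.red_mul h₁ hz.2.1] at hc1
  rw [N.S₂.red_mul h₂ hz.2.2] at hc2
  have hv1 := nd_valAt_of_mul hc1 hz1
  have hv2 := nd_valAt_of_mul hc2 hz2
  exact ⟨hv1.ord_nonneg, hv2.ord_nonneg, c, hv1, hv2⟩

end Fermat.Agent.BadRed
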