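import Mathlib
import Fermat.Agent.Lib.Deuring.FundIneq
import Fermat.Agent.Lib.BadRed.ValApprox

set_option autoImplicit false

/-!
# Cluster T, WP N4: the two-valuation fundamental inequality (FI2)

`S₁ : ValSetup K F k Fk₁`, `S₂ : ValSetup K F k Fk₂` two constant reductions of the same function
field `F / K` over the same valuation ring `A` of `K` (same residue map), with INCOMPARABLE
valuation rings `O₁`, `O₂`.

* `fi2_exists_lift` : (approximation) every `x ∈ O₁` is congruent modulo `𝔪₁` to an element of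
  `O₁ ∩ 𝔪₂`;
* `fi2_exists_pair_lift` : every pair `(a, b) ∈ Fk₁ × Fk₂` is the pair of reductions of an element
  of `O₁ ∩ O₂`;
* `fi2_linearIndependent_of_red` : a family in `O₁ ∩ O₂` whose pairs of reductions are
  `k`-linearly independent is `K`-linearly independent;
* `fi2_degree_le` : **(FI2)** for `w ∈ O₁ ∩ O₂`:
  `deg (red₁ w)_∞ + deg (red₂ w)_∞ ≤ deg (w)_∞`.
-/

noncomputable section

open AlgebraicCurve Fermat.Agent.RR Fermat.Agent.Deuring

namespace Fermat.Agent.BadRed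

section Approx

variable {F : Type*} [Field F]

/-- Approximation for two incomparable valuation rings: every `x ∈ O₁` is congruent modulo the
maximal ideal of `O₁` to an element of `O₁` lying in the maximal ideal of `O₂`. -/
theorem fi2_exists_lift {O₁ O₂ : ValuationSubring F} (h12 : ¬ O₁ ≤ O₂) (h21 : ¬ O₂ ≤ O₁)
    {x : F} (hx : x ∈ O₁) :
    ∃ y : F, y ∈ O₁ ∧ y - x ∈ O₁.nonunits ∧ y ∈ O₂.nonunits := by
  obtain ⟨e, he1, he2⟩ := exists_sep_two h12 h21
  have he1v : O₁.valuation e < 1 := (ValuationSubring.mem_nonunits_iff _).mp he1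
  have he2v : O₂.valuation (e - 1) < 1 := (ValuationSubring.mem_nonunits_iff _).mp he2
  have hxv : O₁.valuation x ≤ 1 := (O₁.valuation_le_one_iff x).mpr hx
  have he2one : O₂.valuation e = 1 := by
    have : e = 1 + (e - 1) := by ring
    rw [this]
    exact Valuation.map_one_add_of_lt _ he2v
  by_cases hx2 : x ∈ O₂
  · have hx2v : O₂.valuation x ≤ 1 := (O₂.valuation_le_one_iff x).mpr hx2
    refine ⟨x * (1 - e), ?_, ?_, ?_⟩
    · rw [← ValuationSubring.valuation_le_one_iff, map_mul, Valuation.map_one_sub_of_lt _ he1v,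
        mul_one]
      exact hxv
    · have e1 : x * (1 - e) - x = -(x * e) := by ring
      rw [e1, ValuationSubring.mem_nonunits_iff, Valuation.map_neg, map_mul]
      calc O₁.valuation x * O₁.valuation e ≤ 1 * O₁.valuation e := by gcongr
        _ = O₁.valuation e := one_mul _
        _ < 1 := he1v
    · have e1 : x * (1 - e) = -(x * (e - 1)) := by ring
      rw [e1, ValuationSubring.mem_nonunits_iff, Valuation.map_neg, map_mul]
      calc O₂.valuation x * O₂.valuation (e - 1) ≤ 1 * O₂.valuation (e - 1) := by gcongr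
        _ = O₂.valuation (e - 1) := one_mul _
        _ < 1 := he2v
  · have hx2v : 1 < O₂.valuation x := by
      rw [← not_le, ValuationSubring.valuation_le_one_iff]
      exact hx2
    have hx0 : x ≠ 0 := by
      rintro rfl
      exact hx2 (zero_mem _)
    -- at `O₁`: `e x² ∈ 𝔪₁`
    have h1 : O₁.valuation (e * x ^ 2) < 1 := by
      rw [map_mul, map_pow]
      calc O₁.valuation e * O₁.valuation x ^ 2 ≤ O₁.valuation e * 1 := by
            gcongr
            exact pow_le_one₀ zero_le hxv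
        _ = O₁.valuation e := mul_one _
        _ < 1 := he1v
    have h1' : O₁.valuation (1 + e * x ^ 2) = 1 := Valuation.map_one_add_of_lt _ h1
    -- at `O₂`: `v₂ (1 + e x²) = v₂ x ^ 2`
    have h2 : O₂.valuation (e * x ^ 2) = O₂.valuation x ^ 2 := by
      rw [map_mul, map_pow, he2one, one_mul]
    have h2gt : 1 < O₂.valuation x ^ 2 := one_lt_pow₀ hx2v (by norm_num)
    have h2' : O₂.valuation (1 + e * x ^ 2) = O₂.valuation x ^ 2 := by
      rw [Valuation.map_add_eq_of_lt_right _ (by rw [Valuation.map_one, h2]; exact h2gt), h2]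
    have hden : 1 + e * x ^ 2 ≠ 0 := by
      intro h0
      rw [h0, map_zero] at h1'
      exact zero_ne_one h1'
    refine ⟨x / (1 + e * x ^ 2), ?_, ?_, ?_⟩
    · rw [← ValuationSubring.valuation_le_one_iff, map_div₀, h1', div_one]
      exact hxv
    · have e1 : x / (1 + e * x ^ 2) - x = -(x * (e * x ^ 2)) / (1 + e * x ^ 2) := by
        rw [eq_div_iff hden, sub_mul, div_mul_cancel₀ _ hden]
        ring
      rw [e1, ValuationSubring.mem_nonunits_iff, map_div₀, h1', div_one, Valuation.map_neg,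
        map_mul]
      calc O₁.valuation x * O₁.valuation (e * x ^ 2) ≤ 1 * O₁.valuation (e * x ^ 2) := by gcongr
        _ = O₁.valuation (e * x ^ 2) := one_mul _
        _ < 1 := h1
    · rw [ValuationSubring.mem_nonunits_iff, map_div₀, h2']
      have hpos : 0 < O₂.valuation x := lt_trans zero_lt_one hx2v
      rw [div_lt_one₀ (pow_pos hpos 2)]
      calc O₂.valuation x = O₂.valuation x * 1 := (mul_one _).symm
        _ < O₂.valuation x * O₂.valuation x := by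
            exact mul_lt_mul_of_pos_left hx2v hpos
        _ = O₂.valuation x ^ 2 := (sq _).symm

end Approx

section TwoVal

variable {K F k Fk₁ Fk₂ : Type*} [Field K] [Field F] [Algebra K F]
  [Field k] [Field Fk₁] [Algebra k Fk₁] [Field Fk₂] [Algebra k Fk₂]

/-- the reduction of an element of the maximal ideal is `0`. -/
theorem fi2_red_eq_zero_of_nonunits {Fk : Type*} [Field Fk] [Algebra k Fk]
    (S : ValSetup K F k Fk) {f : F} (hf : f ∈ S.Ov.nonunits) : S.red f = 0 := by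
  rcases eq_or_ne f 0 with rfl | hf0
  · exact S.red_zero
  have hv : S.Ov.valuation f < 1 := (ValuationSubring.mem_nonunits_iff _).mp hf
  have hmem : f ∈ S.Ov := (S.Ov.valuation_le_one_iff f).mp hv.le
  rw [S.red_eq_zero_iff hmem hf0]
  intro hinv
  have h1 : S.Ov.valuation f⁻¹ ≤ 1 := (S.Ov.valuation_le_one_iff _).mpr hinv
  rw [map_inv₀] at h1
  have hpos : 0 < S.Ov.valuation f := (Valuation.pos_iff _).mpr hf0
  have h2 : 1 ≤ S.Ov.valuation f := by
    rw [inv_le_one₀ hpos] at h1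
    exact h1
  exact absurd hv (not_lt.mpr h2)

theorem fi2_mem_of_nonunits {Fk : Type*} [Field Fk] [Algebra k Fk]
    (S : ValSetup K F k Fk) {f : F} (hf : f ∈ S.Ov.nonunits) : f ∈ S.Ov :=
  S.Ov.nonunits_subset hf

variable (S₁ : ValSetup K F k Fk₁) (S₂ : ValSetup K F k Fk₂)

/-- an element of `O₁ ∩ 𝔪₂` with prescribed reduction on the first component. -/
theorem fi2_exists_lift_left (h12 : ¬ S₁.Ov ≤ S₂.Ov) (h21 : ¬ S₂.Ov ≤ S₁.Ov) (a : Fk₁) :
    ∃ f : F, f ∈ S₁.Ov ∧ f ∈ S₂.Ov ∧ S₁.red f = a ∧ S₂.red f = 0 := by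
  obtain ⟨x, hx⟩ := S₁.ρ_surj a
  obtain ⟨y, hy1, hyx, hy2⟩ := fi2_exists_lift h12 h21 x.2
  refine ⟨y, hy1, fi2_mem_of_nonunits S₂ hy2, ?_, fi2_red_eq_zero_of_nonunits S₂ hy2⟩
  have h1 := fi2_red_eq_zero_of_nonunits S₁ hyx
  rw [S₁.red_sub hy1 x.2, sub_eq_zero] at h1
  rw [h1, S₁.red_of_mem x.2]
  exact hx

/-- an element of `𝔪₁ ∩ O₂` with prescribed reduction on the second component. -/
theorem fi2_exists_lift_right (h12 : ¬ S₁.Ov ≤ S₂.Ov) (h21 : ¬ S₂.Ov ≤ S₁.Ov) (b : Fk₂) :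
    ∃ f : F, f ∈ S₁.Ov ∧ f ∈ S₂.Ov ∧ S₁.red f = 0 ∧ S₂.red f = b := by
  obtain ⟨x, hx⟩ := S₂.ρ_surj b
  obtain ⟨y, hy2, hyx, hy1⟩ := fi2_exists_lift h21 h12 x.2
  refine ⟨y, fi2_mem_of_nonunits S₁ hy1, hy2, fi2_red_eq_zero_of_nonunits S₁ hy1, ?_⟩
  have h1 := fi2_red_eq_zero_of_nonunits S₂ hyx
  rw [S₂.red_sub hy2 x.2, sub_eq_zero] at h1
  rw [h1, S₂.red_of_mem x.2]
  exact hx

/-- **Surjectivity of the pair reduction** `O₁ ∩ O₂ → Fk₁ × Fk₂`. -/
theorem fi2_exists_pair_lift (h12 : ¬ S₁.Ov ≤ S₂.Ov) (h21 : ¬ S₂.Ov ≤ S₁.Ov) (a : Fk₁)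
    (b : Fk₂) : ∃ f : F, f ∈ S₁.Ov ∧ f ∈ S₂.Ov ∧ S₁.red f = a ∧ S₂.red f = b := by
  obtain ⟨f, hf1, hf2, hfa, hf0⟩ := fi2_exists_lift_left S₁ S₂ h12 h21 a
  obtain ⟨g, hg1, hg2, hg0, hgb⟩ := fi2_exists_lift_right S₁ S₂ h12 h21 b
  refine ⟨f + g, add_mem hf1 hg1, add_mem hf2 hg2, ?_, ?_⟩
  · rw [S₁.red_add hf1 hg1, hfa, hg0, add_zero]
  · rw [S₂.red_add hf2 hg2, hf0, hgb, zero_add]

/-- reduction of a finite `A`-linear combination. -/
theorem fi2_red_sum {Fk : Type*} [Field Fk] [Algebra k Fk] (S : ValSetup K F k Fk)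
    {ι : Type*} (s : Finset ι) (c : ι → K) (u : ι → F) (hc : ∀ i, c i ∈ S.A)
    (hu : ∀ i, u i ∈ S.Ov) :
    (∑ i ∈ s, c i • u i) ∈ S.Ov ∧
      S.red (∑ i ∈ s, c i • u i) = ∑ i ∈ s, S.res ⟨c i, hc i⟩ • S.red (u i) := by
  classical
  induction s using Finset.induction_on with
  | empty => exact ⟨by simp, by simp [S.red_zero]⟩
  | insert a s ha ih =>
    rw [Finset.sum_insert ha, Finset.sum_insert ha]
    refine ⟨add_mem (S.smul_mem (hc a) (hu a)) ih.1, ?_⟩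
    rw [S.red_add (S.smul_mem (hc a) (hu a)) ih.1, ih.2, S.red_smul (hc a) (hu a)]

/-- A family in `O₁ ∩ O₂` whose pairs of reductions are linearly independent over `k` is linearly
independent over `K`. -/
theorem fi2_linearIndependent_of_red (hA : S₁.A = S₂.A)
    (hres : ∀ (c : K) (h₁ : c ∈ S₁.A) (h₂ : c ∈ S₂.A), S₁.res ⟨c, h₁⟩ = S₂.res ⟨c, h₂⟩)
    {ι : Type*} [Fintype ι] (u : ι → F) (hu₁ : ∀ i, u i ∈ S₁.Ov) (hu₂ : ∀ i, u i ∈ S₂.Ov)
    (hli : LinearIndependent k (fun i => ((S₁.red (u i), S₂.red (u i)) : Fk₁ × Fk₂))) :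
    LinearIndependent K u := by
  classical
  rw [Fintype.linearIndependent_iff]
  intro c hc
  by_contra hcon
  push Not at hcon
  obtain ⟨j, hj⟩ := hcon
  obtain ⟨i₀, hi₀, hall⟩ := exists_max_coeff S₁.A c ⟨j, hj⟩
  set d : ι → K := fun i => c i * (c i₀)⁻¹ with hd
  have hd₁ : ∀ i, d i ∈ S₁.A := hall
  have hd₂ : ∀ i, d i ∈ S₂.A := fun i => hA ▸ hall i
  have hsum' : ∑ i, d i • u i = 0 := by
    have : ∑ i, d i • u i = (c i₀)⁻¹ • ∑ i, c i • u i := by
      rw [Finset.smul_sum]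
      refine Finset.sum_congr rfl fun i _ => ?_
      rw [hd, smul_smul, mul_comm]
    rw [this, hc, smul_zero]
  have h1 := (fi2_red_sum S₁ Finset.univ d u hd₁ hu₁).2
  have h2 := (fi2_red_sum S₂ Finset.univ d u hd₂ hu₂).2
  rw [hsum', S₁.red_zero] at h1
  rw [hsum', S₂.red_zero] at h2
  have h3 : ∑ i, S₁.res ⟨d i, hd₁ i⟩ • ((S₁.red (u i), S₂.red (u i)) : Fk₁ × Fk₂) = 0 := by
    refine Prod.ext ?_ ?_
    · rw [Prod.fst_sum]
      simp only [Prod.smul_fst, Prod.fst_zero]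
      exact h1.symm
    · rw [Prod.snd_sum]
      simp only [Prod.smul_snd, Prod.snd_zero]
      rw [h2]
      exact Finset.sum_congr rfl fun i _ => by rw [hres (d i) (hd₁ i) (hd₂ i)]
  have h4 := (Fintype.linearIndependent_iff.mp hli) (fun i => S₁.res ⟨d i, hd₁ i⟩) h3 i₀
  have h5 : (⟨d i₀, hd₁ i₀⟩ : S₁.A) = 1 := by
    apply Subtype.ext
    show c i₀ * (c i₀)⁻¹ = 1
    exact mul_inv_cancel₀ hi₀
  rw [h5, map_one] at h4
  exact one_ne_zero h4

/-- **(FI2) the two-valuation fundamental inequality**: for `w ∈ O₁ ∩ O₂`,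
`deg (red₁ w)_∞ + deg (red₂ w)_∞ ≤ deg (w)_∞`. -/
theorem fi2_degree_le (hA : S₁.A = S₂.A)
    (hres : ∀ (c : K) (h₁ : c ∈ S₁.A) (h₂ : c ∈ S₂.A), S₁.res ⟨c, h₁⟩ = S₂.res ⟨c, h₂⟩)
    (h12 : ¬ S₁.Ov ≤ S₂.Ov) (h21 : ¬ S₂.Ov ≤ S₁.Ov) {w : F} (hw₁ : w ∈ S₁.Ov)
    (hw₂ : w ∈ S₂.Ov) :
    Divisor.degree (poleDiv S₁.hFk (S₁.red w)) + Divisor.degree (poleDiv S₂.hFk (S₂.red w)) ≤
      Divisor.degree (poleDiv S₁.hF w) := by
  classical
  have hb0 : 0 ≤ Divisor.degree (poleDiv S₁.hF w) :=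
    degree_nonneg_of_nonneg S₁.hF (poleDiv_nonneg S₁.hF w)
  have hd₁0 : 0 ≤ Divisor.degree (poleDiv S₁.hFk (S₁.red w)) :=
    degree_nonneg_of_nonneg S₁.hFk (poleDiv_nonneg S₁.hFk _)
  have hd₂0 : 0 ≤ Divisor.degree (poleDiv S₂.hFk (S₂.red w)) :=
    degree_nonneg_of_nonneg S₂.hFk (poleDiv_nonneg S₂.hFk _)
  obtain ⟨d₁, hd₁⟩ : ∃ d : ℕ, (d : ℤ) = Divisor.degree (poleDiv S₁.hFk (S₁.red w)) :=
    ⟨_, Int.toNat_of_nonneg hd₁0⟩
  obtain ⟨d₂, hd₂⟩ : ∃ d : ℕ, (d : ℤ) = Divisor.degree (poleDiv S₂.hFk (S₂.red w)) :=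
    ⟨_, Int.toNat_of_nonneg hd₂0⟩
  obtain ⟨ybar₁, hli₁⟩ := fi_exists_family_aux S₁.hFk (S₁.red w) d₁ hd₁
  obtain ⟨ybar₂, hli₂⟩ := fi_exists_family_aux S₂.hFk (S₂.red w) d₂ hd₂
  choose y₁ hy₁1 hy₁2 hy₁a hy₁0 using fun i => fi2_exists_lift_left S₁ S₂ h12 h21 (ybar₁ i)
  choose y₂ hy₂1 hy₂2 hy₂0 hy₂b using fun i => fi2_exists_lift_right S₁ S₂ h12 h21 (ybar₂ i)
  obtain ⟨C, hC0, hC⟩ := exists_common_poleBound S₁.hF
    ((Finset.univ.image y₁) ∪ (Finset.univ.image y₂))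
  have hC₁ : ∀ i, y₁ i ∈ riemannRochSpace C := fun i =>
    hC _ (Finset.mem_union_left _ (Finset.mem_image_of_mem _ (Finset.mem_univ _)))
  have hC₂ : ∀ i, y₂ i ∈ riemannRochSpace C := fun i =>
    hC _ (Finset.mem_union_right _ (Finset.mem_image_of_mem _ (Finset.mem_univ _)))
  have hc0 : 0 ≤ Divisor.degree C := degree_nonneg_of_nonneg S₁.hF hC0
  -- the counting inequality for every `l`
  have hcount : ∀ l : ℕ, ((l : ℤ) + 1) * ((d₁ : ℤ) + d₂) ≤
      (l : ℤ) * Divisor.degree (poleDiv S₁.hF w) + Divisor.degree C + 1 := by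
    intro l
    let u : (Fin (l + 1) × Fin d₁) ⊕ (Fin (l + 1) × Fin d₂) → F :=
      Sum.elim (fun p => w ^ (p.1 : ℕ) * y₁ p.2) (fun p => w ^ (p.1 : ℕ) * y₂ p.2)
    have hu₁ : ∀ q, u q ∈ S₁.Ov := by
      rintro (p | p)
      · exact mul_mem (pow_mem hw₁ _) (hy₁1 _)
      · exact mul_mem (pow_mem hw₁ _) (hy₂1 _)
    have hu₂ : ∀ q, u q ∈ S₂.Ov := by
      rintro (p | p)
      · exact mul_mem (pow_mem hw₂ _) (hy₁2 _)
      · exact mul_mem (pow_mem hw₂ _) (hy₂2 _)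
    have hv₁ : LinearIndependent k
        (fun p : Fin (l + 1) × Fin d₁ => S₁.red w ^ (p.1 : ℕ) * ybar₁ p.2) :=
      hli₁.comp (fun p : Fin (l + 1) × Fin d₁ => ((p.1 : ℕ), p.2)) (by
        intro p p' hpp
        simp only [Prod.mk.injEq] at hpp
        exact Prod.ext (Fin.ext hpp.1) hpp.2)
    have hv₂ : LinearIndependent k
        (fun p : Fin (l + 1) × Fin d₂ => S₂.red w ^ (p.1 : ℕ) * ybar₂ p.2) :=
      hli₂.comp (fun p : Fin (l + 1) × Fin d₂ => ((p.1 : ℕ), p.2)) (by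
        intro p p' hpp
        simp only [Prod.mk.injEq] at hpp
        exact Prod.ext (Fin.ext hpp.1) hpp.2)
    have hpair : (fun q => ((S₁.red (u q), S₂.red (u q)) : Fk₁ × Fk₂)) =
        Sum.elim (LinearMap.inl k Fk₁ Fk₂ ∘
            fun p : Fin (l + 1) × Fin d₁ => S₁.red w ^ (p.1 : ℕ) * ybar₁ p.2)
          (LinearMap.inr k Fk₁ Fk₂ ∘
            fun p : Fin (l + 1) × Fin d₂ => S₂.red w ^ (p.1 : ℕ) * ybar₂ p.2) := by
      funext q
      rcases q with p | p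
      · show (S₁.red (w ^ (p.1 : ℕ) * y₁ p.2), S₂.red (w ^ (p.1 : ℕ) * y₁ p.2)) =
          (S₁.red w ^ (p.1 : ℕ) * ybar₁ p.2, (0 : Fk₂))
        rw [S₁.red_mul (pow_mem hw₁ _) (hy₁1 _), S₁.red_pow hw₁, hy₁a,
          S₂.red_mul (pow_mem hw₂ _) (hy₁2 _), hy₁0, mul_zero]
      · show (S₁.red (w ^ (p.1 : ℕ) * y₂ p.2), S₂.red (w ^ (p.1 : ℕ) * y₂ p.2)) =
          ((0 : Fk₁), S₂.red w ^ (p.1 : ℕ) * ybar₂ p.2)
        rw [S₂.red_mul (pow_mem hw₂ _) (hy₂2 _), S₂.red_pow hw₂, hy₂b,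
          S₁.red_mul (pow_mem hw₁ _) (hy₂1 _), hy₂0, mul_zero]
    have hli : LinearIndependent k (fun q => ((S₁.red (u q), S₂.red (u q)) : Fk₁ × Fk₂)) := by
      rw [hpair]
      exact linearIndependent_inl_union_inr' hv₁ hv₂
    have hliK : LinearIndependent K u :=
      fi2_linearIndependent_of_red S₁ S₂ hA hres u hu₁ hu₂ hli
    have hmem : ∀ q, u q ∈ riemannRochSpace (l • poleDiv S₁.hF w + C) := by
      rintro (p | p)
      · exact pow_mul_mem S₁.hF w (hC₁ _) (Nat.lt_succ_iff.mp p.1.2)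
      · exact pow_mul_mem S₁.hF w (hC₂ _) (Nat.lt_succ_iff.mp p.1.2)
    have hli2 : LinearIndependent K (fun q =>
        (⟨u q, hmem q⟩ : riemannRochSpace (l • poleDiv S₁.hF w + C))) := by
      apply LinearIndependent.of_comp (riemannRochSpace (l • poleDiv S₁.hF w + C)).subtype
      exact hliK
    have hfin := finite_riemannRochSpace S₁.hF (l • poleDiv S₁.hF w + C)
    have hcard := hli2.fintype_card_le_finrank
    rw [Fintype.card_sum, Fintype.card_prod, Fintype.card_prod, Fintype.card_fin,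
      Fintype.card_fin, Fintype.card_fin] at hcard
    have hdeg : Divisor.degree (l • poleDiv S₁.hF w + C) =
        (l : ℤ) * Divisor.degree (poleDiv S₁.hF w) + Divisor.degree C := by
      rw [map_add, map_nsmul, nsmul_eq_mul]
    have hnn : 0 ≤ Divisor.degree (l • poleDiv S₁.hF w + C) := by
      rw [hdeg]
      positivity
    have hle := ell_le_degree_add_one S₁.hF hnn
    rw [hdeg, ell_def] at hle
    have hcard' : (((l + 1) * d₁ + (l + 1) * d₂ : ℕ) : ℤ) ≤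
        (Module.finrank K (riemannRochSpace (l • poleDiv S₁.hF w + C)) : ℤ) := by
      exact_mod_cast hcard
    push_cast at hcard'
    linarith
  rw [← hd₁, ← hd₂]
  by_contra hlt
  push Not at hlt
  have h1 := hcount ((Divisor.degree C).toNat + 1)
  have h2 : ((Divisor.degree C).toNat : ℤ) = Divisor.degree C := Int.toNat_of_nonneg hc0
  push_cast at h1
  rw [h2] at h1
  have h3 : Divisor.degree (poleDiv S₁.hF w) + 1 ≤ (d₁ : ℤ) + d₂ := hlt
  have h4 : (Divisor.degree C + 1 + 1) * (Divisor.degree (poleDiv S₁.hF w) + 1) ≤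
      (Divisor.degree C + 1 + 1) * ((d₁ : ℤ) + d₂) :=
    mul_le_mul_of_nonneg_left h3 (by omega)
  nlinarith

end TwoVal

end Fermat.Agent.BadRed
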