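import Mathlib
import Fermat.Agent.Lib.BadRed.Nodal.Deuring2.S1
import Fermat.Agent.Lib.BadRed.Nodal.Deuring2.FI2

set_option autoImplicit false

/-!
# Cluster T, WP N4: the valuation rings of a seed are incomparable; FI2 for a seed

From S1 (`V(m D₀) = L_C(m R₁, m R₂)`): there are functions `f ∈ O₁ ∩ O₂` with reduction
`(a, 0)`, `a ≠ 0`, and with reduction `(0, b)`, `b ≠ 0`.  Hence `O₁ ≰ O₂`, `O₂ ≰ O₁` and the
two-valuation fundamental inequality `fi2_degree_le` holds for every seed.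
-/

noncomputable section

open AlgebraicCurve Fermat.Agent.RR Fermat.Agent.Deuring

namespace Fermat.Agent.BadRed

variable {K F k Fk₁ Fk₂ : Type*} [Field K] [Field F] [Algebra K F]
  [Field k] [Field Fk₁] [Algebra k Fk₁] [Field Fk₂] [Algebra k Fk₂] {ι : Type*} [Fintype ι]

/-- a Riemann-Roch space of large degree is not zero. -/
theorem sfi_exists_ne_zero {k Fk : Type*} [Field k] [Field Fk] [Algebra k Fk]
    (h : IsRRField k Fk) {D : Divisor k Fk}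
    (hdeg : 2 * (genusFF k Fk : ℤ) - 2 < Divisor.degree D) (hdeg' : (genusFF k Fk : ℤ) ≤
      Divisor.degree D) : ∃ f ∈ riemannRochSpace D, f ≠ 0 := by
  have hellD := ell_of_degree_gt h hdeg
  have hpos : 0 < ell D := by
    have : (0 : ℤ) < (ell D : ℤ) := by rw [hellD]; linarith
    exact_mod_cast this
  by_contra hcon
  push Not at hcon
  have hbot : riemannRochSpace D = ⊥ := by
    rw [eq_bot_iff]
    intro x hx
    rw [Submodule.mem_bot]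
    exact hcon x hx
  rw [ell_def, hbot, finrank_bot] at hpos
  exact lt_irrefl _ hpos

variable (N : NodalSeed K F k Fk₁ Fk₂ ι)

open Classical in
/-- a function with reduction `(a, 0)`, `a ≠ 0`. -/
theorem NodalSeed.exists_left : ∃ f : F, f ∈ riemannRochSpace (N.m₀ • N.D₀) ∧ f ∈ N.S₁.Ov ∧
    f ∈ N.S₂.Ov ∧ N.S₁.red f ≠ 0 ∧ N.S₂.red f = 0 := by
  set m := N.m₀ with hm
  set T : Finset (Place k Fk₁) := Finset.univ.image N.s₁ with hT
  have hTcard : T.card = Fintype.card ι := by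
    rw [hT, Finset.card_image_of_injective _ N.s₁_inj, Finset.card_univ]
  have hTR : ∀ Q ∈ T, (m • N.R₁) Q = 0 := by
    intro Q hQ
    obtain ⟨i, -, rfl⟩ := Finset.mem_image.mp hQ
    rw [Finsupp.smul_apply, N.R₁_node i, smul_zero]
  have hdeg : Divisor.degree (m • N.R₁ - sumPlaces T) =
      m * Divisor.degree N.R₁ - Fintype.card ι := by
    rw [map_sub, degree_sumPlaces N.S₁.hFk, hTcard, map_nsmul, nsmul_eq_mul]
  have h2 : (m : ℤ) = 2 * ((genusFF K F : ℤ) + genusFF k Fk₁ + genusFF k Fk₂)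
      + Fintype.card ι + 1 := by
    rw [hm]
    unfold NodalSeed.m₀
    push_cast
    ring
  have hg := Int.natCast_nonneg (genusFF K F)
  have hg₁ := Int.natCast_nonneg (genusFF k Fk₁)
  have hg₂ := Int.natCast_nonneg (genusFF k Fk₂)
  have hm0 : (0 : ℤ) ≤ m := Int.natCast_nonneg m
  have h3 : (m : ℤ) ≤ m * Divisor.degree N.R₁ := by
    have := N.R₁_pos
    nlinarith
  obtain ⟨a, ha, ha0⟩ := sfi_exists_ne_zero N.S₁.hFk (D := m • N.R₁ - sumPlaces T)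
    (by rw [hdeg]; omega) (by rw [hdeg]; omega)
  rw [mem_riemannRochSpace_sub_sumPlaces_iff hTR] at ha
  have hab : ((a, 0) : Fk₁ × Fk₂) ∈ nodalRR N.s₁ N.s₂ (m • N.R₁) (m • N.R₂) := by
    refine ⟨ha.1, Submodule.zero_mem _, fun i => ⟨0, ?_, valAt_zero _⟩⟩
    exact (valAt_zero_right_iff _ _).mpr (ha.2 _ (Finset.mem_image_of_mem _ (Finset.mem_univ i)))
  obtain ⟨f, hf, hf1, hf2, hfa, hfb⟩ := N.exists_lift (le_refl _) hab
  exact ⟨f, hf, hf1, hf2, by rw [hfa]; exact ha0, hfb⟩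

open Classical in
/-- a function with reduction `(0, b)`, `b ≠ 0`. -/
theorem NodalSeed.exists_right : ∃ f : F, f ∈ riemannRochSpace (N.m₀ • N.D₀) ∧ f ∈ N.S₁.Ov ∧
    f ∈ N.S₂.Ov ∧ N.S₁.red f = 0 ∧ N.S₂.red f ≠ 0 := by
  set m := N.m₀ with hm
  set T : Finset (Place k Fk₂) := Finset.univ.image N.s₂ with hT
  have hTcard : T.card = Fintype.card ι := by
    rw [hT, Finset.card_image_of_injective _ N.s₂_inj, Finset.card_univ]
  have hTR : ∀ Q ∈ T, (m • N.R₂) Q = 0 := by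
    intro Q hQ
    obtain ⟨i, -, rfl⟩ := Finset.mem_image.mp hQ
    rw [Finsupp.smul_apply, N.R₂_node i, smul_zero]
  have hdeg : Divisor.degree (m • N.R₂ - sumPlaces T) =
      m * Divisor.degree N.R₂ - Fintype.card ι := by
    rw [map_sub, degree_sumPlaces N.S₂.hFk, hTcard, map_nsmul, nsmul_eq_mul]
  have h2 : (m : ℤ) = 2 * ((genusFF K F : ℤ) + genusFF k Fk₁ + genusFF k Fk₂)
      + Fintype.card ι + 1 := by
    rw [hm]
    unfold NodalSeed.m₀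
    push_cast
    ring
  have hg := Int.natCast_nonneg (genusFF K F)
  have hg₁ := Int.natCast_nonneg (genusFF k Fk₁)
  have hg₂ := Int.natCast_nonneg (genusFF k Fk₂)
  have hm0 : (0 : ℤ) ≤ m := Int.natCast_nonneg m
  have h3 : (m : ℤ) ≤ m * Divisor.degree N.R₂ := by
    have := N.R₂_pos
    nlinarith
  obtain ⟨b, hb, hb0⟩ := sfi_exists_ne_zero N.S₂.hFk (D := m • N.R₂ - sumPlaces T)
    (by rw [hdeg]; omega) (by rw [hdeg]; omega)
  rw [mem_riemannRochSpace_sub_sumPlaces_iff hTR] at hb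
  have hab : ((0, b) : Fk₁ × Fk₂) ∈ nodalRR N.s₁ N.s₂ (m • N.R₁) (m • N.R₂) := by
    refine ⟨Submodule.zero_mem _, hb.1, fun i => ⟨0, valAt_zero _, ?_⟩⟩
    exact (valAt_zero_right_iff _ _).mpr (hb.2 _ (Finset.mem_image_of_mem _ (Finset.mem_univ i)))
  obtain ⟨f, hf, hf1, hf2, hfa, hfb⟩ := N.exists_lift (le_refl _) hab
  exact ⟨f, hf, hf1, hf2, hfa, by rw [hfb]; exact hb0⟩

/-- `O₁ ≰ O₂`. -/
theorem NodalSeed.ov_not_le₁₂ : ¬ N.S₁.Ov ≤ N.S₂.Ov := by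
  obtain ⟨f, -, hf1, hf2, hfa, hfb⟩ := N.exists_left
  intro hle
  have hf0 : f ≠ 0 := N.S₁.ne_zero_of_red_ne_zero hfa
  have hinv : f⁻¹ ∈ N.S₁.Ov := N.S₁.inv_mem_of_red_ne_zero hfa
  exact (N.S₂.red_eq_zero_iff hf2 hf0).mp hfb (hle hinv)

/-- `O₂ ≰ O₁`. -/
theorem NodalSeed.ov_not_le₂₁ : ¬ N.S₂.Ov ≤ N.S₁.Ov := by
  obtain ⟨f, -, hf1, hf2, hfa, hfb⟩ := N.exists_right
  intro hle
  have hf0 : f ≠ 0 := N.S₂.ne_zero_of_red_ne_zero hfb
  have hinv : f⁻¹ ∈ N.S₂.Ov := N.S₂.inv_mem_of_red_ne_zero hfb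
  exact (N.S₁.red_eq_zero_iff hf1 hf0).mp hfa (hle hinv)

/-- **(FI2)** for a seed: `deg (red₁ w)_∞ + deg (red₂ w)_∞ ≤ deg (w)_∞` for `w ∈ O₁ ∩ O₂`. -/
theorem NodalSeed.fi2_degree_le {w : F} (hw₁ : w ∈ N.S₁.Ov) (hw₂ : w ∈ N.S₂.Ov) :
    Divisor.degree (poleDiv N.S₁.hFk (N.S₁.red w)) +
      Divisor.degree (poleDiv N.S₂.hFk (N.S₂.red w)) ≤ Divisor.degree (poleDiv N.S₁.hF w) :=
  Fermat.Agent.BadRed.fi2_degree_le N.S₁ N.S₂ N.A_eq N.res_eq N.ov_not_le₁₂ N.ov_not_le₂₁ hw₁ hw₂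

/-- surjectivity of the pair reduction `O₁ ∩ O₂ → Fk₁ × Fk₂`. -/
theorem NodalSeed.exists_pair_lift (a : Fk₁) (b : Fk₂) :
    ∃ f : F, f ∈ N.S₁.Ov ∧ f ∈ N.S₂.Ov ∧ N.S₁.red f = a ∧ N.S₂.red f = b :=
  fi2_exists_pair_lift N.S₁ N.S₂ N.ov_not_le₁₂ N.ov_not_le₂₁ a b

end Fermat.Agent.BadRed
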