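import Mathlib
import Fermat.Agent.Lib.BadRed.Nodal.Deuring2.Node
import Fermat.Agent.Lib.BadRed.Nodal.Deuring2.TypeA

set_option autoImplicit false

/-!
# Cluster T, WP N4: assembly `NodalType → NodalSetup`

* `NodalType.Push₁`, `NodalType.Push₂` : the push statements of `NodalSetup` for `r := T.r`
  (proved in `PushOne.lean`);
* `NodalType.r_surj₁`, `NodalType.r_surj₂` (S7): every smooth point of the special fibre lifts
  (from `Push` applied to a two-sided unit whose reduction has order `≠ 0` at `Q`);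
* `NodalType.toNodalSetup` : the `NodalSetup` of a seed, with `genusRel`.
-/

noncomputable section

open AlgebraicCurve Fermat.Agent.RR Fermat.Agent.Deuring

namespace Fermat.Agent.BadRed

variable {K F k Fk₁ Fk₂ : Type*} [Field K] [Field F] [Algebra K F]
  [Field k] [Field Fk₁] [Algebra k Fk₁] [Field Fk₂] [Algebra k Fk₂] {ι : Type*} [Fintype ι]
  {N : NodalSeed K F k Fk₁ Fk₂ ι}

/-- the push statement on the first component (units of `O₁`). -/
def NodalType.Push₁ (T : NodalType N) : Prop :=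
  ∀ f : F, f ∈ N.S₁.Ov → f⁻¹ ∈ N.S₁.Ov → f ≠ 0 →
    ∀ Q : Place k Fk₁, (∀ i, Q ≠ N.s₁ i) →
      Finsupp.mapDomain T.r (divOf N.S₁.hF f) (some (Sum.inl Q)) = Q.ord (N.S₁.red f)

/-- the push statement on the second component (units of `O₂`). -/
def NodalType.Push₂ (T : NodalType N) : Prop :=
  ∀ f : F, f ∈ N.S₂.Ov → f⁻¹ ∈ N.S₂.Ov → f ≠ 0 →
    ∀ Q : Place k Fk₂, (∀ i, Q ≠ N.s₂ i) →
      Finsupp.mapDomain T.r (divOf N.S₁.hF f) (some (Sum.inr Q)) = Q.ord (N.S₂.red f)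

/-- **S7**: every smooth point of the first component lifts. -/
theorem NodalType.r_surj₁ [Infinite k] (T : NodalType N) (hpush : T.Push₁)
    (Q : Place k Fk₁) (hQ : ∀ i, Q ≠ N.s₁ i) : ∃ P, T.r P = some (Sum.inl Q) := by
  classical
  set m := N.m₁ + 1 with hm
  have hm₁ : N.m₁ ≤ m := Nat.le_succ _
  have hR₁ : ∀ i, (m • N.R₁ - Finsupp.single Q 1 : Divisor k Fk₁) (N.s₁ i) = 0 := by
    intro i
    rw [Finsupp.sub_apply, N.smul_R₁_node, Finsupp.single_eq_of_ne' (hQ i), sub_zero]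
  have hdeg₁ : 2 * (genusFF k Fk₁ : ℤ) - 2 <
      Divisor.degree (m • N.R₁ - Finsupp.single Q 1 : Divisor k Fk₁) - Fintype.card ι - 1 := by
    have := N.big₁ hm₁
    have hg := Int.natCast_nonneg (genusFF K F)
    have hg₂ := Int.natCast_nonneg (genusFF k Fk₂)
    rw [map_sub, degree_single_one N.S₁.hFk]
    omega
  obtain ⟨a, ha, ha0, hac, haT⟩ := exists_interpolation_exact N.S₁.hFk N.s₁ N.s₁_inj
    (m • N.R₁ - Finsupp.single Q 1) hR₁ {Q}
    (fun Q' hQ' i => by rw [Finset.mem_singleton.mp hQ']; exact hQ i) hdeg₁ (fun _ => 1)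
  obtain ⟨b, hb, hb0, hbc, -⟩ := exists_interpolation_exact N.S₂.hFk N.s₂ N.s₂_inj
    (m • N.R₂) (N.smul_R₂_node m) ∅ (fun Q' hQ' => absurd hQ' (Finset.notMem_empty _))
    (N.hdeg₂ hm₁) (fun _ => 1)
  have haL : a ∈ riemannRochSpace (m • N.R₁) := by
    refine riemannRochSpace_mono ?_ ha
    rw [sub_le_self_iff]
    intro v
    rw [Finsupp.zero_apply]
    by_cases hv : Q = v
    · subst hv
      rw [Finsupp.single_eq_same]
      exact zero_le_one
    · rw [Finsupp.single_eq_of_ne' hv]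
  have hab : ((a, b) : Fk₁ × Fk₂) ∈ nodalRR N.s₁ N.s₂ (m • N.R₁) (m • N.R₂) :=
    ⟨haL, hb, fun i => ⟨1, hac i, hbc i⟩⟩
  obtain ⟨u, -, hu1, -, hua, -⟩ := N.exists_lift (N.m₀_le_of_m₁_le hm₁) hab
  have hred : N.S₁.red u ≠ 0 := by rw [hua]; exact ha0
  have hpu := hpush u hu1 (N.S₁.inv_mem_of_red_ne_zero hred) (N.S₁.ne_zero_of_red_ne_zero hred)
    Q hQ
  have hord : Q.ord a = 1 - (m • N.R₁) Q := by
    rw [haT Q (Finset.mem_singleton_self Q), Finsupp.sub_apply, Finsupp.single_eq_same]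
    ring
  have hne : Q.ord (N.S₁.red u) ≠ 0 := by
    rw [hua, hord, Finsupp.smul_apply, nsmul_eq_mul]
    have h0 := Finsupp.le_def.mp N.R₁_nonneg Q
    rw [Finsupp.zero_apply] at h0
    have hm2 : (2 : ℤ) ≤ m := by
      have : 2 ≤ m := by
        rw [hm]
        unfold NodalSeed.m₁
        omega
      exact_mod_cast this
    rcases eq_or_lt_of_le h0 with h | h
    · rw [← h, mul_zero]
      norm_num
    · have : (m : ℤ) ≤ m * N.R₁ Q := by nlinarith
      omega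
  by_contra hcon
  push Not at hcon
  apply hne
  rw [← hpu]
  apply Finsupp.mapDomain_notin_range
  rintro ⟨P, hP⟩
  exact hcon P hP

/-- **S7**: every smooth point of the second component lifts. -/
theorem NodalType.r_surj₂ [Infinite k] (T : NodalType N) (hpush : T.Push₂)
    (Q : Place k Fk₂) (hQ : ∀ i, Q ≠ N.s₂ i) : ∃ P, T.r P = some (Sum.inr Q) := by
  classical
  set m := N.m₁ + 1 with hm
  have hm₁ : N.m₁ ≤ m := Nat.le_succ _
  have hR₂ : ∀ i, (m • N.R₂ - Finsupp.single Q 1 : Divisor k Fk₂) (N.s₂ i) = 0 := by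
    intro i
    rw [Finsupp.sub_apply, N.smul_R₂_node, Finsupp.single_eq_of_ne' (hQ i), sub_zero]
  have hdeg₂ : 2 * (genusFF k Fk₂ : ℤ) - 2 <
      Divisor.degree (m • N.R₂ - Finsupp.single Q 1 : Divisor k Fk₂) - Fintype.card ι - 1 := by
    have := N.big₂ hm₁
    have hg := Int.natCast_nonneg (genusFF K F)
    have hg₁ := Int.natCast_nonneg (genusFF k Fk₁)
    rw [map_sub, degree_single_one N.S₂.hFk]
    omega
  obtain ⟨b, hb, hb0, hbc, hbT⟩ := exists_interpolation_exact N.S₂.hFk N.s₂ N.s₂_inj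
    (m • N.R₂ - Finsupp.single Q 1) hR₂ {Q}
    (fun Q' hQ' i => by rw [Finset.mem_singleton.mp hQ']; exact hQ i) hdeg₂ (fun _ => 1)
  obtain ⟨a, ha, ha0, hac, -⟩ := exists_interpolation_exact N.S₁.hFk N.s₁ N.s₁_inj
    (m • N.R₁) (N.smul_R₁_node m) ∅ (fun Q' hQ' => absurd hQ' (Finset.notMem_empty _))
    (N.hdeg₁ hm₁) (fun _ => 1)
  have hbL : b ∈ riemannRochSpace (m • N.R₂) := by
    refine riemannRochSpace_mono ?_ hb
    rw [sub_le_self_iff]
    intro v
    rw [Finsupp.zero_apply]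
    by_cases hv : Q = v
    · subst hv
      rw [Finsupp.single_eq_same]
      exact zero_le_one
    · rw [Finsupp.single_eq_of_ne' hv]
  have hab : ((a, b) : Fk₁ × Fk₂) ∈ nodalRR N.s₁ N.s₂ (m • N.R₁) (m • N.R₂) :=
    ⟨ha, hbL, fun i => ⟨1, hac i, hbc i⟩⟩
  obtain ⟨u, -, -, hu2, -, hub⟩ := N.exists_lift (N.m₀_le_of_m₁_le hm₁) hab
  have hred : N.S₂.red u ≠ 0 := by rw [hub]; exact hb0
  have hpu := hpush u hu2 (N.S₂.inv_mem_of_red_ne_zero hred) (N.S₂.ne_zero_of_red_ne_zero hred)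
    Q hQ
  have hord : Q.ord b = 1 - (m • N.R₂) Q := by
    rw [hbT Q (Finset.mem_singleton_self Q), Finsupp.sub_apply, Finsupp.single_eq_same]
    ring
  have hne : Q.ord (N.S₂.red u) ≠ 0 := by
    rw [hub, hord, Finsupp.smul_apply, nsmul_eq_mul]
    have h0 := Finsupp.le_def.mp N.R₂_nonneg Q
    rw [Finsupp.zero_apply] at h0
    have hm2 : (2 : ℤ) ≤ m := by
      have : 2 ≤ m := by
        rw [hm]
        unfold NodalSeed.m₁
        omega
      exact_mod_cast this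
    rcases eq_or_lt_of_le h0 with h | h
    · rw [← h, mul_zero]
      norm_num
    · have : (m : ℤ) ≤ m * N.R₂ Q := by nlinarith
      omega
  by_contra hcon
  push Not at hcon
  apply hne
  rw [← hpu]
  apply Finsupp.mapDomain_notin_range
  rintro ⟨P, hP⟩
  exact hcon P hP

/-- **The nodal reduction package of a seed.** -/
def NodalType.toNodalSetup [Infinite k] (T : NodalType N) (h₁ : T.Push₁) (h₂ : T.Push₂) :
    NodalSetup K F k Fk₁ Fk₂ ι where
  S₁ := N.S₁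
  S₂ := N.S₂
  A_eq := N.A_eq
  res_eq := N.res_eq
  lat₁ := N.lat₁
  lat₂ := N.lat₂
  s₁ := N.s₁
  s₂ := N.s₂
  s₁_inj := N.s₁_inj
  s₂_inj := N.s₂_inj
  r := T.r
  r_ne_node₁ := T.r_ne_node₁
  r_ne_node₂ := T.r_ne_node₂
  r_surj₁ := T.r_surj₁ h₁
  r_surj₂ := T.r_surj₂ h₂
  push₁ := h₁
  push₂ := h₂
  node := fun _ hf₁ hf₂ hf i => T.node hf₁ hf₂ hf i

theorem NodalType.toNodalSetup_genusRel [Infinite k] (T : NodalType N) (h₁ : T.Push₁)
    (h₂ : T.Push₂) : (T.toNodalSetup h₁ h₂).GenusRel :=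
  N.genus_eq

@[simp]
theorem NodalType.toNodalSetup_r [Infinite k] (T : NodalType N) (h₁ : T.Push₁)
    (h₂ : T.Push₂) : (T.toNodalSetup h₁ h₂).r = T.r := rfl

@[simp]
theorem NodalType.toNodalSetup_S₁ [Infinite k] (T : NodalType N) (h₁ : T.Push₁)
    (h₂ : T.Push₂) : (T.toNodalSetup h₁ h₂).S₁ = N.S₁ := rfl

@[simp]
theorem NodalType.toNodalSetup_S₂ [Infinite k] (T : NodalType N) (h₁ : T.Push₁)
    (h₂ : T.Push₂) : (T.toNodalSetup h₁ h₂).S₂ = N.S₂ := rfl

end Fermat.Agent.BadRed
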