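/-
Cluster T, WP N4, step S9 (helper16): CANONICITY of the reduction of places.

`NodalType.r_smul`: a semilinear automorphism `t` of `F / K` which preserves both valuation rings,
is trivial on both residue fields and preserves the seed divisor `D₀` commutes with the reduction
map of places: `T.r (t • P) = T.r P`.  (Consumer: `NodalSetup.IsInertial.r_smul`.)

Proof (helper46's note).
(i)  UNIQUENESS: if `f ∈ 𝔏(m D₀ + P)` has a reduction with a pole of order `m R₁(Q) + 1` at a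
     non-node `Q`, then `T.r P = some (inl Q)`  (else multiply by `h` from `T.unit₁` and contradict
     the seed condition at `Q`).
(ii) `t⁻¹` preserves the valuation rings and the reductions as well.
(iii) `t` maps `𝔏(m D₀ + P)` into `𝔏(m D₀ + t P)`.
-/
import Mathlib
import Fermat.Agent.Lib.BadRed.Nodal.Deuring2.TypeDef
import Fermat.Prelude.Def_AlgebraicCurve_BaseChangeGalois

set_option autoImplicit false

noncomputable section

open AlgebraicCurve Fermat.Agent.RR Fermat.Agent.Deuring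

namespace Fermat.Agent.BadRed

variable {K F k Fk₁ Fk₂ : Type*} [Field K] [Field F] [Algebra K F]
  [Field k] [Field Fk₁] [Algebra k Fk₁] [Field Fk₂] [Algebra k Fk₂] {ι : Type*} [Fintype ι]
  {N : NodalSeed K F k Fk₁ Fk₂ ι}

/-! ### (i) uniqueness -/

/-- the key inequality: a pole of order `m R(Q) + 1` times an element of exact order `- m' R(Q)`
is not in `L((m + m') R)`. -/
theorem canon_not_mem_aux {k' Fk : Type*} [Field k'] [Field Fk] [Algebra k' Fk]
    (R : Divisor k' Fk) (Q : Place k' Fk) {m m' : ℕ} {a b : Fk} (ha : a ≠ 0) (hb : b ≠ 0)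
    (hoa : Q.ord a = -((m • R) Q) - 1) (hob : Q.ord b = -((m' • R) Q)) :
    a * b ∉ riemannRochSpace ((m + m') • R) := by
  intro hmem
  rw [mem_riemannRochSpace_iff] at hmem
  rcases hmem Q with h0 | hle
  · exact mul_ne_zero ha hb h0
  · rw [Q.ord_mul ha hb, hoa, hob, add_smul, Finsupp.add_apply] at hle
    linarith

theorem NodalType.r_eq_inl_of_pole (T : NodalType N) {P : Place K F} {Q : Place k Fk₁}
    (hQ : ∀ i, Q ≠ N.s₁ i) {m : ℕ} {f : F}
    (hf : N.toNodalCore.IsInt (m • N.D₀ + Finsupp.single P 1) f) (hred : N.S₁.red f ≠ 0)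
    (hord : Q.ord (N.S₁.red f) = -((m • N.R₁) Q) - 1) : T.r P = some (Sum.inl Q) := by
  by_contra hne
  obtain ⟨m', h, hh, hhred, hhord⟩ := T.unit₁ P Q hQ hne
  have hfh : N.toNodalCore.IsInt ((m + m') • N.D₀) (f * h) := by
    have h1 := NodalCore.IsInt.mul N.toNodalCore hf hh
    have e : m • N.D₀ + Finsupp.single P 1 + (m' • N.D₀ - Finsupp.single P 1) =
        (m + m') • N.D₀ := by
      rw [add_smul]
      abel
    rwa [e] at h1
  have hseed := N.seed (m + m') (f * h) hfh.1 hfh.2.1 hfh.2.2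
  rw [mem_nodalRR] at hseed
  have h1 := hseed.1
  rw [N.S₁.red_mul hf.2.1 hh.2.1] at h1
  exact canon_not_mem_aux N.R₁ Q hred hhred hord hhord h1

theorem NodalType.r_eq_inr_of_pole (T : NodalType N) {P : Place K F} {Q : Place k Fk₂}
    (hQ : ∀ i, Q ≠ N.s₂ i) {m : ℕ} {f : F}
    (hf : N.toNodalCore.IsInt (m • N.D₀ + Finsupp.single P 1) f) (hred : N.S₂.red f ≠ 0)
    (hord : Q.ord (N.S₂.red f) = -((m • N.R₂) Q) - 1) : T.r P = some (Sum.inr Q) := by
  by_contra hne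
  obtain ⟨m', h, hh, hhred, hhord⟩ := T.unit₂ P Q hQ hne
  have hfh : N.toNodalCore.IsInt ((m + m') • N.D₀) (f * h) := by
    have h1 := NodalCore.IsInt.mul N.toNodalCore hf hh
    have e : m • N.D₀ + Finsupp.single P 1 + (m' • N.D₀ - Finsupp.single P 1) =
        (m + m') • N.D₀ := by
      rw [add_smul]
      abel
    rwa [e] at h1
  have hseed := N.seed (m + m') (f * h) hfh.1 hfh.2.1 hfh.2.2
  rw [mem_nodalRR] at hseed
  have h1 := hseed.2.1
  rw [N.S₂.red_mul hf.2.2 hh.2.2] at h1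
  exact canon_not_mem_aux N.R₂ Q hred hhred hord hhord h1

/-! ### (ii) the inverse automorphism -/

/-- if `t` preserves a valuation ring and the reduction, so does `t⁻¹`. -/
theorem canon_inv_mem {Fk : Type*} [Field Fk] [Algebra k Fk] (S : ValSetup K F k Fk)
    (t : SemilinearAut K F) (hm : ∀ f, f ∈ S.Ov → t • f ∈ S.Ov)
    (hr : ∀ f, f ∈ S.Ov → S.red (t • f) = S.red f) (f : F) (hf : f ∈ S.Ov) :
    t⁻¹ • f ∈ S.Ov := by
  by_cases hf0 : f = 0
  · rw [hf0, smul_zero]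
    exact S.Ov.zero_mem
  by_contra hcon
  set g : F := (t⁻¹ • f)⁻¹ with hg
  have hg0 : g ≠ 0 := by
    rw [hg]
    refine inv_ne_zero ?_
    intro h
    exact hcon (h ▸ S.Ov.zero_mem)
  have hgmem : g ∈ S.Ov := (S.Ov.mem_or_inv_mem (t⁻¹ • f)).resolve_left hcon
  have hginv : g⁻¹ ∉ S.Ov := by
    rw [hg, inv_inv]
    exact hcon
  have hgred : S.red g = 0 := (S.red_eq_zero_iff hgmem hg0).mpr hginv
  have htg : t • g = f⁻¹ := by
    rw [hg, smul_inv'', smul_inv_smul]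
  have h1 : f⁻¹ ∈ S.Ov := htg ▸ hm g hgmem
  have h2 : S.red f⁻¹ = 0 := by
    rw [← htg, hr g hgmem, hgred]
  have h3 := (S.red_eq_zero_iff h1 (inv_ne_zero hf0)).mp h2
  rw [inv_inv] at h3
  exact h3 hf

theorem canon_inv_red {Fk : Type*} [Field Fk] [Algebra k Fk] (S : ValSetup K F k Fk)
    (t : SemilinearAut K F) (hm : ∀ f, f ∈ S.Ov → t • f ∈ S.Ov)
    (hr : ∀ f, f ∈ S.Ov → S.red (t • f) = S.red f) (f : F) (hf : f ∈ S.Ov) :
    S.red (t⁻¹ • f) = S.red f := by
  have h := hr (t⁻¹ • f) (canon_inv_mem S t hm hr f hf)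
  rw [smul_inv_smul] at h
  exact h.symm

/-! ### (iii) transport of `𝔏(m D₀ + P)` -/

theorem canon_isInt_smul (t : SemilinearAut K F)
    (hm₁ : ∀ f, f ∈ N.S₁.Ov → t • f ∈ N.S₁.Ov) (hm₂ : ∀ f, f ∈ N.S₂.Ov → t • f ∈ N.S₂.Ov)
    (hD : ∀ P, N.D₀ (t • P) = N.D₀ P) {m : ℕ} {P : Place K F} {f : F}
    (hf : N.toNodalCore.IsInt (m • N.D₀ + Finsupp.single P 1) f) :
    N.toNodalCore.IsInt (m • N.D₀ + Finsupp.single (t • P) 1) (t • f) := by
  classical
  obtain ⟨h1, h2, h3⟩ := hf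
  refine ⟨?_, hm₁ f h2, hm₂ f h3⟩
  rw [mem_riemannRochSpace_iff] at h1 ⊢
  intro v
  rcases h1 (t⁻¹ • v) with h0 | hle
  · left
    rw [h0, smul_zero]
  · right
    have hord : v.ord (t • f) = (t⁻¹ • v).ord f := by
      have h := SemilinearAut.ord_smul t (t⁻¹ • v) f
      rwa [smul_inv_smul] at h
    have hdiv : (m • N.D₀ + Finsupp.single (t • P) 1 : Divisor K F) v =
        (m • N.D₀ + Finsupp.single P 1 : Divisor K F) (t⁻¹ • v) := by
      have hD' : N.D₀ v = N.D₀ (t⁻¹ • v) := by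
        have := hD (t⁻¹ • v)
        rwa [smul_inv_smul] at this
      rw [Finsupp.add_apply, Finsupp.add_apply, Finsupp.smul_apply, Finsupp.smul_apply, hD',
        Finsupp.single_apply, Finsupp.single_apply]
      congr 1
      by_cases hP : t • P = v
      · have hP' : P = t⁻¹ • v := by rw [← hP, inv_smul_smul]
        rw [if_pos hP, if_pos hP']
      · have hP' : ¬ P = t⁻¹ • v := by
          intro h
          apply hP
          rw [h, smul_inv_smul]
        rw [if_neg hP, if_neg hP']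
    rw [hord, hdiv]
    exact hle

/-! ### the theorem -/

/-- one direction. -/
theorem NodalType.r_of_r_smul (T : NodalType N) (t : SemilinearAut K F)
    (hm₁ : ∀ f, f ∈ N.S₁.Ov → t • f ∈ N.S₁.Ov)
    (hr₁ : ∀ f, f ∈ N.S₁.Ov → N.S₁.red (t • f) = N.S₁.red f)
    (hm₂ : ∀ f, f ∈ N.S₂.Ov → t • f ∈ N.S₂.Ov)
    (hr₂ : ∀ f, f ∈ N.S₂.Ov → N.S₂.red (t • f) = N.S₂.red f)
    (hD : ∀ P, N.D₀ (t • P) = N.D₀ P) (P : Place K F)
    (X : Place k Fk₁ ⊕ Place k Fk₂) (hX : T.r (t • P) = some X) : T.r P = some X := by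
  have hDinv : ∀ P, N.D₀ (t⁻¹ • P) = N.D₀ P := by
    intro P
    have := hD (t⁻¹ • P)
    rw [smul_inv_smul] at this
    exact this.symm
  rcases X with Q | Q
  · obtain ⟨m, f, hf, hred, hord⟩ := T.pole₁ (t • P) Q hX
    have hQ : ∀ i, Q ≠ N.s₁ i := fun i h => T.r_ne_node₁ (t • P) i (h ▸ hX)
    have hf' := canon_isInt_smul t⁻¹ (canon_inv_mem N.S₁ t hm₁ hr₁)
      (canon_inv_mem N.S₂ t hm₂ hr₂) hDinv hf
    rw [inv_smul_smul] at hf'
    have hred' : N.S₁.red (t⁻¹ • f) = N.S₁.red f := canon_inv_red N.S₁ t hm₁ hr₁ f hf.2.1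
    exact T.r_eq_inl_of_pole hQ hf' (by rw [hred']; exact hred) (by rw [hred']; exact hord)
  · obtain ⟨m, f, hf, hred, hord⟩ := T.pole₂ (t • P) Q hX
    have hQ : ∀ i, Q ≠ N.s₂ i := fun i h => T.r_ne_node₂ (t • P) i (h ▸ hX)
    have hf' := canon_isInt_smul t⁻¹ (canon_inv_mem N.S₁ t hm₁ hr₁)
      (canon_inv_mem N.S₂ t hm₂ hr₂) hDinv hf
    rw [inv_smul_smul] at hf'
    have hred' : N.S₂.red (t⁻¹ • f) = N.S₂.red f := canon_inv_red N.S₂ t hm₂ hr₂ f hf.2.2
    exact T.r_eq_inr_of_pole hQ hf' (by rw [hred']; exact hred) (by rw [hred']; exact hord)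

/-- **S9, canonicity**: `r (t • P) = r P`. -/
theorem NodalType.r_smul (T : NodalType N) (t : SemilinearAut K F)
    (hm₁ : ∀ f, f ∈ N.S₁.Ov → t • f ∈ N.S₁.Ov)
    (hr₁ : ∀ f, f ∈ N.S₁.Ov → N.S₁.red (t • f) = N.S₁.red f)
    (hm₂ : ∀ f, f ∈ N.S₂.Ov → t • f ∈ N.S₂.Ov)
    (hr₂ : ∀ f, f ∈ N.S₂.Ov → N.S₂.red (t • f) = N.S₂.red f)
    (hD : ∀ P, N.D₀ (t • P) = N.D₀ P) (P : Place K F) : T.r (t • P) = T.r P := by
  have hDinv : ∀ P, N.D₀ (t⁻¹ • P) = N.D₀ P := by
    intro P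
    have := hD (t⁻¹ • P)
    rw [smul_inv_smul] at this
    exact this.symm
  have hback : ∀ X, T.r P = some X → T.r (t • P) = some X := by
    intro X hX
    have h := T.r_of_r_smul t⁻¹ (canon_inv_mem N.S₁ t hm₁ hr₁) (canon_inv_red N.S₁ t hm₁ hr₁)
      (canon_inv_mem N.S₂ t hm₂ hr₂) (canon_inv_red N.S₂ t hm₂ hr₂) hDinv (t • P) X
    rw [inv_smul_smul] at h
    exact h hX
  cases hP : T.r P with
  | some X => exact hback X hP
  | none =>
    cases htP : T.r (t • P) with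
    | none => rfl
    | some X =>
      have := T.r_of_r_smul t hm₁ hr₁ hm₂ hr₂ hD P X htP
      rw [hP] at this
      exact absurd this (by simp)

end Fermat.Agent.BadRed
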