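import Mathlib
import Fermat.Agent.Lib.BadRed.Nodal.Deuring2.Assembly
import Fermat.Agent.Lib.BadRed.Nodal.Deuring2.Canon
import Fermat.Agent.Lib.BadRed.Nodal.NSBuildLift
import Fermat.Agent.Lib.BadRed.Nodal.ToricKeyDef

set_option autoImplicit false

/-!
# Cluster T, WP N4: the exports of the nodal package of a seed (for an arbitrary `NodalType`)

For `T : NodalType N` with the push statements `h₁ : T.Push₁`, `h₂ : T.Push₂`:
* `NodalType.toNodalSetup_hasLift` : the lifting property (LIFT) of `NSBuildLift.lean`;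
* `NodalType.toNodalSetup_isInertial` : a semilinear automorphism which preserves both valuation
  rings, both reduction maps and the seed divisor `D₀` is inertial (`ToricKeyDef.lean`);
* `NodalType.toNodalSetup_supp` : the places of `supp D₀` reduce into `supp R₁ ∪ supp R₂`.
-/

noncomputable section

open AlgebraicCurve Fermat.Agent.RR Fermat.Agent.Deuring

namespace Fermat.Agent.BadRed

variable {K F k Fk₁ Fk₂ : Type*} [Field K] [Field F] [Algebra K F]
  [Field k] [Field Fk₁] [Algebra k Fk₁] [Field Fk₂] [Algebra k Fk₂] {ι : Type*} [Fintype ι]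
  {N : NodalSeed K F k Fk₁ Fk₂ ι}

/-- (LIFT) for the nodal package of a seed. -/
theorem NodalType.toNodalSetup_hasLift [Infinite k] (T : NodalType N) (h₁ : T.Push₁)
    (h₂ : T.Push₂) : (T.toNodalSetup h₁ h₂).HasLift N.D₀ N.R₁ N.R₂ :=
  ⟨N.m₀, fun _ hm _ _ hab => N.exists_lift hm hab⟩

/-- canonicity: semilinear automorphisms which are trivial on the special fibre and preserve the
seed divisor are inertial. -/
theorem NodalType.toNodalSetup_isInertial [Infinite k] (T : NodalType N) (h₁ : T.Push₁)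
    (h₂ : T.Push₂) (t : SemilinearAut K F)
    (hm₁ : ∀ f, f ∈ N.S₁.Ov → t • f ∈ N.S₁.Ov)
    (hr₁ : ∀ f, f ∈ N.S₁.Ov → N.S₁.red (t • f) = N.S₁.red f)
    (hm₂ : ∀ f, f ∈ N.S₂.Ov → t • f ∈ N.S₂.Ov)
    (hr₂ : ∀ f, f ∈ N.S₂.Ov → N.S₂.red (t • f) = N.S₂.red f)
    (hD : ∀ P, N.D₀ (t • P) = N.D₀ P) : (T.toNodalSetup h₁ h₂).IsInertial t where
  mem₁ := hm₁
  red₁ := hr₁
  mem₂ := hm₂
  red₂ := hr₂
  r_smul := T.r_smul t hm₁ hr₁ hm₂ hr₂ hD

/-- (SUPP): the places of the support of `D₀` reduce into the supports of `R₁`, `R₂`. -/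
theorem NodalType.toNodalSetup_supp [Infinite k] (T : NodalType N) (h₁ : T.Push₁)
    (h₂ : T.Push₂) (P : Place K F) (hP : N.D₀ P ≠ 0) :
    (∃ Q, (T.toNodalSetup h₁ h₂).r P = some (Sum.inl Q) ∧ N.R₁ Q ≠ 0) ∨
      (∃ Q, (T.toNodalSetup h₁ h₂).r P = some (Sum.inr Q) ∧ N.R₂ Q ≠ 0) :=
  T.supp P hP

end Fermat.Agent.BadRed
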