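import Mathlib
import Fermat.Agent.Lib.BadRed.Nodal.Deuring2.TypeA

set_option autoImplicit false
set_option linter.style.haveILetI false
set_option linter.unusedSectionVars false

/-!
# Cluster T, WP N4, step S6: the auxiliary functions of the push statement

For a smooth point `Q` of the first component and `m ≥ N.m₁`:
* `NodalSeed.exists_exact_zero_of_le₁` : `e₀ ∈ L(m D₀) ∩ O₁ ∩ O₂` with `red₁ e₀ ≠ 0` of exact order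
  `- m R₁(Q)` at `Q` and `red₂ e₀ = 0`;
* `NodalSeed.exists_exact_unit_of_le₁` : a two-sided unit `u ∈ L(m D₀) ∩ O₁ ∩ O₂` with `red₁ u` of
  exact order `- m R₁(Q)` at `Q`;
* `NodalSeed.exists_exact_zero₁`, `NodalSeed.exists_exact_unit₁` : the same with `∃ m`;
and the same for the second component (`₂`).
-/

noncomputable section

open AlgebraicCurve Fermat.Agent.RR Fermat.Agent.Deuring

namespace Fermat.Agent.BadRed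

variable {K F k Fk₁ Fk₂ : Type*} [Field K] [Field F] [Algebra K F]
  [Field k] [Field Fk₁] [Algebra k Fk₁] [Field Fk₂] [Algebra k Fk₂]
  {ι : Type*} [Fintype ι] (N : NodalSeed K F k Fk₁ Fk₂ ι)

theorem NodalSeed.po_smul_apply₁ (m : ℕ) (Q : Place k Fk₁) :
    (m • N.R₁) Q = (m : ℤ) * N.R₁ Q := by
  rw [Finsupp.smul_apply, nsmul_eq_mul]

theorem NodalSeed.po_smul_apply₂ (m : ℕ) (Q : Place k Fk₂) :
    (m • N.R₂) Q = (m : ℤ) * N.R₂ Q := by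
  rw [Finsupp.smul_apply, nsmul_eq_mul]

/-- a function of `L(m D₀) ∩ O₁ ∩ O₂` whose first reduction has exact order `- m R₁(Q)` at `Q`
and whose second reduction vanishes. -/
theorem NodalSeed.exists_exact_zero_of_le₁ [Infinite k] {m : ℕ} (hm : N.m₁ ≤ m)
    (Q : Place k Fk₁) (hQ : ∀ i, Q ≠ N.s₁ i) :
    ∃ e₀ : F, N.toNodalCore.IsInt (m • N.D₀) e₀ ∧ N.S₁.red e₀ ≠ 0 ∧
      Q.ord (N.S₁.red e₀) = -((m : ℤ) * N.R₁ Q) ∧ N.S₂.red e₀ = 0 := by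
  classical
  obtain ⟨a, ha, ha0, hac, haQ⟩ := exists_interpolation_exact N.S₁.hFk N.s₁ N.s₁_inj
    (m • N.R₁) (N.smul_R₁_node m) {Q}
    (fun Q' hQ' i => by rw [Finset.mem_singleton.mp hQ']; exact hQ i) (N.hdeg₁ hm) (fun _ => 0)
  have hab : ((a, (0 : Fk₂)) : Fk₁ × Fk₂) ∈ nodalRR N.s₁ N.s₂ (m • N.R₁) (m • N.R₂) :=
    ⟨ha, Submodule.zero_mem _, fun i => ⟨0, hac i, valAt_zero _⟩⟩
  obtain ⟨e₀, he1, he2, he3, hea, heb⟩ := N.exists_lift (N.m₀_le_of_m₁_le hm) hab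
  refine ⟨e₀, ⟨he1, he2, he3⟩, by rw [hea]; exact ha0, ?_, heb⟩
  rw [hea, haQ Q (Finset.mem_singleton_self Q), N.po_smul_apply₁]

/-- the same on the second component. -/
theorem NodalSeed.exists_exact_zero_of_le₂ [Infinite k] {m : ℕ} (hm : N.m₁ ≤ m)
    (Q : Place k Fk₂) (hQ : ∀ i, Q ≠ N.s₂ i) :
    ∃ e₀ : F, N.toNodalCore.IsInt (m • N.D₀) e₀ ∧ N.S₂.red e₀ ≠ 0 ∧
      Q.ord (N.S₂.red e₀) = -((m : ℤ) * N.R₂ Q) ∧ N.S₁.red e₀ = 0 := by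
  classical
  obtain ⟨b, hb, hb0, hbc, hbQ⟩ := exists_interpolation_exact N.S₂.hFk N.s₂ N.s₂_inj
    (m • N.R₂) (N.smul_R₂_node m) {Q}
    (fun Q' hQ' i => by rw [Finset.mem_singleton.mp hQ']; exact hQ i) (N.hdeg₂ hm) (fun _ => 0)
  have hab : (((0 : Fk₁), b) : Fk₁ × Fk₂) ∈ nodalRR N.s₁ N.s₂ (m • N.R₁) (m • N.R₂) :=
    ⟨Submodule.zero_mem _, hb, fun i => ⟨0, valAt_zero _, hbc i⟩⟩
  obtain ⟨e₀, he1, he2, he3, hea, heb⟩ := N.exists_lift (N.m₀_le_of_m₁_le hm) hab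
  refine ⟨e₀, ⟨he1, he2, he3⟩, by rw [heb]; exact hb0, ?_, hea⟩
  rw [heb, hbQ Q (Finset.mem_singleton_self Q), N.po_smul_apply₂]

/-- a two-sided unit of `L(m D₀) ∩ O₁ ∩ O₂` whose first reduction has exact order `- m R₁(Q)`
at `Q` (and the value `1` at the nodes). -/
theorem NodalSeed.exists_exact_unit_of_le₁ [Infinite k] {m : ℕ} (hm : N.m₁ ≤ m)
    (Q : Place k Fk₁) (hQ : ∀ i, Q ≠ N.s₁ i) :
    ∃ u : F, N.toNodalCore.IsInt (m • N.D₀) u ∧ u ≠ 0 ∧ u⁻¹ ∈ N.S₁.Ov ∧ u⁻¹ ∈ N.S₂.Ov ∧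
      N.S₁.red u ≠ 0 ∧ N.S₂.red u ≠ 0 ∧ Q.ord (N.S₁.red u) = -((m : ℤ) * N.R₁ Q) := by
  classical
  obtain ⟨a, ha, ha0, hac, haQ⟩ := exists_interpolation_exact N.S₁.hFk N.s₁ N.s₁_inj
    (m • N.R₁) (N.smul_R₁_node m) {Q}
    (fun Q' hQ' i => by rw [Finset.mem_singleton.mp hQ']; exact hQ i) (N.hdeg₁ hm) (fun _ => 1)
  obtain ⟨b, hb, hb0, hbc, -⟩ := exists_interpolation_exact N.S₂.hFk N.s₂ N.s₂_inj
    (m • N.R₂) (N.smul_R₂_node m) ∅ (fun Q' hQ' => absurd hQ' (Finset.notMem_empty _))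
    (N.hdeg₂ hm) (fun _ => 1)
  have hab : ((a, b) : Fk₁ × Fk₂) ∈ nodalRR N.s₁ N.s₂ (m • N.R₁) (m • N.R₂) :=
    ⟨ha, hb, fun i => ⟨1, hac i, hbc i⟩⟩
  obtain ⟨u, hu1, hu2, hu3, hua, hub⟩ := N.exists_lift (N.m₀_le_of_m₁_le hm) hab
  have h1 : N.S₁.red u ≠ 0 := by rw [hua]; exact ha0
  have h2 : N.S₂.red u ≠ 0 := by rw [hub]; exact hb0
  refine ⟨u, ⟨hu1, hu2, hu3⟩, N.S₁.ne_zero_of_red_ne_zero h1, N.S₁.inv_mem_of_red_ne_zero h1,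
    N.S₂.inv_mem_of_red_ne_zero h2, h1, h2, ?_⟩
  rw [hua, haQ Q (Finset.mem_singleton_self Q), N.po_smul_apply₁]

/-- the same on the second component. -/
theorem NodalSeed.exists_exact_unit_of_le₂ [Infinite k] {m : ℕ} (hm : N.m₁ ≤ m)
    (Q : Place k Fk₂) (hQ : ∀ i, Q ≠ N.s₂ i) :
    ∃ u : F, N.toNodalCore.IsInt (m • N.D₀) u ∧ u ≠ 0 ∧ u⁻¹ ∈ N.S₁.Ov ∧ u⁻¹ ∈ N.S₂.Ov ∧
      N.S₁.red u ≠ 0 ∧ N.S₂.red u ≠ 0 ∧ Q.ord (N.S₂.red u) = -((m : ℤ) * N.R₂ Q) := by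
  classical
  obtain ⟨b, hb, hb0, hbc, hbQ⟩ := exists_interpolation_exact N.S₂.hFk N.s₂ N.s₂_inj
    (m • N.R₂) (N.smul_R₂_node m) {Q}
    (fun Q' hQ' i => by rw [Finset.mem_singleton.mp hQ']; exact hQ i) (N.hdeg₂ hm) (fun _ => 1)
  obtain ⟨a, ha, ha0, hac, -⟩ := exists_interpolation_exact N.S₁.hFk N.s₁ N.s₁_inj
    (m • N.R₁) (N.smul_R₁_node m) ∅ (fun Q' hQ' => absurd hQ' (Finset.notMem_empty _))
    (N.hdeg₁ hm) (fun _ => 1)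
  have hab : ((a, b) : Fk₁ × Fk₂) ∈ nodalRR N.s₁ N.s₂ (m • N.R₁) (m • N.R₂) :=
    ⟨ha, hb, fun i => ⟨1, hac i, hbc i⟩⟩
  obtain ⟨u, hu1, hu2, hu3, hua, hub⟩ := N.exists_lift (N.m₀_le_of_m₁_le hm) hab
  have h1 : N.S₁.red u ≠ 0 := by rw [hua]; exact ha0
  have h2 : N.S₂.red u ≠ 0 := by rw [hub]; exact hb0
  refine ⟨u, ⟨hu1, hu2, hu3⟩, N.S₁.ne_zero_of_red_ne_zero h1, N.S₁.inv_mem_of_red_ne_zero h1,
    N.S₂.inv_mem_of_red_ne_zero h2, h1, h2, ?_⟩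
  rw [hub, hbQ Q (Finset.mem_singleton_self Q), N.po_smul_apply₂]

/-- `hexact` of `PushHyp.push_unit`, first component. -/
theorem NodalSeed.exists_exact_zero₁ [Infinite k] (Q : Place k Fk₁) (hQ : ∀ i, Q ≠ N.s₁ i) :
    ∃ (m : ℕ) (e₀ : F), N.toNodalCore.IsInt (m • N.D₀) e₀ ∧ N.S₁.red e₀ ≠ 0 ∧
      Q.ord (N.S₁.red e₀) = -(m * N.R₁ Q) ∧ N.S₂.red e₀ = 0 :=
  ⟨N.m₁, N.exists_exact_zero_of_le₁ le_rfl Q hQ⟩

/-- `hexact` of `PushHyp.push_unit`, second component. -/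
theorem NodalSeed.exists_exact_zero₂ [Infinite k] (Q : Place k Fk₂) (hQ : ∀ i, Q ≠ N.s₂ i) :
    ∃ (m : ℕ) (e₀ : F), N.toNodalCore.IsInt (m • N.D₀) e₀ ∧ N.S₂.red e₀ ≠ 0 ∧
      Q.ord (N.S₂.red e₀) = -(m * N.R₂ Q) ∧ N.S₁.red e₀ = 0 :=
  ⟨N.m₁, N.exists_exact_zero_of_le₂ le_rfl Q hQ⟩

/-- `exact₀` of `PushHyp`, first component: for `m ≥ N.m₁` an element of `V(m D₀)` whose first
component has exact order `- m R₁(Q)` at `Q`. -/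
theorem NodalSeed.exists_exact_V₁ [Infinite k] (Q : Place k Fk₁) (hQ : ∀ i, Q ≠ N.s₁ i) :
    ∃ m₁ : ℕ, ∀ m : ℕ, m₁ ≤ m → ∃ u ∈ N.toNodalCore.V (m • N.D₀),
      (AlgHom.fst k Fk₁ Fk₂) u ≠ 0 ∧ Q.ord ((AlgHom.fst k Fk₁ Fk₂) u) = -(m * N.R₁ Q) := by
  refine ⟨N.m₁, fun m hm => ?_⟩
  obtain ⟨u, hu, -, -, -, h1, -, h3⟩ := N.exists_exact_unit_of_le₁ hm Q hQ
  exact ⟨N.toNodalCore.red₂ u, N.toNodalCore.red₂_mem_V hu, h1, h3⟩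

/-- `exact₀` of `PushHyp`, second component. -/
theorem NodalSeed.exists_exact_V₂ [Infinite k] (Q : Place k Fk₂) (hQ : ∀ i, Q ≠ N.s₂ i) :
    ∃ m₁ : ℕ, ∀ m : ℕ, m₁ ≤ m → ∃ u ∈ N.toNodalCore.V (m • N.D₀),
      (AlgHom.snd k Fk₁ Fk₂) u ≠ 0 ∧ Q.ord ((AlgHom.snd k Fk₁ Fk₂) u) = -(m * N.R₂ Q) := by
  refine ⟨N.m₁, fun m hm => ?_⟩
  obtain ⟨u, hu, -, -, -, -, h2, h3⟩ := N.exists_exact_unit_of_le₂ hm Q hQ
  exact ⟨N.toNodalCore.red₂ u, N.toNodalCore.red₂_mem_V hu, h2, h3⟩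

end Fermat.Agent.BadRed
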