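import Mathlib
import Fermat.Agent.Lib.BadRed.Nodal.Deuring2.TypeDef

set_option autoImplicit false

/-!
# Cluster T, WP N4: the push statement for TWO-SIDED units (interface)

`NodalType.PushTwo₁`, `NodalType.PushTwo₂` : `r_* (div f) = div (red f)` at the smooth points,
for the units of BOTH valuation rings (S5, proved in `PushTwo.lean`; hypothesis of S6,
`PushOne.lean`).
-/

noncomputable section

open AlgebraicCurve Fermat.Agent.RR Fermat.Agent.Deuring

namespace Fermat.Agent.BadRed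

variable {K F k Fk₁ Fk₂ : Type*} [Field K] [Field F] [Algebra K F]
  [Field k] [Field Fk₁] [Algebra k Fk₁] [Field Fk₂] [Algebra k Fk₂] {ι : Type*} [Fintype ι]
  {N : NodalSeed K F k Fk₁ Fk₂ ι}

/-- push on the first component, for the units of both valuation rings. -/
def NodalType.PushTwo₁ (T : NodalType N) : Prop :=
  ∀ f : F, f ∈ N.S₁.Ov → f⁻¹ ∈ N.S₁.Ov → f ∈ N.S₂.Ov → f⁻¹ ∈ N.S₂.Ov → f ≠ 0 →
    ∀ Q : Place k Fk₁, (∀ i, Q ≠ N.s₁ i) →
      Finsupp.mapDomain T.r (divOf N.S₁.hF f) (some (Sum.inl Q)) = Q.ord (N.S₁.red f)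

/-- push on the second component, for the units of both valuation rings. -/
def NodalType.PushTwo₂ (T : NodalType N) : Prop :=
  ∀ f : F, f ∈ N.S₁.Ov → f⁻¹ ∈ N.S₁.Ov → f ∈ N.S₂.Ov → f⁻¹ ∈ N.S₂.Ov → f ≠ 0 →
    ∀ Q : Place k Fk₂, (∀ i, Q ≠ N.s₂ i) →
      Finsupp.mapDomain T.r (divOf N.S₁.hF f) (some (Sum.inr Q)) = Q.ord (N.S₂.red f)

end Fermat.Agent.BadRed
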