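import Mathlib
import Fermat.Agent.Lib.BadRed.Nodal.Deuring2.Push

set_option autoImplicit false
set_option linter.unusedSectionVars false

/-!
# Cluster T, WP N4, step S6: the PUSH equality for units of ONE valuation ring (helper18)

ABSTRACT form (one component `π`, one point `Q`), on top of `Push.lean` (S4, S5).
`Sπ` is the constant reduction of the component `π`, `S'` the other one.

* `Push.mapDomain_apply_eq_sum`, `Push.mapDomain_mono` : generalities on `Finsupp.mapDomain`;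
* `PushHyp.mapDomain_le`, `PushHyp.mapDomain_eq` : S4, S5 in the `mapDomain` form;
* `PushHyp.le_mapDomain_D₀` : `ρ ≤ (r_* D₀)(x)`;
* `PushHyp.mapDomain_exact` (S4') : for `e ∈ L(M D₀) ∩ O₁ ∩ O₂` whose reduction has a pole of
  exact order `M ρ` at `Q`: `(r_* div e)(x) = - M ρ`, provided `(r_* D₀)(x) ≤ ρ`;
* `PushHyp.push_unit` (**S6**) : `(r_* div g)(x) = ord_Q (red_π g)` for every unit `g` of
  `O_π`, if the valuation of `K` has rank one.
-/

noncomputable section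

open AlgebraicCurve Fermat.Agent.RR Fermat.Agent.Deuring

namespace Fermat.Agent.BadRed

namespace Push

section MapDomain

variable {α β : Type*}

theorem mapDomain_apply_eq_sum (r : α → β) (f : α →₀ ℤ) (x : β)
    [DecidablePred fun a => r a = x] :
    Finsupp.mapDomain r f x = ∑ a ∈ f.support with r a = x, f a := by
  classical
  rw [Finsupp.mapDomain, Finsupp.sum_apply, Finsupp.sum, Finset.sum_filter]
  refine Finset.sum_congr rfl fun a _ => ?_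
  by_cases h : r a = x
  · rw [if_pos h, h, Finsupp.single_eq_same]
  · rw [if_neg h, Finsupp.single_eq_of_ne' h]

theorem mapDomain_nonneg (r : α → β) {f : α →₀ ℤ} (hf : 0 ≤ f) (x : β) :
    0 ≤ Finsupp.mapDomain r f x := by
  classical
  rw [mapDomain_apply_eq_sum]
  exact Finset.sum_nonneg fun a _ => hf a

theorem mapDomain_mono (r : α → β) {f g : α →₀ ℤ} (h : f ≤ g) (x : β) :
    Finsupp.mapDomain r f x ≤ Finsupp.mapDomain r g x := by
  have h1 := mapDomain_nonneg r (sub_nonneg.mpr h) x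
  have e : g = f + (g - f) := by abel
  rw [e, Finsupp.mapDomain_add, Finsupp.add_apply]
  omega

theorem mapDomain_neg_apply (r : α → β) (f : α →₀ ℤ) (x : β) :
    Finsupp.mapDomain r (-f) x = -Finsupp.mapDomain r f x := by
  have h : Finsupp.mapDomain r (-f) + Finsupp.mapDomain r f = 0 := by
    rw [← Finsupp.mapDomain_add, neg_add_cancel, Finsupp.mapDomain_zero]
  have h2 := DFunLike.congr_fun h x
  rw [Finsupp.add_apply, Finsupp.coe_zero, Pi.zero_apply] at h2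
  omega

theorem mapDomain_nsmul_apply (r : α → β) (n : ℕ) (f : α →₀ ℤ) (x : β) :
    Finsupp.mapDomain r (n • f) x = n * Finsupp.mapDomain r f x := by
  induction n with
  | zero => simp
  | succ n ih =>
    rw [succ_nsmul, Finsupp.mapDomain_add, Finsupp.add_apply, ih]
    push_cast
    ring

end MapDomain

section RR

variable {K F : Type*} [Field K] [Field F] [Algebra K F]

theorem pow_mem_riemannRochSpace {D : Divisor K F} {f : F} (hf : f ∈ riemannRochSpace D)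
    (n : ℕ) : f ^ n ∈ riemannRochSpace (n • D) := by
  induction n with
  | zero =>
    rw [pow_zero, zero_smul]
    exact one_mem_riemannRochSpace_of_nonneg (le_refl _)
  | succ n ih =>
    rw [pow_succ, succ_nsmul]
    exact mul_mem_riemannRochSpace_add ih hf

/-- `div f ≥ - D` for `f ∈ L(D)`, `f ≠ 0`. -/
theorem neg_le_divOf (hF : IsRRField K F) {D : Divisor K F} {f : F}
    (hf : f ∈ riemannRochSpace D) (hf0 : f ≠ 0) : -D ≤ divOf hF f := by
  intro v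
  rw [Finsupp.neg_apply, divOf_apply]
  exact (mem_riemannRochSpace_iff.mp hf v).resolve_left hf0

theorem sum_eq_mapDomain (hF : IsRRField K F) {β : Type*} (r : Place K F → β) (x : β) (g : F)
    [DecidablePred fun P => r P = x] :
    ∑ P ∈ (divOf hF g).support with r P = x, P.ord g
      = Finsupp.mapDomain r (divOf hF g) x := by
  rw [mapDomain_apply_eq_sum]
  refine Finset.sum_congr rfl fun P _ => ?_
  rw [divOf_apply]

end RR

end Push

open Push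

variable {K F k Fk₁ Fk₂ : Type*} [Field K] [Field F] [Algebra K F]
  [Field k] [Field Fk₁] [Algebra k Fk₁] [Field Fk₂] [Algebra k Fk₂] {ι : Type*}

namespace PushHyp

variable {C : NodalCore K F k Fk₁ Fk₂ ι} {D₀ : Divisor K F} {Fk : Type*} [Field Fk]
  [Algebra k Fk] {π : Fk₁ × Fk₂ →ₐ[k] Fk} {Q : Place k Fk} {ρ : ℤ}
  {β : Type*} {r : Place K F → β} {x : β}

/-- S4 in the `mapDomain` form. -/
theorem mapDomain_le (H : PushHyp C D₀ π Q ρ (fun P => r P = x)) {g : F} (hg₁ : g ∈ C.S₁.Ov)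
    (hg₂ : g ∈ C.S₂.Ov) (hπ : π (pairRed C.S₁ C.S₂ g) ≠ 0) :
    Finsupp.mapDomain r (divOf C.S₁.hF g) x ≤ Q.ord (π (pairRed C.S₁ C.S₂ g)) := by
  classical
  rw [← sum_eq_mapDomain]
  exact H.sum_ord_le hg₁ hg₂ hπ

/-- S5 in the `mapDomain` form. -/
theorem mapDomain_eq (H : PushHyp C D₀ π Q ρ (fun P => r P = x)) {g : F} (hg₁ : g ∈ C.S₁.Ov)
    (hg₂ : g ∈ C.S₂.Ov) (hi₁ : g⁻¹ ∈ C.S₁.Ov) (hi₂ : g⁻¹ ∈ C.S₂.Ov) (hg0 : g ≠ 0) :
    Finsupp.mapDomain r (divOf C.S₁.hF g) x = Q.ord (π (pairRed C.S₁ C.S₂ g)) := by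
  classical
  rw [← sum_eq_mapDomain]
  exact H.sum_ord_eq hg₁ hg₂ hi₁ hi₂ hg0

/-- the multiplicity of `x` in `r_* D₀` is at least `ρ`. -/
theorem le_mapDomain_D₀ (H : PushHyp C D₀ π Q ρ (fun P => r P = x)) :
    ρ ≤ Finsupp.mapDomain r D₀ x := by
  obtain ⟨m₁, hm₁⟩ := H.exact₀
  obtain ⟨u, hu, hu0, huo⟩ := hm₁ (m₁ + 1) (Nat.le_succ _)
  obtain ⟨f, hf, rfl⟩ := (C.mem_V_iff _).mp hu
  have hf0 : f ≠ 0 := by
    rintro rfl
    apply hu0
    rw [C.red₂_def, C.S₁.red_zero, C.S₂.red_zero]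
    exact map_zero π
  have h1 := H.mapDomain_le hf.2.1 hf.2.2 hu0
  have h2 := mapDomain_mono r (neg_le_divOf C.S₁.hF hf.1 hf0) x
  rw [mapDomain_neg_apply, mapDomain_nsmul_apply] at h2
  have h3 : Q.ord (π (pairRed C.S₁ C.S₂ f)) = -(((m₁ + 1 : ℕ) : ℤ) * ρ) := huo
  rw [h3] at h1
  have h4 : ((m₁ + 1 : ℕ) : ℤ) * ρ ≤ ((m₁ + 1 : ℕ) : ℤ) * Finsupp.mapDomain r D₀ x := by
    omega
  have h5 : (0 : ℤ) < ((m₁ + 1 : ℕ) : ℤ) := by positivity
  exact le_of_mul_le_mul_left h4 h5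

/-- (S4') the push equality for a function of `L(M D₀) ∩ O₁ ∩ O₂` whose reduction has a pole
of exact order `M ρ` at `Q`. -/
theorem mapDomain_exact (H : PushHyp C D₀ π Q ρ (fun P => r P = x))
    (hpush₀ : Finsupp.mapDomain r D₀ x ≤ ρ) {M : ℕ} {e : F} (he : C.IsInt (M • D₀) e)
    (he0 : π (pairRed C.S₁ C.S₂ e) ≠ 0)
    (heo : Q.ord (π (pairRed C.S₁ C.S₂ e)) = -(M * ρ)) :
    Finsupp.mapDomain r (divOf C.S₁.hF e) x = -(M * ρ) := by
  have hf0 : e ≠ 0 := by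
    rintro rfl
    apply he0
    rw [pairRed_zero, map_zero]
  apply le_antisymm
  · rw [← heo]
    exact H.mapDomain_le he.2.1 he.2.2 he0
  · have h2 := mapDomain_mono r (neg_le_divOf C.S₁.hF he.1 hf0) x
    rw [mapDomain_neg_apply, mapDomain_nsmul_apply] at h2
    have h3 : (M : ℤ) * Finsupp.mapDomain r D₀ x ≤ M * ρ :=
      mul_le_mul_of_nonneg_left hpush₀ (Int.natCast_nonneg M)
    omega

/-- the core of S6: a unit `g` of `O_π` such that `g / c` is a unit of `O'`, `c ∈ A`. -/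
theorem push_unit_aux (H : PushHyp C D₀ π Q ρ (fun P => r P = x))
    {Fk' : Type*} [Field Fk'] [Algebra k Fk']
    (Sπ : ValSetup K F k Fk) (S' : ValSetup K F k Fk')
    (hO : ∀ f : F, (f ∈ C.S₁.Ov ∧ f ∈ C.S₂.Ov) ↔ (f ∈ Sπ.Ov ∧ f ∈ S'.Ov))
    (hπ : ∀ f : F, f ∈ C.S₁.Ov → f ∈ C.S₂.Ov → π (pairRed C.S₁ C.S₂ f) = Sπ.red f)
    (hA : Sπ.A = S'.A)
    (arch : ∀ c : K, c ∈ Sπ.A → c⁻¹ ∉ Sπ.A → ∀ d : K, ∃ j : ℕ, c ^ j * d ∈ Sπ.A)
    (hD₀ : 0 ≤ D₀)
    (hexact : ∃ (m : ℕ) (e₀ : F), C.IsInt (m • D₀) e₀ ∧ Sπ.red e₀ ≠ 0 ∧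
      Q.ord (Sπ.red e₀) = -(m * ρ) ∧ S'.red e₀ = 0)
    (hpush₀ : Finsupp.mapDomain r D₀ x ≤ ρ)
    {g : F} (hg : g ∈ Sπ.Ov) (hgi : g⁻¹ ∈ Sπ.Ov) (hg0 : g ≠ 0)
    {c : K} (hc0 : c ≠ 0) (hcA : c ∈ Sπ.A)
    (hgc : g * (algebraMap K F c)⁻¹ ∈ S'.Ov) (hgci : (g * (algebraMap K F c)⁻¹)⁻¹ ∈ S'.Ov) :
    Finsupp.mapDomain r (divOf C.S₁.hF g) x = Q.ord (Sπ.red g) := by
  have hc0' : algebraMap K F c ≠ 0 := (map_ne_zero (algebraMap K F)).mpr hc0
  have hcA' : c ∈ S'.A := hA ▸ hcA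
  -- the push equality for units of both rings
  have hboth : ∀ u : F, u ∈ Sπ.Ov → u⁻¹ ∈ Sπ.Ov → u ∈ S'.Ov → u⁻¹ ∈ S'.Ov → u ≠ 0 →
      Finsupp.mapDomain r (divOf C.S₁.hF u) x = Q.ord (Sπ.red u) := by
    intro u h1 h2 h3 h4 h5
    have hu := (hO u).mpr ⟨h1, h3⟩
    have hui := (hO u⁻¹).mpr ⟨h2, h4⟩
    rw [H.mapDomain_eq hu.1 hu.2 hui.1 hui.2 h5, hπ u hu.1 hu.2]
  by_cases hci : c⁻¹ ∈ Sπ.A
  · -- `c` is a unit of `A`: `g` is a unit of `O'`
    have hci' : c⁻¹ ∈ S'.A := hA ▸ hci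
    have h3 : g ∈ S'.Ov := by
      have e : g = g * (algebraMap K F c)⁻¹ * algebraMap K F c := by
        field_simp
      rw [e]
      exact mul_mem hgc (S'.algebraMap_mem hcA')
    have h4 : g⁻¹ ∈ S'.Ov := by
      have e : g⁻¹ = (g * (algebraMap K F c)⁻¹)⁻¹ * algebraMap K F c⁻¹ := by
        rw [map_inv₀]
        field_simp
      rw [e]
      exact mul_mem hgci (S'.algebraMap_mem hci')
    exact hboth g hg hgi h3 h4 hg0
  · -- `c` lies in the maximal ideal of `A`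
    obtain ⟨m, e₀, he₀, he₀0, he₀o, he₀'⟩ := hexact
    have he₀π : e₀ ∈ Sπ.Ov ∧ e₀ ∈ S'.Ov := (hO e₀).mp ⟨he₀.2.1, he₀.2.2⟩
    have he₀ne : e₀ ≠ 0 := Sπ.ne_zero_of_red_ne_zero he₀0
    have he₀i : e₀⁻¹ ∉ S'.Ov := (S'.red_eq_zero_iff he₀π.2 he₀ne).mp he₀'
    -- the absolute value of `e₀` for the second valuation
    obtain ⟨a₀, ha₀, hs1, hs2⟩ := S'.scale e₀ he₀ne
    have ha₀' : algebraMap K F a₀ ≠ 0 := (map_ne_zero (algebraMap K F)).mpr ha₀
    have ha₀A : a₀ ∈ Sπ.A := by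
      rw [hA, ← S'.mem_Ov_iff]
      have e : algebraMap K F a₀ = e₀ * (e₀ * (algebraMap K F a₀)⁻¹)⁻¹ := by
        field_simp
      rw [e]
      exact mul_mem he₀π.2 hs2
    have ha₀i : a₀⁻¹ ∉ Sπ.A := by
      intro h
      apply he₀i
      have h' : a₀⁻¹ ∈ S'.A := hA ▸ h
      have e : e₀⁻¹ = (e₀ * (algebraMap K F a₀)⁻¹)⁻¹ * algebraMap K F a₀⁻¹ := by
        rw [map_inv₀]
        field_simp
      rw [e]
      exact mul_mem hs2 (S'.algebraMap_mem h')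
    obtain ⟨j, hj⟩ := arch a₀ ha₀A ha₀i c⁻¹
    set n : ℕ := j + 1 with hn
    -- `b = a₀ ^ n / c` lies in the maximal ideal of `A`
    set b : K := a₀ ^ n * c⁻¹ with hb
    have hbA : b ∈ Sπ.A := by
      have e : b = a₀ * (a₀ ^ j * c⁻¹) := by
        rw [hb, hn, pow_succ]
        ring
      rw [e]
      exact mul_mem ha₀A hj
    have hbi : b⁻¹ ∉ Sπ.A := by
      intro h
      apply ha₀i
      have e : a₀⁻¹ = b⁻¹ * (a₀ ^ j * c⁻¹) := by
        rw [hb, hn, pow_succ]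
        field_simp
      rw [e]
      exact mul_mem h hj
    have hbA' : b ∈ S'.A := hA ▸ hbA
    have hbres : S'.res ⟨b, hbA'⟩ = 0 := by
      have hbi' : b⁻¹ ∉ S'.A := fun h => hbi (hA ▸ h)
      obtain ⟨h1, h2⟩ := S'.res_inv_eq_zero hbi'
      have e : (⟨b, hbA'⟩ : S'.A) = ⟨b⁻¹⁻¹, h1⟩ := Subtype.ext (inv_inv b).symm
      rw [e]
      exact h2
    have hcres : Sπ.res ⟨c, hcA⟩ = 0 := by
      obtain ⟨h1, h2⟩ := Sπ.res_inv_eq_zero hci
      have e : (⟨c, hcA⟩ : Sπ.A) = ⟨c⁻¹⁻¹, h1⟩ := Subtype.ext (inv_inv c).symm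
      rw [e]
      exact h2
    -- the auxiliary function
    set e : F := e₀ ^ n + algebraMap K F c with he
    have heπ : e ∈ Sπ.Ov := add_mem (pow_mem he₀π.1 n) (Sπ.algebraMap_mem hcA)
    have he' : e ∈ S'.Ov := add_mem (pow_mem he₀π.2 n) (S'.algebraMap_mem hcA')
    have hredπ : Sπ.red e = Sπ.red e₀ ^ n := by
      rw [he, Sπ.red_add (pow_mem he₀π.1 n) (Sπ.algebraMap_mem hcA), Sπ.red_pow he₀π.1,
        Sπ.red_algebraMap hcA, hcres, map_zero, add_zero]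
    have hredπ0 : Sπ.red e ≠ 0 := by
      rw [hredπ]
      exact pow_ne_zero n he₀0
    have hene : e ≠ 0 := Sπ.ne_zero_of_red_ne_zero hredπ0
    have heiπ : e⁻¹ ∈ Sπ.Ov := Sπ.inv_mem_of_red_ne_zero hredπ0
    have hordπ : Q.ord (Sπ.red e) = -(((n * m : ℕ) : ℤ) * ρ) := by
      have hz := Q.ord_zpow (Sπ.red e₀) (n : ℤ)
      rw [zpow_natCast] at hz
      rw [hredπ, hz, he₀o]
      push_cast
      ring
    -- `e / c = 1 + b (e₀ / a₀) ^ n` is a unit of `O'`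
    set t : F := e₀ * (algebraMap K F a₀)⁻¹ with ht
    have hec : e * (algebraMap K F c)⁻¹ = b • t ^ n + 1 := by
      rw [he, ht, hb, Algebra.smul_def, map_mul, map_pow, map_inv₀, mul_pow, inv_pow]
      field_simp
    have hec' : e * (algebraMap K F c)⁻¹ ∈ S'.Ov := by
      rw [hec]
      exact add_mem (S'.smul_mem hbA' (pow_mem hs1 n)) (one_mem _)
    have hecred : S'.red (e * (algebraMap K F c)⁻¹) = 1 := by
      rw [hec, S'.red_add (S'.smul_mem hbA' (pow_mem hs1 n)) (one_mem _),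
        S'.red_smul hbA' (pow_mem hs1 n), hbres, zero_smul, zero_add, S'.red_one]
    have heci : (e * (algebraMap K F c)⁻¹)⁻¹ ∈ S'.Ov :=
      S'.inv_mem_of_red_ne_zero (by rw [hecred]; exact one_ne_zero)
    -- `u = g / e` is a unit of both rings
    set u : F := g * e⁻¹ with hu
    have hu0 : u ≠ 0 := mul_ne_zero hg0 (inv_ne_zero hene)
    have huπ : u ∈ Sπ.Ov := mul_mem hg heiπ
    have huiπ : u⁻¹ ∈ Sπ.Ov := by
      have e1 : u⁻¹ = g⁻¹ * e := by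
        rw [hu, mul_inv, inv_inv]
      rw [e1]
      exact mul_mem hgi heπ
    have hu' : u ∈ S'.Ov := by
      have e1 : u = g * (algebraMap K F c)⁻¹ * (e * (algebraMap K F c)⁻¹)⁻¹ := by
        rw [hu]
        field_simp
      rw [e1]
      exact mul_mem hgc heci
    have hui' : u⁻¹ ∈ S'.Ov := by
      have e1 : u⁻¹ = (g * (algebraMap K F c)⁻¹)⁻¹ * (e * (algebraMap K F c)⁻¹) := by
        rw [hu]
        field_simp
      rw [e1]
      exact mul_mem hgci hec'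
    have h1 := hboth u huπ huiπ hu' hui' hu0
    -- the push equality for `e`
    have heInt : C.IsInt ((n * m) • D₀) e := by
      have h12 := (hO e).mpr ⟨heπ, he'⟩
      refine ⟨?_, h12.1, h12.2⟩
      rw [he]
      apply Submodule.add_mem
      · rw [mul_smul]
        exact pow_mem_riemannRochSpace he₀.1 n
      · rw [Algebra.algebraMap_eq_smul_one]
        exact Submodule.smul_mem _ _
          (one_mem_riemannRochSpace_of_nonneg (nsmul_nonneg hD₀ _))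
    have hπe : π (pairRed C.S₁ C.S₂ e) = Sπ.red e := hπ e heInt.2.1 heInt.2.2
    have h2 := H.mapDomain_exact hpush₀ heInt (by rw [hπe]; exact hredπ0)
      (by rw [hπe]; exact hordπ)
    -- conclusion
    have hge : g = u * e := by
      rw [hu]
      field_simp
    have hdiv : divOf C.S₁.hF g = divOf C.S₁.hF u + divOf C.S₁.hF e := by
      conv_lhs => rw [hge]
      exact divOf_mul C.S₁.hF hu0 hene
    have hredu : Sπ.red g = Sπ.red u * Sπ.red e := by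
      conv_lhs => rw [hge]
      exact Sπ.red_mul huπ heπ
    have hredu0 : Sπ.red u ≠ 0 := Sπ.red_ne_zero huπ huiπ hu0
    rw [hdiv, Finsupp.mapDomain_add, Finsupp.add_apply, h1, h2, hredu,
      Q.ord_mul hredu0 hredπ0, hordπ]

/-- **S6, the PUSH equality for the units of `O_π`**. -/
theorem push_unit (H : PushHyp C D₀ π Q ρ (fun P => r P = x))
    {Fk' : Type*} [Field Fk'] [Algebra k Fk']
    (Sπ : ValSetup K F k Fk) (S' : ValSetup K F k Fk')
    (hO : ∀ f : F, (f ∈ C.S₁.Ov ∧ f ∈ C.S₂.Ov) ↔ (f ∈ Sπ.Ov ∧ f ∈ S'.Ov))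
    (hπ : ∀ f : F, f ∈ C.S₁.Ov → f ∈ C.S₂.Ov → π (pairRed C.S₁ C.S₂ f) = Sπ.red f)
    (hA : Sπ.A = S'.A)
    (arch : ∀ c : K, c ∈ Sπ.A → c⁻¹ ∉ Sπ.A → ∀ d : K, ∃ j : ℕ, c ^ j * d ∈ Sπ.A)
    (hD₀ : 0 ≤ D₀)
    (hexact : ∃ (m : ℕ) (e₀ : F), C.IsInt (m • D₀) e₀ ∧ Sπ.red e₀ ≠ 0 ∧
      Q.ord (Sπ.red e₀) = -(m * ρ) ∧ S'.red e₀ = 0)
    (hpush₀ : Finsupp.mapDomain r D₀ x ≤ ρ)
    {g : F} (hg : g ∈ Sπ.Ov) (hgi : g⁻¹ ∈ Sπ.Ov) (hg0 : g ≠ 0) :
    Finsupp.mapDomain r (divOf C.S₁.hF g) x = Q.ord (Sπ.red g) := by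
  obtain ⟨c, hc0, hs1, hs2⟩ := S'.scale g hg0
  have hc0' : algebraMap K F c ≠ 0 := (map_ne_zero (algebraMap K F)).mpr hc0
  by_cases hcA : c ∈ Sπ.A
  · exact H.push_unit_aux Sπ S' hO hπ hA arch hD₀ hexact hpush₀ hg hgi hg0 hc0 hcA hs1 hs2
  · -- pass to `g⁻¹` and `c⁻¹`
    have hciA : c⁻¹ ∈ Sπ.A := (Sπ.A.mem_or_inv_mem c).resolve_left hcA
    have h1 : g⁻¹ * (algebraMap K F c⁻¹)⁻¹ ∈ S'.Ov := by
      have e : g⁻¹ * (algebraMap K F c⁻¹)⁻¹ = (g * (algebraMap K F c)⁻¹)⁻¹ := by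
        rw [map_inv₀]
        field_simp
      rw [e]
      exact hs2
    have h2 : (g⁻¹ * (algebraMap K F c⁻¹)⁻¹)⁻¹ ∈ S'.Ov := by
      have e : (g⁻¹ * (algebraMap K F c⁻¹)⁻¹)⁻¹ = g * (algebraMap K F c)⁻¹ := by
        rw [map_inv₀]
        field_simp
      rw [e]
      exact hs1
    have h3 := H.push_unit_aux Sπ S' hO hπ hA arch hD₀ hexact hpush₀ hgi
      (by rwa [inv_inv]) (inv_ne_zero hg0) (inv_ne_zero hc0) hciA h1 h2
    rw [divOf_inv, mapDomain_neg_apply, Sπ.red_inv hg hgi hg0, Place.ord_inv] at h3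
    omega

end PushHyp

end Fermat.Agent.BadRed
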