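import Mathlib
import Fermat.Agent.Lib.BadRed.Nodal.Deuring2.PushUnit
import Fermat.Agent.Lib.BadRed.Nodal.Deuring2.PushDef
import Fermat.Agent.Lib.BadRed.Nodal.Deuring2.TypeA

set_option autoImplicit false
set_option linter.unusedSectionVars false

/-!
# Cluster T, WP N4: the PUSH equality for the two-sided units of a `NodalType` (helper18)

Abstract part (on top of `Push.lean`, `PushUnit.lean`):
* `PushHyp.divOf_apply_of_exact` (X) : if `f ∈ 𝔏(m D₀)` has a reduction with a pole of EXACT order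
  `m ρ` at `Q`, then `ord_P f = - m D₀(P)` at every place `P` reducing to `Q`;
* `PushHyp.mapDomain_D₀_eq` (F3) : `(r_* D₀)(x) = ρ`, as soon as some two-sided unit of
  `𝔏(m D₀)`, `m > 0`, has a reduction with a pole of exact order `m ρ` at `Q`.

Concrete part (`T : NodalType N`, `Q` a smooth point):
* `NodalSeed.pt_exists_unit₁/₂` : two-sided units of `𝔏(m D₀)` of exact order at `Q`;
* `NodalType.pushHyp₁/₂` : the hypotheses `PushHyp` hold;
* `NodalType.pushTwo₁ : T.PushTwo₁`, `NodalType.pushTwo₂ : T.PushTwo₂` (**S5**);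
* `NodalType.mapDomain_D₀₁/₂` (F3) : `r_* D₀ = R₁ + R₂` at the smooth points.
-/

noncomputable section

open AlgebraicCurve Fermat.Agent.RR Fermat.Agent.Deuring

namespace Fermat.Agent.BadRed

open Push

variable {K F k Fk₁ Fk₂ : Type*} [Field K] [Field F] [Algebra K F]
  [Field k] [Field Fk₁] [Algebra k Fk₁] [Field Fk₂] [Algebra k Fk₂] {ι : Type*}

namespace PushHyp

variable {C : NodalCore K F k Fk₁ Fk₂ ι} {D₀ : Divisor K F} {Fk : Type*} [Field Fk]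
  [Algebra k Fk] {π : Fk₁ × Fk₂ →ₐ[k] Fk} {Q : Place k Fk} {ρ : ℤ}

/-- (X) a function of `𝔏(m D₀)` whose reduction has a pole of exact order `m ρ` at `Q` has a
pole of exact order `m D₀(P)` at every place `P` reducing to `Q`. -/
theorem divOf_apply_of_exact {toQ : Place K F → Prop} (H : PushHyp C D₀ π Q ρ toQ) {m : ℕ}
    {f : F} (hf : C.IsInt (m • D₀) f) (hf0 : π (pairRed C.S₁ C.S₂ f) ≠ 0)
    (hfo : Q.ord (π (pairRed C.S₁ C.S₂ f)) = -(m * ρ)) {P : Place K F} (hP : toQ P) :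
    divOf C.S₁.hF f P = -(m * D₀ P) := by
  classical
  have hfne : f ≠ 0 := by
    rintro rfl
    apply hf0
    rw [pairRed_zero, map_zero]
  rw [divOf_apply]
  have hmem := mem_riemannRochSpace_iff.mp hf.1
  have hge : -(m * D₀ P) ≤ P.ord f := by
    have := (hmem P).resolve_left hfne
    rwa [Finsupp.smul_apply, nsmul_eq_mul] at this
  by_contra hne
  have hgt : -(m * D₀ P) + 1 ≤ P.ord f := by
    have : -(m * D₀ P) ≠ P.ord f := fun h => hne h.symm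
    omega
  -- `f ∈ L(m D₀ - P)`
  have hf' : C.IsInt (m • D₀ - Finsupp.single P 1) f := by
    refine ⟨?_, hf.2.1, hf.2.2⟩
    rw [mem_riemannRochSpace_iff]
    intro v
    right
    by_cases hv : v = P
    · subst hv
      rw [Finsupp.sub_apply, Finsupp.smul_apply, nsmul_eq_mul, Finsupp.single_eq_same]
      omega
    · rw [Finsupp.sub_apply, Finsupp.single_eq_of_ne hv, sub_zero]
      exact (hmem v).resolve_left hfne
  obtain ⟨m', w, hw, hw0, hwo⟩ := H.pole P hP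
  have h1 : pairRed C.S₁ C.S₂ f * w ∈ C.V ((m + m') • D₀) := by
    have h := Push.mul_mem_V C (C.red₂_mem_V hf') hw
    have e : (m • D₀ - Finsupp.single P 1) + (m' • D₀ + Finsupp.single P 1) = (m + m') • D₀ := by
      rw [add_smul]
      abel
    rw [e] at h
    exact h
  have h2 := H.base (m + m') _ h1
  rw [map_mul] at h2
  have h3 := le_of_mem_ordGE h2 (mul_ne_zero hf0 hw0)
  rw [Q.ord_mul hf0 hw0, hfo, hwo] at h3
  push_cast at h3
  linarith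

variable {β : Type*} {r : Place K F → β} {x : β}

/-- (F3) `(r_* D₀)(x) = ρ`. -/
theorem mapDomain_D₀_eq (H : PushHyp C D₀ π Q ρ (fun P => r P = x)) {m : ℕ} (hm : 0 < m)
    {u : F} (hu : C.IsInt (m • D₀) u) (hi₁ : u⁻¹ ∈ C.S₁.Ov) (hi₂ : u⁻¹ ∈ C.S₂.Ov)
    (hu0 : π (pairRed C.S₁ C.S₂ u) ≠ 0)
    (huo : Q.ord (π (pairRed C.S₁ C.S₂ u)) = -(m * ρ)) :
    Finsupp.mapDomain r D₀ x = ρ := by
  classical
  have hune : u ≠ 0 := by
    rintro rfl
    apply hu0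
    rw [pairRed_zero, map_zero]
  have h5 := H.mapDomain_eq hu.2.1 hu.2.2 hi₁ hi₂ hune
  rw [huo] at h5
  -- the divisor `div u + m D₀` vanishes at the places reducing to `Q`
  have h6 : Finsupp.mapDomain r (divOf C.S₁.hF u + m • D₀) x = 0 := by
    rw [mapDomain_apply_eq_sum]
    refine Finset.sum_eq_zero fun P hP => ?_
    have hPx : r P = x := (Finset.mem_filter.mp hP).2
    rw [Finsupp.add_apply, H.divOf_apply_of_exact hu hu0 huo hPx, Finsupp.smul_apply,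
      nsmul_eq_mul]
    ring
  rw [Finsupp.mapDomain_add, Finsupp.add_apply, mapDomain_nsmul_apply, h5] at h6
  have h7 : (m : ℤ) * Finsupp.mapDomain r D₀ x = m * ρ := by omega
  have hm' : (m : ℤ) ≠ 0 := by exact_mod_cast hm.ne'
  exact mul_left_cancel₀ hm' h7

end PushHyp

/-! ### the concrete instance -/

variable [Fintype ι] {N : NodalSeed K F k Fk₁ Fk₂ ι}

/-- two-sided units of `𝔏(m D₀)` whose first reduction has exact order `-m R₁(Q)` at `Q`. -/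
theorem NodalSeed.pt_exists_unit₁ [Infinite k] (N : NodalSeed K F k Fk₁ Fk₂ ι) {m : ℕ}
    (hm : N.m₁ ≤ m) (Q : Place k Fk₁) (hQ : ∀ i, Q ≠ N.s₁ i) :
    ∃ u : F, N.toNodalCore.IsInt (m • N.D₀) u ∧ N.S₁.red u ≠ 0 ∧ N.S₂.red u ≠ 0 ∧
      Q.ord (N.S₁.red u) = -((m : ℤ) * N.R₁ Q) := by
  classical
  obtain ⟨y, hy, hy1, hy2, -, -, hyT, -⟩ := exists_nodal_pair N.S₁.hFk N.S₂.hFk N.s₁ N.s₂
    N.s₁_inj N.s₂_inj (m • N.R₁) (m • N.R₂) (N.smul_R₁_node m) (N.smul_R₂_node m) {Q} ∅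
    (fun Q' hQ' i => by rw [Finset.mem_singleton.mp hQ']; exact hQ i)
    (fun Q' hQ' => absurd hQ' (Finset.notMem_empty _)) (N.hdeg₁ hm) (N.hdeg₂ hm) (fun _ => 1)
  obtain ⟨u, hu, hu₁, hu₂, hr₁, hr₂⟩ :=
    N.exists_lift (N.m₀_le_of_m₁_le hm) (a := y.1) (b := y.2) hy
  refine ⟨u, ⟨hu, hu₁, hu₂⟩, ?_, ?_, ?_⟩
  · rw [hr₁]
    exact hy1
  · rw [hr₂]
    exact hy2
  · rw [hr₁, hyT Q (Finset.mem_singleton_self Q), Finsupp.smul_apply, nsmul_eq_mul]

/-- two-sided units of `𝔏(m D₀)` whose second reduction has exact order `-m R₂(Q)` at `Q`. -/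
theorem NodalSeed.pt_exists_unit₂ [Infinite k] (N : NodalSeed K F k Fk₁ Fk₂ ι) {m : ℕ}
    (hm : N.m₁ ≤ m) (Q : Place k Fk₂) (hQ : ∀ i, Q ≠ N.s₂ i) :
    ∃ u : F, N.toNodalCore.IsInt (m • N.D₀) u ∧ N.S₁.red u ≠ 0 ∧ N.S₂.red u ≠ 0 ∧
      Q.ord (N.S₂.red u) = -((m : ℤ) * N.R₂ Q) := by
  classical
  obtain ⟨y, hy, hy1, hy2, -, -, -, hyT⟩ := exists_nodal_pair N.S₁.hFk N.S₂.hFk N.s₁ N.s₂
    N.s₁_inj N.s₂_inj (m • N.R₁) (m • N.R₂) (N.smul_R₁_node m) (N.smul_R₂_node m) ∅ {Q}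
    (fun Q' hQ' => absurd hQ' (Finset.notMem_empty _))
    (fun Q' hQ' i => by rw [Finset.mem_singleton.mp hQ']; exact hQ i)
    (N.hdeg₁ hm) (N.hdeg₂ hm) (fun _ => 1)
  obtain ⟨u, hu, hu₁, hu₂, hr₁, hr₂⟩ :=
    N.exists_lift (N.m₀_le_of_m₁_le hm) (a := y.1) (b := y.2) hy
  refine ⟨u, ⟨hu, hu₁, hu₂⟩, ?_, ?_, ?_⟩
  · rw [hr₁]
    exact hy1
  · rw [hr₂]
    exact hy2
  · rw [hr₂, hyT Q (Finset.mem_singleton_self Q), Finsupp.smul_apply, nsmul_eq_mul]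

namespace NodalType

variable [Infinite k] (T : NodalType N)

/-- the hypotheses of the push inequality, first component. -/
theorem pushHyp₁ (Q : Place k Fk₁) (hQ : ∀ i, Q ≠ N.s₁ i) :
    PushHyp N.toNodalCore N.D₀ (AlgHom.fst k Fk₁ Fk₂) Q (N.R₁ Q)
      (fun P => T.r P = some (Sum.inl Q)) where
  base := by
    intro m y hy
    have h1 := (N.V_le m hy).1
    rw [mem_ordGE]
    rcases mem_riemannRochSpace_iff.mp h1 Q with h | h
    · exact Or.inl h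
    · right
      rw [Finsupp.smul_apply, nsmul_eq_mul] at h
      exact h
  exact₀ := by
    refine ⟨N.m₁, fun m hm => ?_⟩
    obtain ⟨u, hu, hu1, -, huo⟩ := N.pt_exists_unit₁ hm Q hQ
    exact ⟨N.toNodalCore.red₂ u, N.toNodalCore.red₂_mem_V hu, hu1, huo⟩
  pole := by
    intro P hP
    obtain ⟨m, f, hf, hf0, hfo⟩ := T.pole₁ P Q hP
    refine ⟨m, N.toNodalCore.red₂ f, N.toNodalCore.red₂_mem_V hf, hf0, ?_⟩
    rw [Finsupp.smul_apply, nsmul_eq_mul] at hfo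
    exact hfo
  away := by
    intro P hP
    obtain ⟨m, f, hf, hf0, hfo⟩ := T.unit₁ P Q hQ hP
    refine ⟨m, N.toNodalCore.red₂ f, N.toNodalCore.red₂_mem_V hf, hf0, ?_⟩
    rw [Finsupp.smul_apply, nsmul_eq_mul] at hfo
    exact hfo

/-- the hypotheses of the push inequality, second component. -/
theorem pushHyp₂ (Q : Place k Fk₂) (hQ : ∀ i, Q ≠ N.s₂ i) :
    PushHyp N.toNodalCore N.D₀ (AlgHom.snd k Fk₁ Fk₂) Q (N.R₂ Q)
      (fun P => T.r P = some (Sum.inr Q)) where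
  base := by
    intro m y hy
    have h1 := (N.V_le m hy).2.1
    rw [mem_ordGE]
    rcases mem_riemannRochSpace_iff.mp h1 Q with h | h
    · exact Or.inl h
    · right
      rw [Finsupp.smul_apply, nsmul_eq_mul] at h
      exact h
  exact₀ := by
    refine ⟨N.m₁, fun m hm => ?_⟩
    obtain ⟨u, hu, -, hu2, huo⟩ := N.pt_exists_unit₂ hm Q hQ
    exact ⟨N.toNodalCore.red₂ u, N.toNodalCore.red₂_mem_V hu, hu2, huo⟩
  pole := by
    intro P hP
    obtain ⟨m, f, hf, hf0, hfo⟩ := T.pole₂ P Q hP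
    refine ⟨m, N.toNodalCore.red₂ f, N.toNodalCore.red₂_mem_V hf, hf0, ?_⟩
    rw [Finsupp.smul_apply, nsmul_eq_mul] at hfo
    exact hfo
  away := by
    intro P hP
    obtain ⟨m, f, hf, hf0, hfo⟩ := T.unit₂ P Q hQ hP
    refine ⟨m, N.toNodalCore.red₂ f, N.toNodalCore.red₂_mem_V hf, hf0, ?_⟩
    rw [Finsupp.smul_apply, nsmul_eq_mul] at hfo
    exact hfo

/-- **S5**, first component: push for the units of both valuation rings. -/
theorem pushTwo₁ : T.PushTwo₁ := by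
  intro f h1 h1i h2 h2i hf0 Q hQ
  exact (T.pushHyp₁ Q hQ).mapDomain_eq h1 h2 h1i h2i hf0

/-- **S5**, second component: push for the units of both valuation rings. -/
theorem pushTwo₂ : T.PushTwo₂ := by
  intro f h1 h1i h2 h2i hf0 Q hQ
  exact (T.pushHyp₂ Q hQ).mapDomain_eq h1 h2 h1i h2i hf0

/-- (F3) `r_* D₀ = R₁` at the smooth points of the first component. -/
theorem mapDomain_D₀₁ (Q : Place k Fk₁) (hQ : ∀ i, Q ≠ N.s₁ i) :
    Finsupp.mapDomain T.r N.D₀ (some (Sum.inl Q)) = N.R₁ Q := by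
  have hm : N.m₁ ≤ N.m₁ + 1 := Nat.le_succ _
  obtain ⟨u, hu, hu1, hu2, huo⟩ := N.pt_exists_unit₁ hm Q hQ
  have huo' : Q.ord ((AlgHom.fst k Fk₁ Fk₂) (pairRed N.S₁ N.S₂ u))
      = -(((N.m₁ + 1 : ℕ) : ℤ) * N.R₁ Q) := huo
  exact (T.pushHyp₁ Q hQ).mapDomain_D₀_eq (Nat.succ_pos _) hu
    (N.S₁.inv_mem_of_red_ne_zero hu1) (N.S₂.inv_mem_of_red_ne_zero hu2) hu1 huo'

/-- (F3) `r_* D₀ = R₂` at the smooth points of the second component. -/
theorem mapDomain_D₀₂ (Q : Place k Fk₂) (hQ : ∀ i, Q ≠ N.s₂ i) :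
    Finsupp.mapDomain T.r N.D₀ (some (Sum.inr Q)) = N.R₂ Q := by
  have hm : N.m₁ ≤ N.m₁ + 1 := Nat.le_succ _
  obtain ⟨u, hu, hu1, hu2, huo⟩ := N.pt_exists_unit₂ hm Q hQ
  have huo' : Q.ord ((AlgHom.snd k Fk₁ Fk₂) (pairRed N.S₁ N.S₂ u))
      = -(((N.m₁ + 1 : ℕ) : ℤ) * N.R₂ Q) := huo
  exact (T.pushHyp₂ Q hQ).mapDomain_D₀_eq (Nat.succ_pos _) hu
    (N.S₁.inv_mem_of_red_ne_zero hu1) (N.S₂.inv_mem_of_red_ne_zero hu2) hu2 huo'

end NodalType

end Fermat.Agent.BadRed
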