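import Mathlib
import Fermat.Agent.Lib.BadRed.Nodal.Deuring2.PushTwo
import Fermat.Agent.Lib.BadRed.Nodal.Deuring2.PushOne
import Fermat.Agent.Lib.BadRed.Nodal.Deuring2.Assembly

set_option autoImplicit false
set_option linter.unusedSectionVars false

/-!
# Cluster T, WP N4, step S6: the PUSH statements of a `NodalType` (helper18)

* `NodalType.push₁ : T.Push₁`, `NodalType.push₂ : T.Push₂` : for every unit `g` of `O₁` (of `O₂`)
  and every smooth point `Q` of the first (second) component,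
  `(r_* div g)(Q) = ord_Q (red g)`.

Proof: `PushHyp.push_unit` (`PushUnit.lean`) with `NodalType.pushHyp₁/₂`, `NodalType.mapDomain_D₀₁/₂`
(`PushTwo.lean`) and `NodalSeed.exists_exact_zero₁/₂` (`PushOne.lean`, helper80).
-/

noncomputable section

open AlgebraicCurve Fermat.Agent.RR Fermat.Agent.Deuring

namespace Fermat.Agent.BadRed

variable {K F k Fk₁ Fk₂ : Type*} [Field K] [Field F] [Algebra K F]
  [Field k] [Field Fk₁] [Algebra k Fk₁] [Field Fk₂] [Algebra k Fk₂] {ι : Type*} [Fintype ι]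
  {N : NodalSeed K F k Fk₁ Fk₂ ι}

namespace NodalType

variable [Infinite k] (T : NodalType N)

/-- **S6**, first component: the push statement for the units of `O₁`. -/
theorem push₁ : T.Push₁ := by
  intro f hf hfi hf0 Q hQ
  exact (T.pushHyp₁ Q hQ).push_unit N.S₁ N.S₂ (fun _ => Iff.rfl) (fun _ _ _ => rfl) N.A_eq
    N.arch N.D₀_nonneg (N.exists_exact_zero₁ Q hQ) (T.mapDomain_D₀₁ Q hQ).le hf hfi hf0

/-- **S6**, second component: the push statement for the units of `O₂`. -/
theorem push₂ : T.Push₂ := by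
  intro f hf hfi hf0 Q hQ
  have arch₂ : ∀ c : K, c ∈ N.S₂.A → c⁻¹ ∉ N.S₂.A → ∀ d : K, ∃ j : ℕ, c ^ j * d ∈ N.S₂.A := by
    rw [← N.A_eq]
    exact N.arch
  exact (T.pushHyp₂ Q hQ).push_unit N.S₂ N.S₁ (fun _ => and_comm) (fun _ _ _ => rfl) N.A_eq.symm
    arch₂ N.D₀_nonneg (N.exists_exact_zero₂ Q hQ) (T.mapDomain_D₀₂ Q hQ).le hf hfi hf0

end NodalType

end Fermat.Agent.BadRed
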