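import Mathlib
import Fermat.Agent.Lib.BadRed.Nodal.Deuring2.TypeB
import Fermat.Agent.Lib.BadRed.Nodal.Deuring2.TypeDual
import Fermat.Agent.Lib.BadRed.Nodal.Deuring2.TypeDef

set_option autoImplicit false
set_option linter.unusedSectionVars false
set_option linter.style.haveILetI false

/-!
# Cluster T, WP N4: the reduction map of a seed, ASSEMBLY of `NodalType`  (helper79)

`N.nodalType : NodalType N` with `r = N.rmap` (`TypeB.lean`, S2), all the characteristic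
properties from `TypeDual.lean` (S3, helper80).  Blueprint: `NOTES/blueprint-T-N4.md`.
-/

noncomputable section

open AlgebraicCurve Fermat.Agent.RR Fermat.Agent.Deuring

namespace Fermat.Agent.BadRed

variable {K F k Fk₁ Fk₂ : Type*} [Field K] [Field F] [Algebra K F]
  [Field k] [Field Fk₁] [Algebra k Fk₁] [Field Fk₂] [Algebra k Fk₂]
  {ι : Type*} [Fintype ι]

/-- **The reduction map of places** attached to a seed, with its characteristic properties. -/
def NodalSeed.nodalType [Infinite k] (N : NodalSeed K F k Fk₁ Fk₂ ι) : NodalType N where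
  r := N.rmap
  r_ne_node₁ := fun P i h => by
    obtain ⟨f, hf, hne, hord⟩ := NodalSeed.rmap_eq_inl_iff.mp h
    exact N.td_ne_node₁ hf hne hord i rfl
  r_ne_node₂ := fun P i h => by
    obtain ⟨f, hf, hne, hord⟩ := NodalSeed.rmap_eq_inr_iff.mp h
    exact N.td_ne_node₂ hf hne hord i rfl
  pole₁ := fun P Q h => by
    obtain ⟨f, hf, hne, hord⟩ := NodalSeed.rmap_eq_inl_iff.mp h
    exact ⟨N.m₁, f, hf, hne, hord⟩
  pole₂ := fun P Q h => by
    obtain ⟨f, hf, hne, hord⟩ := NodalSeed.rmap_eq_inr_iff.mp h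
    exact ⟨N.m₁, f, hf, hne, hord⟩
  zero₁ := fun P Q h => by
    obtain ⟨f, hf, hne, hord⟩ := NodalSeed.rmap_eq_inl_iff.mp h
    exact N.td_zero₁ hf hne hord
  zero₂ := fun P Q h => by
    obtain ⟨f, hf, hne, hord⟩ := NodalSeed.rmap_eq_inr_iff.mp h
    exact N.td_zero₂ hf hne hord
  unit₁ := fun P Q hQ h => by
    rcases N.trichotomy le_rfl P with ⟨Q', hQ'⟩ | ⟨Q', hQ'⟩ | hN
    · obtain ⟨f, hf, hne, hord⟩ := hQ'
      have hQQ' : Q ≠ Q' := by
        rintro rfl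
        exact h (NodalSeed.rmap_eq_inl_iff.mpr ⟨f, hf, hne, hord⟩)
      exact N.td_unit₁₁ hf hne hord Q hQ hQQ'
    · obtain ⟨f, hf, hne, hord⟩ := hQ'
      exact N.td_unit₂₁ hf hne hord Q hQ
    · obtain ⟨f, hf, hf₁, hf₂, hn⟩ := hN
      exact N.td_unitN₁ hf hf₁ hf₂ hn Q hQ
  unit₂ := fun P Q hQ h => by
    rcases N.trichotomy le_rfl P with ⟨Q', hQ'⟩ | ⟨Q', hQ'⟩ | hN
    · obtain ⟨f, hf, hne, hord⟩ := hQ'
      exact N.td_unit₁₂ hf hne hord Q hQ
    · obtain ⟨f, hf, hne, hord⟩ := hQ'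
      have hQQ' : Q ≠ Q' := by
        rintro rfl
        exact h (NodalSeed.rmap_eq_inr_iff.mpr ⟨f, hf, hne, hord⟩)
      exact N.td_unit₂₂ hf hne hord Q hQ hQQ'
    · obtain ⟨f, hf, hf₁, hf₂, hn⟩ := hN
      exact N.td_unitN₂ hf hf₁ hf₂ hn Q hQ
  node_unit := fun P X h i => by
    rcases X with Q | Q
    · obtain ⟨f, hf, hne, hord⟩ := NodalSeed.rmap_eq_inl_iff.mp h
      exact N.td_node_unit₁ hf hne hord i
    · obtain ⟨f, hf, hne, hord⟩ := NodalSeed.rmap_eq_inr_iff.mp h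
      exact N.td_node_unit₂ hf hne hord i
  supp := fun P hP => by
    rcases N.trichotomy le_rfl P with ⟨Q', hQ'⟩ | ⟨Q', hQ'⟩ | hN
    · left
      obtain ⟨f, hf, hne, hord⟩ := hQ'
      exact ⟨Q', NodalSeed.rmap_eq_inl_iff.mpr ⟨f, hf, hne, hord⟩, N.td_supp₁ hP hf hne hord⟩
    · right
      obtain ⟨f, hf, hne, hord⟩ := hQ'
      exact ⟨Q', NodalSeed.rmap_eq_inr_iff.mpr ⟨f, hf, hne, hord⟩, N.td_supp₂ hP hf hne hord⟩
    · obtain ⟨f, hf, hf₁, hf₂, hn⟩ := hN
      exact absurd (N.td_suppN hP hf hf₁ hf₂ hn) id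

@[simp]
theorem NodalSeed.nodalType_r [Infinite k] (N : NodalSeed K F k Fk₁ Fk₂ ι) :
    N.nodalType.r = N.rmap := rfl

end Fermat.Agent.BadRed
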