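import Mathlib
import Fermat.Agent.Lib.BadRed.Nodal.Deuring2.PushType
import Fermat.Agent.Lib.BadRed.Nodal.Deuring2.Type
import Fermat.Agent.Lib.BadRed.Nodal.Deuring2.Export
import Fermat.Agent.Lib.BadRed.Nodal.Gluing.ToricKeyOfLift

set_option autoImplicit false

/-!
# Cluster T, WP N4: MAIN THEOREM of the nodal Deuring construction (SEED ⇒ NodalSetup)

For a seed `N : NodalSeed K F k Fk₁ Fk₂ ι` (`Seed.lean`), `k` infinite:

* `N.nodalSetup : NodalSetup K F k Fk₁ Fk₂ ι` : the nodal reduction package, with the SAME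
  `S₁ S₂ s₁ s₂` (definitionally) and `r = N.rmap`;
* `N.nodalSetup_genusRel` : the genus relation `g + 1 = g₁ + g₂ + s`;
* `N.nodalSetup_hasLift` : the lifting property (LIFT);
* `N.nodalSetup_supp` : the places of `supp D₀` reduce into `supp R₁ ∪ supp R₂`;
* `N.nodalSetup_isInertial` : canonicity (automorphisms trivial on the special fibre which
  preserve `D₀` are inertial);
* `N.abstractToricKey` : `AbstractToricKeyStatement N.nodalSetup` (N2 + N3 applied to N4).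

Unconditional (no hypothesis besides the seed); all the pieces are in `Deuring2/*.lean`.
-/

noncomputable section

open AlgebraicCurve Fermat.Agent.RR Fermat.Agent.Deuring

namespace Fermat.Agent.BadRed

variable {K F k Fk₁ Fk₂ : Type*} [Field K] [Field F] [Algebra K F]
  [Field k] [Field Fk₁] [Algebra k Fk₁] [Field Fk₂] [Algebra k Fk₂] {ι : Type*} [Fintype ι]

/-- **The nodal reduction package of a seed.** -/
def NodalSeed.nodalSetup [Infinite k] (N : NodalSeed K F k Fk₁ Fk₂ ι) :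
    NodalSetup K F k Fk₁ Fk₂ ι :=
  N.nodalType.toNodalSetup N.nodalType.push₁ N.nodalType.push₂

section

variable [Infinite k] (N : NodalSeed K F k Fk₁ Fk₂ ι)

@[simp] theorem NodalSeed.nodalSetup_S₁ : N.nodalSetup.S₁ = N.S₁ := rfl

@[simp] theorem NodalSeed.nodalSetup_S₂ : N.nodalSetup.S₂ = N.S₂ := rfl

@[simp] theorem NodalSeed.nodalSetup_s₁ : N.nodalSetup.s₁ = N.s₁ := rfl

@[simp] theorem NodalSeed.nodalSetup_s₂ : N.nodalSetup.s₂ = N.s₂ := rfl

@[simp] theorem NodalSeed.nodalSetup_r : N.nodalSetup.r = N.rmap := rfl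

/-- the genus relation. -/
theorem NodalSeed.nodalSetup_genusRel : N.nodalSetup.GenusRel :=
  N.genus_eq

/-- (LIFT). -/
theorem NodalSeed.nodalSetup_hasLift : N.nodalSetup.HasLift N.D₀ N.R₁ N.R₂ :=
  N.nodalType.toNodalSetup_hasLift _ _

/-- (SUPP). -/
theorem NodalSeed.nodalSetup_supp (P : Place K F) (hP : N.D₀ P ≠ 0) :
    (∃ Q, N.nodalSetup.r P = some (Sum.inl Q) ∧ N.R₁ Q ≠ 0) ∨
      (∃ Q, N.nodalSetup.r P = some (Sum.inr Q) ∧ N.R₂ Q ≠ 0) :=
  N.nodalType.toNodalSetup_supp _ _ P hP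

/-- canonicity. -/
theorem NodalSeed.nodalSetup_isInertial (t : SemilinearAut K F)
    (hm₁ : ∀ f, f ∈ N.S₁.Ov → t • f ∈ N.S₁.Ov)
    (hr₁ : ∀ f, f ∈ N.S₁.Ov → N.S₁.red (t • f) = N.S₁.red f)
    (hm₂ : ∀ f, f ∈ N.S₂.Ov → t • f ∈ N.S₂.Ov)
    (hr₂ : ∀ f, f ∈ N.S₂.Ov → N.S₂.red (t • f) = N.S₂.red f)
    (hD : ∀ P, N.D₀ (t • P) = N.D₀ P) : N.nodalSetup.IsInertial t :=
  N.nodalType.toNodalSetup_isInertial _ _ t hm₁ hr₁ hm₂ hr₂ hD

end

/-- **N2 + N3 + N4**: inertial automorphisms act trivially on the toric part of the nodal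
package of a seed. -/
theorem NodalSeed.abstractToricKey [IsAlgClosed k] [Infinite k] [Nonempty ι]
    (N : NodalSeed K F k Fk₁ Fk₂ ι) : AbstractToricKeyStatement N.nodalSetup :=
  Gluing.abstractToricKey_of_lift N.nodalSetup (D₀ := N.D₀) (R₁ := N.R₁) (R₂ := N.R₂)
    N.R₁_pos N.R₂_pos N.R₁_node N.R₂_node N.nodalSetup_hasLift

end Fermat.Agent.BadRed
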