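import Mathlib
import Fermat.Agent.Lib.BadRed.Nodal.Deuring2.Canon
import Fermat.Agent.Lib.BadRed.Nodal.Deuring2.Assembly
import Fermat.Agent.Lib.BadRed.Nodal.Gluing.Semilinear

set_option autoImplicit false
set_option linter.unusedSectionVars false

/-!
# Cluster T, WP N4 / S35 (P2m, abstract part): SEMILINEAR canonicity of the reduction of places
(helper18)

`t` a semilinear automorphism of `F / K` which preserves both valuation rings and acts on the two
residue function fields through semilinear automorphisms `τ₁`, `τ₂`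
(`red_i (t • f) = τ_i • red_i f`), which preserves the seed divisor `D₀`, such that `τ_i` preserves
`R_i` and the set of nodes (`NodalSeed.IsSemiAut`).  Then

* `NodalType.r_smul_semi` : `T.r (t • P) = τ • T.r P`  (`τ = Sum.map τ₁ τ₂` on the ordinary
  places, `none ↦ none`);
* `NodalType.isOrd_smul` : `t` preserves the ordinary places;
* `NodalType.isFrobLike` : if moreover `τ_i` raises the constants to the power `Q` and FIXES
  every node, then `t` is Frobenius-like for the nodal package `T.toNodalSetup`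
  (`Gluing.IsFrobLike`, the hypothesis of helper76's `Gluing/Main.lean`).

The inertial case of `Canon.lean` (helper16) is `τ₁ = τ₂ = 1`.
-/

noncomputable section

open AlgebraicCurve Fermat.Agent.RR Fermat.Agent.Deuring

namespace Fermat.Agent.BadRed

variable {K F k Fk₁ Fk₂ : Type*} [Field K] [Field F] [Algebra K F]
  [Field k] [Field Fk₁] [Algebra k Fk₁] [Field Fk₂] [Algebra k Fk₂] {ι : Type*} [Fintype ι]
  {N : NodalSeed K F k Fk₁ Fk₂ ι}

/-! ### generalities -/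

/-- if `t` preserves a valuation ring and acts on the residue field through a ring homomorphism,
then `t⁻¹` preserves the valuation ring. -/
theorem cs_inv_mem {Fk : Type*} [Field Fk] [Algebra k Fk] (S : ValSetup K F k Fk)
    (t : SemilinearAut K F) (τ : Fk →+* Fk) (hm : ∀ f, f ∈ S.Ov → t • f ∈ S.Ov)
    (hr : ∀ f, f ∈ S.Ov → S.red (t • f) = τ (S.red f)) (f : F) (hf : f ∈ S.Ov) :
    t⁻¹ • f ∈ S.Ov := by
  by_cases hf0 : f = 0
  · rw [hf0, smul_zero]
    exact S.Ov.zero_mem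
  by_contra hcon
  set g : F := (t⁻¹ • f)⁻¹ with hg
  have hg0 : g ≠ 0 := by
    rw [hg]
    refine inv_ne_zero ?_
    intro h
    exact hcon (h ▸ S.Ov.zero_mem)
  have hgmem : g ∈ S.Ov := (S.Ov.mem_or_inv_mem (t⁻¹ • f)).resolve_left hcon
  have hginv : g⁻¹ ∉ S.Ov := by
    rw [hg, inv_inv]
    exact hcon
  have hgred : S.red g = 0 := (S.red_eq_zero_iff hgmem hg0).mpr hginv
  have htg : t • g = f⁻¹ := by
    rw [hg, smul_inv'', smul_inv_smul]
  have h1 : f⁻¹ ∈ S.Ov := htg ▸ hm g hgmem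
  have h2 : S.red f⁻¹ = 0 := by
    rw [← htg, hr g hgmem, hgred, map_zero]
  have h3 := (S.red_eq_zero_iff h1 (inv_ne_zero hf0)).mp h2
  rw [inv_inv] at h3
  exact h3 hf

/-- the reduction of `t⁻¹ • f`. -/
theorem cs_inv_red {Fk : Type*} [Field Fk] [Algebra k Fk] (S : ValSetup K F k Fk)
    (t : SemilinearAut K F) (τ : SemilinearAut k Fk) (hm : ∀ f, f ∈ S.Ov → t • f ∈ S.Ov)
    (hr : ∀ f, f ∈ S.Ov → S.red (t • f) = τ • S.red f) (f : F) (hf : f ∈ S.Ov) :
    S.red (t⁻¹ • f) = τ⁻¹ • S.red f := by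
  have hmem := cs_inv_mem S t (SemilinearAut.toRingAut τ : Fk →+* Fk) hm
    (fun f hf => hr f hf) f hf
  have h := hr (t⁻¹ • f) hmem
  rw [smul_inv_smul] at h
  rw [h, inv_smul_smul]

/-- a set of places indexed by a finite type which is stable under `τ` is stable under
`τ⁻¹`. -/
theorem cs_node_inv {Fk : Type*} [Field Fk] [Algebra k Fk] (τ : SemilinearAut k Fk)
    (s : ι → Place k Fk) (hs : Function.Injective s) (h : ∀ i, ∃ j, τ • s i = s j) :
    ∀ i, ∃ j, τ⁻¹ • s i = s j := by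
  choose φ hφ using h
  have hinj : Function.Injective φ := by
    intro a b hab
    apply hs
    have h1 : τ • s a = τ • s b := by rw [hφ a, hφ b, hab]
    exact MulAction.injective τ h1
  have hsurj : Function.Surjective φ := Finite.injective_iff_surjective.mp hinj
  intro i
  obtain ⟨a, rfl⟩ := hsurj i
  exact ⟨a, by rw [← hφ a, inv_smul_smul]⟩

/-! ### semilinear automorphisms of a seed -/

/-- `t` is a semilinear automorphism of the seed `N`, acting on the two components of the special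
fibre through `τ₁`, `τ₂`. -/
structure NodalSeed.IsSemiAut (N : NodalSeed K F k Fk₁ Fk₂ ι) (t : SemilinearAut K F)
    (τ₁ : SemilinearAut k Fk₁) (τ₂ : SemilinearAut k Fk₂) : Prop where
  mem₁ : ∀ f : F, f ∈ N.S₁.Ov → t • f ∈ N.S₁.Ov
  red₁ : ∀ f : F, f ∈ N.S₁.Ov → N.S₁.red (t • f) = τ₁ • N.S₁.red f
  mem₂ : ∀ f : F, f ∈ N.S₂.Ov → t • f ∈ N.S₂.Ov
  red₂ : ∀ f : F, f ∈ N.S₂.Ov → N.S₂.red (t • f) = τ₂ • N.S₂.red f
  D₀_smul : ∀ P : Place K F, N.D₀ (t • P) = N.D₀ P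
  R₁_smul : ∀ Q : Place k Fk₁, N.R₁ (τ₁ • Q) = N.R₁ Q
  R₂_smul : ∀ Q : Place k Fk₂, N.R₂ (τ₂ • Q) = N.R₂ Q
  node₁ : ∀ i, ∃ j, τ₁ • N.s₁ i = N.s₁ j
  node₂ : ∀ i, ∃ j, τ₂ • N.s₂ i = N.s₂ j

namespace NodalSeed.IsSemiAut

variable {t : SemilinearAut K F} {τ₁ : SemilinearAut k Fk₁} {τ₂ : SemilinearAut k Fk₂}

/-- the identity. -/
theorem one (N : NodalSeed K F k Fk₁ Fk₂ ι) : N.IsSemiAut 1 1 1 where
  mem₁ f hf := by rwa [one_smul]
  red₁ f _ := by rw [one_smul, one_smul]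
  mem₂ f hf := by rwa [one_smul]
  red₂ f _ := by rw [one_smul, one_smul]
  D₀_smul P := by rw [one_smul]
  R₁_smul Q := by rw [one_smul]
  R₂_smul Q := by rw [one_smul]
  node₁ i := ⟨i, by rw [one_smul]⟩
  node₂ i := ⟨i, by rw [one_smul]⟩

/-- the inverse. -/
theorem inv (h : N.IsSemiAut t τ₁ τ₂) : N.IsSemiAut t⁻¹ τ₁⁻¹ τ₂⁻¹ where
  mem₁ := cs_inv_mem N.S₁ t (SemilinearAut.toRingAut τ₁ : Fk₁ →+* Fk₁) h.mem₁ h.red₁
  red₁ := cs_inv_red N.S₁ t τ₁ h.mem₁ h.red₁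
  mem₂ := cs_inv_mem N.S₂ t (SemilinearAut.toRingAut τ₂ : Fk₂ →+* Fk₂) h.mem₂ h.red₂
  red₂ := cs_inv_red N.S₂ t τ₂ h.mem₂ h.red₂
  D₀_smul P := by
    have := h.D₀_smul (t⁻¹ • P)
    rw [smul_inv_smul] at this
    exact this.symm
  R₁_smul Q := by
    have := h.R₁_smul (τ₁⁻¹ • Q)
    rw [smul_inv_smul] at this
    exact this.symm
  R₂_smul Q := by
    have := h.R₂_smul (τ₂⁻¹ • Q)
    rw [smul_inv_smul] at this
    exact this.symm
  node₁ := cs_node_inv τ₁ N.s₁ N.s₁_inj h.node₁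
  node₂ := cs_node_inv τ₂ N.s₂ N.s₂_inj h.node₂

/-- the product. -/
theorem mul {t' : SemilinearAut K F} {τ₁' : SemilinearAut k Fk₁} {τ₂' : SemilinearAut k Fk₂}
    (h : N.IsSemiAut t τ₁ τ₂) (h' : N.IsSemiAut t' τ₁' τ₂') :
    N.IsSemiAut (t * t') (τ₁ * τ₁') (τ₂ * τ₂') where
  mem₁ f hf := by
    rw [mul_smul]
    exact h.mem₁ _ (h'.mem₁ f hf)
  red₁ f hf := by
    rw [mul_smul, mul_smul, h.red₁ _ (h'.mem₁ f hf), h'.red₁ f hf]
  mem₂ f hf := by
    rw [mul_smul]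
    exact h.mem₂ _ (h'.mem₂ f hf)
  red₂ f hf := by
    rw [mul_smul, mul_smul, h.red₂ _ (h'.mem₂ f hf), h'.red₂ f hf]
  D₀_smul P := by rw [mul_smul, h.D₀_smul, h'.D₀_smul]
  R₁_smul Q := by rw [mul_smul, h.R₁_smul, h'.R₁_smul]
  R₂_smul Q := by rw [mul_smul, h.R₂_smul, h'.R₂_smul]
  node₁ i := by
    obtain ⟨j, hj⟩ := h'.node₁ i
    obtain ⟨l, hl⟩ := h.node₁ j
    exact ⟨l, by rw [mul_smul, hj, hl]⟩
  node₂ i := by
    obtain ⟨j, hj⟩ := h'.node₂ i
    obtain ⟨l, hl⟩ := h.node₂ j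
    exact ⟨l, by rw [mul_smul, hj, hl]⟩

end NodalSeed.IsSemiAut

/-! ### the theorem -/

namespace NodalType

variable {t : SemilinearAut K F} {τ₁ : SemilinearAut k Fk₁} {τ₂ : SemilinearAut k Fk₂}

/-- the action of `(τ₁, τ₂)` on the reductions of the ordinary places. -/
def semiMap (τ₁ : SemilinearAut k Fk₁) (τ₂ : SemilinearAut k Fk₂) :
    Option (Place k Fk₁ ⊕ Place k Fk₂) → Option (Place k Fk₁ ⊕ Place k Fk₂) :=
  Option.map (Sum.map (fun Q => τ₁ • Q) (fun Q => τ₂ • Q))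

@[simp]
theorem semiMap_none : semiMap τ₁ τ₂ none = none := rfl

@[simp]
theorem semiMap_inl (Q : Place k Fk₁) :
    semiMap τ₁ τ₂ (some (Sum.inl Q)) = some (Sum.inl (τ₁ • Q)) := rfl

@[simp]
theorem semiMap_inr (Q : Place k Fk₂) :
    semiMap τ₁ τ₂ (some (Sum.inr Q)) = some (Sum.inr (τ₂ • Q)) := rfl

/-- first component. -/
theorem r_smul_inl (T : NodalType N) (h : N.IsSemiAut t τ₁ τ₂) {P : Place K F}
    {Q : Place k Fk₁} (hX : T.r P = some (Sum.inl Q)) :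
    T.r (t • P) = some (Sum.inl (τ₁ • Q)) := by
  obtain ⟨m, f, hf, hred, hord⟩ := T.pole₁ P Q hX
  have hQ : ∀ i, Q ≠ N.s₁ i := fun i hi => T.r_ne_node₁ P i (hi ▸ hX)
  have hQ' : ∀ i, τ₁ • Q ≠ N.s₁ i := by
    intro i hi
    obtain ⟨j, hj⟩ := h.inv.node₁ i
    apply hQ j
    rw [← hj, ← hi, inv_smul_smul]
  have hf' := canon_isInt_smul t h.mem₁ h.mem₂ h.D₀_smul hf
  have hred' : N.S₁.red (t • f) = τ₁ • N.S₁.red f := h.red₁ f hf.2.1
  refine T.r_eq_inl_of_pole hQ' hf' ?_ ?_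
  · rw [hred']
    exact (smul_ne_zero_iff_ne τ₁).mpr hred
  · rw [hred', SemilinearAut.ord_smul, hord, Finsupp.smul_apply, Finsupp.smul_apply,
      h.R₁_smul]

/-- second component. -/
theorem r_smul_inr (T : NodalType N) (h : N.IsSemiAut t τ₁ τ₂) {P : Place K F}
    {Q : Place k Fk₂} (hX : T.r P = some (Sum.inr Q)) :
    T.r (t • P) = some (Sum.inr (τ₂ • Q)) := by
  obtain ⟨m, f, hf, hred, hord⟩ := T.pole₂ P Q hX
  have hQ : ∀ i, Q ≠ N.s₂ i := fun i hi => T.r_ne_node₂ P i (hi ▸ hX)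
  have hQ' : ∀ i, τ₂ • Q ≠ N.s₂ i := by
    intro i hi
    obtain ⟨j, hj⟩ := h.inv.node₂ i
    apply hQ j
    rw [← hj, ← hi, inv_smul_smul]
  have hf' := canon_isInt_smul t h.mem₁ h.mem₂ h.D₀_smul hf
  have hred' : N.S₂.red (t • f) = τ₂ • N.S₂.red f := h.red₂ f hf.2.2
  refine T.r_eq_inr_of_pole hQ' hf' ?_ ?_
  · rw [hred']
    exact (smul_ne_zero_iff_ne τ₂).mpr hred
  · rw [hred', SemilinearAut.ord_smul, hord, Finsupp.smul_apply, Finsupp.smul_apply,
      h.R₂_smul]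

/-- the ordinary places. -/
theorem r_smul_some (T : NodalType N) (h : N.IsSemiAut t τ₁ τ₂) {P : Place K F}
    {X : Place k Fk₁ ⊕ Place k Fk₂} (hX : T.r P = some X) :
    T.r (t • P) = semiMap τ₁ τ₂ (some X) := by
  rcases X with Q | Q
  · exact T.r_smul_inl h hX
  · exact T.r_smul_inr h hX

/-- **semilinear canonicity**: `r (t • P) = τ • r P`. -/
theorem r_smul_semi (T : NodalType N) (h : N.IsSemiAut t τ₁ τ₂) (P : Place K F) :
    T.r (t • P) = semiMap τ₁ τ₂ (T.r P) := by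
  cases hP : T.r P with
  | some X => exact T.r_smul_some h hP
  | none =>
    cases htP : T.r (t • P) with
    | none => rfl
    | some X =>
      have h1 := T.r_smul_some h.inv htP
      rw [inv_smul_smul, hP] at h1
      exact absurd h1 (by simp [semiMap])

/-- `t` preserves the ordinary places. -/
theorem isSome_r_smul (T : NodalType N) (h : N.IsSemiAut t τ₁ τ₂) {P : Place K F}
    (hP : ∃ X, T.r P = some X) : ∃ X, T.r (t • P) = some X := by
  obtain ⟨X, hX⟩ := hP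
  exact ⟨_, T.r_smul_some h hX⟩

/-- `t` preserves the ordinary places of the nodal package. -/
theorem isOrd_smul [Infinite k] (T : NodalType N) (h₁ : T.Push₁) (h₂ : T.Push₂)
    (h : N.IsSemiAut t τ₁ τ₂) (P : Place K F) (hP : (T.toNodalSetup h₁ h₂).IsOrd P) :
    (T.toNodalSetup h₁ h₂).IsOrd (t • P) :=
  T.isSome_r_smul h hP

/-- **Frobenius-like automorphisms of the nodal package of a seed**: a semilinear automorphism of
the seed which raises the constants of the special fibre to the power `Q` and fixes every node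
is Frobenius-like. -/
theorem isFrobLike [Infinite k] (T : NodalType N) (h₁ : T.Push₁) (h₂ : T.Push₂)
    (h : N.IsSemiAut t τ₁ τ₂) (Q : ℕ)
    (hc₁ : ∀ c : k, SemilinearAut.baseAut τ₁ c = c ^ Q)
    (hc₂ : ∀ c : k, SemilinearAut.baseAut τ₂ c = c ^ Q)
    (hfix₁ : ∀ i, τ₁ • N.s₁ i = N.s₁ i) (hfix₂ : ∀ i, τ₂ • N.s₂ i = N.s₂ i) :
    Gluing.IsFrobLike (T.toNodalSetup h₁ h₂) t Q
      (SemilinearAut.toRingAut τ₁ : Fk₁ →+* Fk₁) (SemilinearAut.toRingAut τ₂ : Fk₂ →+* Fk₂) where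
  mem₁ := h.mem₁
  red₁ := h.red₁
  mem₂ := h.mem₂
  red₂ := h.red₂
  const₁ c := by
    show SemilinearAut.toRingAut τ₁ (algebraMap k Fk₁ c) = _
    rw [SemilinearAut.commutes, hc₁]
  const₂ c := by
    show SemilinearAut.toRingAut τ₂ (algebraMap k Fk₂ c) = _
    rw [SemilinearAut.commutes, hc₂]
  node₁ i x hx := by
    show 0 < (N.s₁ i).ord (τ₁ • x)
    have h1 := SemilinearAut.ord_smul τ₁ (N.s₁ i) x
    rw [hfix₁ i] at h1
    rw [h1]
    exact hx
  node₂ i x hx := by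
    show 0 < (N.s₂ i).ord (τ₂ • x)
    have h1 := SemilinearAut.ord_smul τ₂ (N.s₂ i) x
    rw [hfix₂ i] at h1
    rw [h1]
    exact hx
  ord_smul := T.isOrd_smul h₁ h₂ h

end NodalType

end Fermat.Agent.BadRed
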